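/-
helper89 (P-CFT by-product: CHEBOTAREV, existence form).  Shared definitions and the statements
of the work packages, as `Prop`-valued definitions.  Blueprint: board key `CHEB_PLAN`.

Route (no class field theory): generalized Dirichlet theorem for `F(ζ_m)/F` via the `L`-series of
the norm-residue characters `𝔞 ↦ χ(N𝔞 mod m)`, then Chebotarev's cyclotomic trick.
-/
import Mathlib
import Fermat.Agent.Lib.CFT.Unram.EulerProduct

set_option autoImplicit false

namespace Fermat.Agent.Lib.CFT.Cheb

open NumberField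
open scoped nonZeroDivisors

section Basic

variable (F : Type*) [Field F] [NumberField F] (m : ℕ)

/-- The residue modulo `m` of the absolute norm, as a monoid homomorphism on nonzero ideals. -/
noncomputable def normRes : (Ideal (𝓞 F))⁰ →* ZMod m where
  toFun 𝔞 := (Ideal.absNorm (𝔞 : Ideal (𝓞 F)) : ZMod m)
  map_one' := by simp
  map_mul' 𝔞 𝔟 := by simp

@[simp] lemma normRes_apply (𝔞 : (Ideal (𝓞 F))⁰) :
    normRes F m 𝔞 = (Ideal.absNorm (𝔞 : Ideal (𝓞 F)) : ZMod m) := rfl

/-- The character of the monoid of nonzero ideals attached to a Dirichlet character modulo `m`: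
`𝔞 ↦ χ(N𝔞 mod m)`.  It vanishes exactly on the ideals which are not prime to `m`. -/
noncomputable def idealChar (χ : DirichletCharacter ℂ m) : (Ideal (𝓞 F))⁰ →* ℂ :=
  (χ.toMonoidHom).comp (normRes F m)

@[simp] lemma idealChar_apply (χ : DirichletCharacter ℂ m) (𝔞 : (Ideal (𝓞 F))⁰) :
    idealChar F m χ 𝔞 = χ (Ideal.absNorm (𝔞 : Ideal (𝓞 F)) : ZMod m) := rfl

lemma norm_idealChar_le_one (χ : DirichletCharacter ℂ m) (𝔞 : (Ideal (𝓞 F))⁰) :
    ‖idealChar F m χ 𝔞‖ ≤ 1 :=
  DirichletCharacter.norm_le_one χ _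

/-- The `L`-series `∑_{𝔞 ≠ 0} χ(N𝔞) N𝔞^(-s)` of a norm-residue character. -/
noncomputable def LSer (χ : DirichletCharacter ℂ m) (s : ℂ) : ℂ :=
  Unram.EulerProduct.LSeriesIdeal F (idealChar F m χ) s

/-- The partial zeta function `∑ N𝔞^(-s)` over the nonzero ideals with `N𝔞 ≡ a (mod m)`
(real `s`). -/
noncomputable def partialZeta (a : ZMod m) (s : ℝ) : ℝ :=
  ∑' 𝔞 : {𝔞 : (Ideal (𝓞 F))⁰ // normRes F m 𝔞 = a},
    (Ideal.absNorm ((𝔞 : (Ideal (𝓞 F))⁰) : Ideal (𝓞 F)) : ℝ) ^ (-s)

/-- The unit residues modulo `m` which are norms of (nonzero) ideals. -/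
def normResidues : Set (ZMod m)ˣ :=
  {a | ∃ 𝔞 : (Ideal (𝓞 F))⁰, normRes F m 𝔞 = (a : ZMod m)}

/-- The primes of `F` of absolute degree one whose norm is `≡ a (mod m)`. -/
def degOnePrimes (a : ZMod m) : Set (Ideal (𝓞 F)) :=
  {𝔮 | 𝔮.IsPrime ∧ (Ideal.absNorm 𝔮).Prime ∧ (Ideal.absNorm 𝔮 : ZMod m) = a}

end Basic

/-! ### Statements of the work packages -/

universe u

/-- WP-Z (analytic core): differences of norm-residue partial zeta functions are Lipschitz on
`(1, 2]` (so they have a limit at `s = 1`, although each of them has a pole there). -/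
def PartialZetaLipschitz : Prop :=
  ∀ (F : Type u) [Field F] [NumberField F] (m : ℕ) [NeZero m] (a b : (ZMod m)ˣ),
    a ∈ normResidues F m → b ∈ normResidues F m →
    ∃ B : ℝ, ∀ s ∈ Set.Ioc (1 : ℝ) 2, ∀ t ∈ Set.Ioc (1 : ℝ) 2,
      |(partialZeta F m a s - partialZeta F m b s) -
        (partialZeta F m a t - partialZeta F m b t)| ≤ B * |s - t|

/-- WP-L (generalized Dirichlet theorem): if the `m`-th cyclotomic polynomial is irreducible over
`F`, every unit residue class modulo `m` contains the norms of infinitely many primes of `F` of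
absolute degree one. -/
def CyclotomicDirichlet : Prop :=
  ∀ (F : Type u) [Field F] [NumberField F] (m : ℕ) [NeZero m],
    Irreducible (Polynomial.cyclotomic m F) →
    ∀ a : (ZMod m)ˣ, (degOnePrimes F m (a : ZMod m)).Infinite

/-- WP-X (Chebotarev, existence form): every element of the Galois group of a finite Galois
extension of number fields is an arithmetic Frobenius at primes above infinitely many rational
primes `p`, and the prime of `K` below can be taken of absolute degree one. -/
def Chebotarev : Prop :=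
  ∀ (K L : Type u) [Field K] [NumberField K] [Field L] [NumberField L] [Algebra K L]
    [IsGalois K L] (σ : Gal(L/K)),
    {p : ℕ | p.Prime ∧ ∃ P : Ideal (𝓞 L), P.IsPrime ∧
      Ideal.absNorm (P.under (𝓞 K)) = p ∧ IsArithFrobAt (𝓞 K) σ P}.Infinite

end Fermat.Agent.Lib.CFT.Cheb
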