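import Mathlib
import Fermat.Prelude.Def_FLTPrelim_Ramification
import Fermat.Agent.Lib.FrobeniusExists
import Fermat.Agent.Lib.CFT.S14.Bridge
import Fermat.Agent.Lib.CFT.Cheb.Defs

/-!
helper58 (Chebotarev block, WP-B).  Bridge between arithmetic Frobenius elements at primes of a
finite Galois number field `M ⊆ Qbar` (Mathlib `IsArithFrobAt`) and Frobenius elements of
valuation subrings of `Qbar` in the sense of the prelude (`ValuationSubring.IsFrobeniusAt`).

Main results:
* `Bridge.exists_frobenius_lift_aux`: an arithmetic Frobenius at a prime `P` of `𝓞 M` is the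
  restriction of a prelude Frobenius element of some valuation subring of `L` over the same
  rational prime.
* `exists_frobenius_lift_of`: Chebotarev (existence form) implies that every element of the
  absolute Galois group agrees on any finite Galois `E` with a Frobenius element at a rational
  prime outside any given finite set.

The proof of the first result follows helper19's `S14.Bridge.exists_inertia_lift_aux`.
-/

set_option autoImplicit false

open NumberField
open scoped Pointwise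

namespace Fermat.Agent.Lib.CFT.Cheb

namespace Bridge

open Fermat.Agent.Lib.CFT.S14 Fermat.Agent.Lib.CFT.S14.Bridge

section main

variable {L : Type*} [Field L] [Algebra ℚ L] [IsGalois ℚ L]

/-- An element of `Gal(M/ℚ)` acting as the `l`-th power map modulo the prime `P ∋ l` of `𝓞 M`
is the restriction of a Frobenius element (in the sense of the prelude) of a valuation subring of
`L` lying over `l`. -/
theorem exists_frobenius_lift_aux (M : IntermediateField ℚ L) [NumberField M] [IsGalois ℚ M]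
    (P : Ideal (𝓞 M)) (hP : P.IsPrime) {l : ℕ} (hlp : l.Prime) (hlP : (l : 𝓞 M) ∈ P)
    (σ : Gal(M/ℚ)) (hs : ∀ x : 𝓞 M, σ • x - x ^ l ∈ P) :
    ∃ A : ValuationSubring L, A.LiesOverPrime l ∧
      ∃ s : L ≃ₐ[ℚ] L, A.IsFrobeniusAt s l ∧ AlgEquiv.restrictNormalHom M s = σ := by
  classical
  have hLalg : Algebra.IsAlgebraic ℚ L := inferInstance
  have hP0 : P ≠ ⊥ := by
    intro h0
    rw [h0, Ideal.mem_bot] at hlP
    have : ((l : ℕ) : 𝓞 M) = 0 := hlP
    rw [Nat.cast_eq_zero] at this
    exact hlp.ne_zero this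
  have hPmax : P.IsMaximal := hP.isMaximal hP0
  -- the embedding of `𝓞 M` into `L`
  let toL : 𝓞 M →+* L := (algebraMap M L).comp (algebraMap (𝓞 M) M)
  have htoL : ∀ x : 𝓞 M, toL x = ((toIntegers M x : integralClosure ℤ L) : L) := fun x => rfl
  have htoL_inj : Function.Injective toL :=
    (algebraMap M L).injective.comp RingOfIntegers.coe_injective
  have htoL_int : ∀ x : 𝓞 M, IsIntegral ℤ (toL x) := fun x => (toIntegers M x).2
  -- a valuation subring cutting out `P`
  obtain ⟨A, hPA⟩ : ∃ A : ValuationSubring L, ∀ x : 𝓞 M, toL x ∈ A.nonunits ↔ x ∈ P := by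
    let R : Subring L := toL.range
    let I : Ideal R := P.map toL.rangeRestrict
    have hI : I ≠ ⊤ := by
      intro htop
      have h1 : (1 : R) ∈ I := by rw [htop]; trivial
      rw [Ideal.mem_map_iff_of_surjective _ toL.rangeRestrict_surjective] at h1
      obtain ⟨x, hxP, hx1⟩ := h1
      have h2 : toL x = 1 := congrArg Subtype.val hx1
      have h3 : x = 1 := htoL_inj (by rw [h2, map_one])
      exact hP.ne_top ((Ideal.eq_top_iff_one P).mpr (h3 ▸ hxP))
    obtain ⟨A, -, hIA⟩ := Ideal.image_subset_nonunits_valuationSubring I hI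
    refine ⟨A, fun x => ⟨fun hx => ?_, fun hx => ?_⟩⟩
    · by_contra hxP
      obtain ⟨y, i, hi, hyi⟩ := hPmax.exists_inv hxP
      have hi' : toL i ∈ A.nonunits :=
        hIA ⟨toL.rangeRestrict i, Ideal.mem_map_of_mem _ hi, rfl⟩
      have h1 : toL y * toL x + toL i = 1 := by
        rw [← map_mul, ← map_add, hyi, map_one]
      apply one_not_mem_nonunits A
      rw [← h1]
      refine A.nonunits.add_mem ?_ hi'
      rw [mul_comm]
      exact mul_mem_nonunits_of_mem A hx (mem_valuationSubring_of_isIntegral A (htoL_int y))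
    · exact hIA ⟨toL.rangeRestrict x, Ideal.mem_map_of_mem _ hx, rfl⟩
  have hA : (l : L) ∈ A.nonunits := by
    have := (hPA (l : 𝓞 M)).mpr hlP
    rwa [map_natCast] at this
  -- relative set-up
  have hGalML : IsGalois M L := IsGalois.tower_top_intermediateField M
  have hIntML : Algebra.IsIntegral M L := inferInstance
  let _ := relAlgebra (L := L) M
  have := rel_smulComm (L := L) M
  have := rel_isInvariant (L := L) M
  let _ : TopologicalSpace (integralClosure ℤ L) := ⊥
  have : DiscreteTopology (integralClosure ℤ L) := ⟨rfl⟩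
  have := rel_continuousSMul (L := L) M
  let PP : Ideal (integralClosure ℤ L) := primeOfValuationSubring A
  have hPPprime : PP.IsPrime := primeOfValuationSubring_isPrime A
  have hPPunder : PP.under (𝓞 M) = P := by
    ext x
    rw [Ideal.under_def, Ideal.mem_comap]
    change toIntegers M x ∈ primeOfValuationSubring A ↔ _
    rw [mem_primeOfValuationSubring, ← htoL, hPA]
  -- lift `σ` and move the prime back
  obtain ⟨s0, hs0⟩ := AlgEquiv.restrictNormalHom_surjective L σ
  have hs0M : ∀ (τ : L ≃ₐ[ℚ] L) (m : M), τ (algebraMap M L m)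
      = algebraMap M L (AlgEquiv.restrictNormalHom M τ m) := fun τ m =>
    (AlgEquiv.restrictNormal_commutes τ M m).symm
  have hcoe_smul : ∀ (τ : Gal(M/ℚ)) (x : 𝓞 M), ((τ • x : 𝓞 M) : M) = τ (x : M) := fun τ x => rfl
  -- `σ` preserves `P`
  have hsP : ∀ x : 𝓞 M, σ • x ∈ P ↔ x ∈ P := by
    intro x
    constructor
    · intro h
      have h1 : x ^ l ∈ P := by
        have := P.sub_mem h (hs x)
        simpa using this
      exact hP.mem_of_pow_mem l h1
    · intro h
      have h1 : x ^ l ∈ P := P.pow_mem_of_mem h l hlp.pos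
      have := P.add_mem (hs x) h1
      simpa using this
  have hsinvP : ∀ x : 𝓞 M, σ⁻¹ • x ∈ P ↔ x ∈ P := by
    intro x
    rw [← hsP (σ⁻¹ • x), smul_inv_smul]
  -- action of automorphisms of `L` over `ℚ` on `toL`
  have htoL_smul : ∀ (τ : L ≃ₐ[ℚ] L) (x : 𝓞 M),
      τ (toL x) = toL ((AlgEquiv.restrictNormalHom M τ) • x) := by
    intro τ x
    change τ (algebraMap M L (x : M))
      = algebraMap M L (((AlgEquiv.restrictNormalHom M τ) • x : 𝓞 M) : M)
    rw [hs0M, hcoe_smul]
  let Q' : Ideal (integralClosure ℤ L) := s0 • PP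
  have hQ'mem : ∀ b : integralClosure ℤ L, b ∈ Q' ↔ (s0⁻¹ (b : L)) ∈ A.nonunits := by
    intro b
    change b ∈ s0 • PP ↔ _
    rw [Ideal.mem_pointwise_smul_iff_inv_smul_mem]
    rfl
  have hQ'under : Q'.under (𝓞 M) = P := by
    ext x
    rw [Ideal.under_def, Ideal.mem_comap]
    change toIntegers M x ∈ Q' ↔ _
    rw [hQ'mem, ← htoL, htoL_smul, hPA, map_inv, hs0]
    exact hsinvP x
  obtain ⟨t, ht⟩ := Algebra.IsInvariant.exists_smul_of_under_eq_of_profinite
    (A := 𝓞 M) (G := L ≃ₐ[M] L) PP Q' (hPPunder.trans hQ'under.symm)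
  -- restriction of scalars from `M` to `ℚ`
  have hres : ∀ g : L ≃ₐ[M] L, AlgEquiv.restrictNormalHom M (g.restrictScalars ℚ) = 1 := by
    intro g
    ext m
    have h1 := hs0M (g.restrictScalars ℚ) m
    change algebraMap M L (AlgEquiv.restrictNormalHom M (g.restrictScalars ℚ) m)
      = algebraMap M L m
    rw [← h1]
    exact g.commutes m
  have hPPmem : ∀ b : integralClosure ℤ L, b ∈ PP ↔ (b : L) ∈ A.nonunits := fun b => Iff.rfl
  let s1 : L ≃ₐ[ℚ] L := (t.restrictScalars ℚ)⁻¹ * s0
  have hs1res : AlgEquiv.restrictNormalHom M s1 = σ := by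
    change AlgEquiv.restrictNormalHom M ((t.restrictScalars ℚ)⁻¹ * s0) = σ
    rw [map_mul, map_inv, hres, hs0, inv_one, one_mul]
  have hs1 : ∀ b : integralClosure ℤ L, (s1 (b : L) ∈ A.nonunits ↔ (b : L) ∈ A.nonunits) := by
    intro b
    have h1 : (s0 • b) ∈ Q' ↔ (b : L) ∈ A.nonunits := by
      rw [hQ'mem]
      change s0⁻¹ (s0 (b : L)) ∈ A.nonunits ↔ _
      rw [show s0⁻¹ (s0 (b : L)) = (b : L) from s0.symm_apply_apply _]
    rw [← h1, ht, Ideal.mem_pointwise_smul_iff_inv_smul_mem, hPPmem]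
    rfl
  -- `s1` stabilises `PP` and induces an automorphism of the residue field
  have hs1stab : s1 ∈ MulAction.stabilizer (L ≃ₐ[ℚ] L) PP := by
    rw [MulAction.mem_stabilizer_iff]
    ext b
    rw [Ideal.mem_pointwise_smul_iff_inv_smul_mem, hPPmem, hPPmem, ← hs1 (s1⁻¹ • b)]
    change s1 (s1⁻¹ (b : L)) ∈ A.nonunits ↔ _
    rw [show s1 (s1⁻¹ (b : L)) = (b : L) from s1.apply_symm_apply _]
  have hLO : PP.LiesOver P := ⟨hPPunder.symm⟩
  let e0 := Ideal.Quotient.stabilizerHom PP (PP.under ℤ) (L ≃ₐ[ℚ] L) ⟨s1, hs1stab⟩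
  have he0 : ∀ b : integralClosure ℤ L,
      e0 (Ideal.Quotient.mk PP b) = Ideal.Quotient.mk PP (s1 • b) := fun b => rfl
  -- the Frobenius of the residue field
  have hlunder : (l : ℤ) ∈ PP.under ℤ := by
    rw [Ideal.under_def, Ideal.mem_comap, hPPmem]
    have : ((algebraMap ℤ (integralClosure ℤ L) (l : ℤ) : integralClosure ℤ L) : L) = (l : L) := by
      simp
    rw [this]
    exact hA
  obtain ⟨F, hF⟩ := exists_frobenius_algEquiv hlp PP (PP.under ℤ) hlunder
  let e : (integralClosure ℤ L ⧸ PP) ≃ₐ[𝓞 M ⧸ P] (integralClosure ℤ L ⧸ PP) :=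
    AlgEquiv.ofRingEquiv (f := F.toRingEquiv.trans e0.symm.toRingEquiv) (by
      intro x
      obtain ⟨x, rfl⟩ := Ideal.Quotient.mk_surjective x
      rw [Ideal.Quotient.algebraMap_mk_of_liesOver]
      change e0.symm (F (Ideal.Quotient.mk PP (toIntegers M x)))
        = Ideal.Quotient.mk PP (toIntegers M x)
      rw [AlgEquiv.symm_apply_eq, he0, hF, ← map_pow, Ideal.Quotient.eq, hPPmem]
      change (toL x) ^ l - s1 (toL x) ∈ A.nonunits
      rw [htoL_smul, hs1res, ← map_pow, ← map_sub, hPA]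
      have := P.neg_mem (hs x)
      simpa using this)
  have he : ∀ y : integralClosure ℤ L ⧸ PP, e y = e0.symm (F y) := fun y => rfl
  obtain ⟨r, hr⟩ := Ideal.Quotient.stabilizerHom_surjective_of_profinite
    (G := L ≃ₐ[M] L) P PP e
  -- the final element
  let s : L ≃ₐ[ℚ] L := s1 * ((r : L ≃ₐ[M] L).restrictScalars ℚ)
  have hsres : AlgEquiv.restrictNormalHom M s = σ := by
    change AlgEquiv.restrictNormalHom M (s1 * ((r : L ≃ₐ[M] L).restrictScalars ℚ)) = σ
    rw [map_mul, hres, hs1res, mul_one]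
  have hsint : ∀ b : L, IsIntegral ℤ b → s b - b ^ l ∈ A.nonunits := by
    intro b hb
    have h1 := DFunLike.congr_fun hr (Ideal.Quotient.mk PP ⟨b, hb⟩)
    rw [he, Ideal.Quotient.stabilizerHom_apply, AlgEquiv.eq_symm_apply, he0, hF, ← map_pow,
      Ideal.Quotient.eq, hPPmem] at h1
    exact h1
  exact ⟨A, hA, s, isFrobeniusAt_of_integers A hlp hA s hsint, hsres⟩

end main

end Bridge

open Fermat.Agent.Lib.CFT.S14 in
/-- **WP-B.** Chebotarev (existence form) implies: every element of the absolute Galois group of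
`ℚ` agrees, on any finite Galois subextension `E`, with a Frobenius element (in the sense of the
prelude) at a rational prime outside any given finite set. -/
theorem exists_frobenius_lift_of (h : Chebotarev.{0}) (E : IntermediateField ℚ Qbar)
    [FiniteDimensional ℚ E] [IsGalois ℚ E] (σ : Qbar ≃ₐ[ℚ] Qbar) (S : Finset ℕ) :
    ∃ l, l.Prime ∧ l ∉ S ∧ ∃ A : ValuationSubring Qbar, A.LiesOverPrime l ∧
      ∃ φ : Qbar ≃ₐ[ℚ] Qbar, A.IsFrobeniusAt φ l ∧ ∀ x ∈ E, φ x = σ x := by
  have := Fermat.Agent.Lib.isGalois_algebraicClosure_rat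
  obtain ⟨l, ⟨hlp, P, hP, hnorm, hfrob⟩, hlS⟩ :=
    (h ℚ E (AlgEquiv.restrictNormalHom E σ)).exists_notMem_finset S
  have hcard : Nat.card (𝓞 ℚ ⧸ P.under (𝓞 ℚ)) = l := by
    rw [← hnorm, Ideal.absNorm_apply, Submodule.cardQuot_apply]
  have hlP : (l : 𝓞 E) ∈ P := by
    have h1 : ((Ideal.absNorm (P.under (𝓞 ℚ)) : ℕ) : 𝓞 ℚ) ∈ P.under (𝓞 ℚ) :=
      Ideal.absNorm_mem _
    rw [hnorm, Ideal.under_def, Ideal.mem_comap, map_natCast] at h1
    exact h1
  have hs : ∀ x : 𝓞 E, (AlgEquiv.restrictNormalHom E σ) • x - x ^ l ∈ P := by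
    intro x
    have := hfrob x
    rw [hcard] at this
    exact this
  obtain ⟨A, hA, φ, hφ, hres⟩ :=
    Bridge.exists_frobenius_lift_aux E P hP hlp hlP (AlgEquiv.restrictNormalHom E σ) hs
  refine ⟨l, hlp, hlS, A, hA, φ, hφ, fun x hx => ?_⟩
  have h1 := AlgEquiv.restrictNormal_commutes φ E ⟨x, hx⟩
  have h2 := AlgEquiv.restrictNormal_commutes σ E ⟨x, hx⟩
  have h3 : φ.restrictNormal E = σ.restrictNormal E := hres
  rw [h3] at h1
  exact h1.symm.trans h2

end Fermat.Agent.Lib.CFT.Cheb
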