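import Mathlib
import Fermat.Agent.Lib.CFT.Unram.UpperBound.CharProd

/-!
# CHEBOTAREV, WP-L1: Dirichlet characters relative to a subgroup of `(ZMod m)ˣ`

For a subgroup `H` of `(ZMod m)ˣ` we study the group `trivOn H` of the Dirichlet characters
modulo `m` (with complex values) which are trivial on `H`:

* `card_trivOn_mul_card` : `#(trivOn H) * #H = φ(m)`;
* `exists_mem_trivOn_ne_one` : if `H ≠ ⊤` some nontrivial character is trivial on `H`;
* `sum_subgroup_eq_zero` : if `χ` is not trivial on `H` then `∑_{a ∈ H} χ a = 0`;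
* `mul_apply_of_mem_trivOn`, `mul_mem_trivOn_iff` : translation of a character by `trivOn H`;
* `prod_one_sub_mul` : `∏_χ (1 - χ(a) T) = (1 - T ^ f) ^ (φ(m) / f)`, `f = orderOf a`;
* `sum_inv_mul_eq` : orthogonality.
-/

set_option autoImplicit false
set_option linter.unusedSectionVars false

namespace Fermat.Agent.Lib.CFT.Cheb.CharGroup

open Finset

variable {m : ℕ} [NeZero m]

/-- The restriction of a Dirichlet character to the unit group, as a group homomorphism. -/
noncomputable abbrev toUnitHom' (χ : DirichletCharacter ℂ m) : (ZMod m)ˣ →* ℂˣ :=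
  MulChar.mulEquivToUnitHom χ

theorem coe_toUnitHom' (χ : DirichletCharacter ℂ m) (a : (ZMod m)ˣ) :
    ((toUnitHom' χ a : ℂˣ) : ℂ) = χ (a : ZMod m) :=
  MulChar.coe_equivToUnitHom χ a

/-- The subgroup of the Dirichlet characters modulo `m` which are trivial on `H`. -/
def trivOn (H : Subgroup (ZMod m)ˣ) : Subgroup (DirichletCharacter ℂ m) where
  carrier := {χ | ∀ a ∈ H, χ ((a : (ZMod m)ˣ) : ZMod m) = 1}
  one_mem' := fun a _ => MulChar.one_apply_coe a
  mul_mem' := fun {χ ψ} hχ hψ a ha => by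
    rw [MulChar.mul_apply, hχ a ha, hψ a ha, one_mul]
  inv_mem' := fun {χ} hχ a ha => by
    rw [MulChar.inv_apply_eq_inv', hχ a ha, inv_one]

theorem mem_trivOn {H : Subgroup (ZMod m)ˣ} {χ : DirichletCharacter ℂ m} :
    χ ∈ trivOn H ↔ ∀ a ∈ H, χ ((a : (ZMod m)ˣ) : ZMod m) = 1 := Iff.rfl

theorem one_mem_trivOn (H : Subgroup (ZMod m)ˣ) : (1 : DirichletCharacter ℂ m) ∈ trivOn H :=
  (trivOn H).one_mem

/-- Translating by a character which is trivial on `H` does not change the values on `H`. -/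
theorem mul_apply_of_mem_trivOn {H : Subgroup (ZMod m)ˣ} (χ₀ : DirichletCharacter ℂ m)
    {χ₁ : DirichletCharacter ℂ m} (h₁ : χ₁ ∈ trivOn H) {a : (ZMod m)ˣ} (ha : a ∈ H) :
    (χ₀ * χ₁) (a : ZMod m) = χ₀ (a : ZMod m) := by
  rw [MulChar.mul_apply, h₁ a ha, mul_one]

theorem mul_mem_trivOn_iff {H : Subgroup (ZMod m)ˣ} (χ₀ : DirichletCharacter ℂ m)
    {χ₁ : DirichletCharacter ℂ m} (h₁ : χ₁ ∈ trivOn H) :
    χ₀ * χ₁ ∈ trivOn H ↔ χ₀ ∈ trivOn H :=
  (trivOn H).mul_mem_cancel_right h₁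

theorem mul_left_injective' (χ₀ : DirichletCharacter ℂ m) :
    Function.Injective fun χ₁ : DirichletCharacter ℂ m => χ₀ * χ₁ :=
  mul_right_injective χ₀

/-- The characters trivial on `H` correspond to the kernel of the restriction to `H`. -/
theorem mem_trivOn_iff_restrict {H : Subgroup (ZMod m)ˣ} {χ : DirichletCharacter ℂ m} :
    χ ∈ trivOn H ↔ toUnitHom' χ ∈ (MonoidHom.domRestrictHom H ℂˣ).ker := by
  rw [MonoidHom.mem_ker, mem_trivOn]
  constructor
  · intro h
    ext ⟨a, ha⟩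
    simpa [coe_toUnitHom'] using h a ha
  · intro h a ha
    have := DFunLike.congr_fun h ⟨a, ha⟩
    rw [← coe_toUnitHom']
    simpa using congrArg (Units.val) this

/-- `#(trivOn H) = [(ZMod m)ˣ : H]`. -/
theorem card_trivOn (H : Subgroup (ZMod m)ˣ) : Nat.card (trivOn H) = H.index := by
  have e : trivOn H ≃ (MonoidHom.domRestrictHom H ℂˣ).ker :=
    { toFun := fun χ => ⟨toUnitHom' χ.1, mem_trivOn_iff_restrict.mp χ.2⟩
      invFun := fun φ => ⟨MulChar.mulEquivToUnitHom.symm φ.1, by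
        rw [mem_trivOn_iff_restrict]
        simp⟩
      left_inv := fun χ => by simp
      right_inv := fun φ => by simp }
  rw [Nat.card_congr e, CommGroup.card_domRestrictHom_ker (M := ℂ) H, Subgroup.index]

/-- `#(trivOn H) * #H = φ(m)`. -/
theorem card_trivOn_mul_card (H : Subgroup (ZMod m)ˣ) :
    Nat.card (trivOn H) * Nat.card H = m.totient := by
  rw [card_trivOn, Subgroup.index_mul_card, Nat.card_eq_fintype_card, ZMod.card_units_eq_totient]

theorem card_trivOn_pos (H : Subgroup (ZMod m)ˣ) : 0 < Nat.card (trivOn H) :=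
  Nat.card_pos

/-- If only one character is trivial on `H` then `H` is everything. -/
theorem eq_top_of_card_trivOn_eq_one {H : Subgroup (ZMod m)ˣ} (h : Nat.card (trivOn H) = 1) :
    H = ⊤ := by
  rw [card_trivOn] at h
  exact Subgroup.index_eq_one.mp h

/-- If `H` is a proper subgroup, some nontrivial character is trivial on `H`. -/
theorem exists_mem_trivOn_ne_one {H : Subgroup (ZMod m)ˣ} (hH : H ≠ ⊤) :
    ∃ χ ∈ trivOn H, χ ≠ 1 := by
  by_contra hcon
  push Not at hcon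
  apply hH
  apply eq_top_of_card_trivOn_eq_one
  rw [Nat.card_eq_one_iff_unique]
  exact ⟨⟨fun χ ψ => Subtype.ext ((hcon χ.1 χ.2).trans (hcon ψ.1 ψ.2).symm)⟩,
    ⟨⟨1, one_mem_trivOn H⟩⟩⟩

/-- A character which is not trivial on `H` sums to zero over `H`. -/
theorem sum_subgroup_eq_zero {H : Subgroup (ZMod m)ˣ} [Fintype H] {χ : DirichletCharacter ℂ m}
    (hχ : χ ∉ trivOn H) : ∑ a : H, χ (((a : (ZMod m)ˣ)) : ZMod m) = 0 := by
  rw [mem_trivOn] at hχ
  push Not at hχ
  obtain ⟨b, hb, hne⟩ := hχ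
  have h1 : ∑ a : H, χ (((a : (ZMod m)ˣ)) : ZMod m) =
      χ ((b : (ZMod m)ˣ) : ZMod m) * ∑ a : H, χ (((a : (ZMod m)ˣ)) : ZMod m) := by
    rw [mul_sum]
    refine (Fintype.sum_equiv (Equiv.mulLeft (⟨b, hb⟩ : H)) _ _ fun a => ?_).symm
    simp [map_mul]
  have h2 : (χ ((b : (ZMod m)ˣ) : ZMod m) - 1) *
      ∑ a : H, χ (((a : (ZMod m)ˣ)) : ZMod m) = 0 := by
    rw [sub_mul, one_mul, ← h1, sub_self]
  rcases mul_eq_zero.mp h2 with h | h
  · exact absurd (sub_eq_zero.mp h) hne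
  · exact h

/-- **Character product identity** for Dirichlet characters:
`∏_χ (1 - χ(a) T) = (1 - T ^ f) ^ (φ(m) / f)` with `f = orderOf a`. -/
theorem prod_one_sub_mul (a : (ZMod m)ˣ) (T : ℂ) :
    ∏ χ : DirichletCharacter ℂ m, (1 - χ (a : ZMod m) * T) =
      (1 - T ^ orderOf a) ^ (m.totient / orderOf a) := by
  let _ : Fintype ((ZMod m)ˣ →* ℂˣ) :=
    Fintype.ofEquiv _ (MulChar.mulEquivToUnitHom (R := ZMod m) (R' := ℂ)).toEquiv
  have h := Unram.CharProd.prod_one_sub_char_mul a T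
  rw [Nat.card_eq_fintype_card, ZMod.card_units_eq_totient] at h
  rw [← h]
  refine Fintype.prod_equiv (MulChar.mulEquivToUnitHom (R := ZMod m) (R' := ℂ)).toEquiv _ _
    fun χ => ?_
  rw [MulEquiv.toEquiv_eq_coe, MulEquiv.coe_toEquiv, coe_toUnitHom']

/-- Inverse form of `prod_one_sub_mul` (Euler factors). -/
theorem prod_inv_one_sub_mul (a : (ZMod m)ˣ) (T : ℂ) :
    ∏ χ : DirichletCharacter ℂ m, (1 - χ (a : ZMod m) * T)⁻¹ =
      ((1 - T ^ orderOf a) ^ (m.totient / orderOf a))⁻¹ := by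
  rw [prod_inv_distrib, prod_one_sub_mul]

/-- Orthogonality of the Dirichlet characters modulo `m` (from Mathlib). -/
theorem sum_inv_mul_eq (a : (ZMod m)ˣ) (b : ZMod m) :
    ∑ χ : DirichletCharacter ℂ m, χ ((a : ZMod m))⁻¹ * χ b =
      if (a : ZMod m) = b then (m.totient : ℂ) else 0 :=
  DirichletCharacter.sum_char_inv_mul_char_eq ℂ a.isUnit b

end Fermat.Agent.Lib.CFT.Cheb.CharGroup
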