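/-
helper89 (CHEBOTAREV, WP-Z1).  Coset form of the cell lemma `Unram.cell_lemma` (comparison of a sum
over a translate of a lattice with an integral), and the packaging used for the norm-residue
partial zeta functions: for a family `H s` whose differences `H s - H t` oscillate by at most
`C |s - t| ω`, the error `∑_{x ∈ x₀ + L} H s x - covol⁻¹ ∫ H s` is Lipschitz in `s`.
-/
import Mathlib
import Fermat.Agent.Lib.CFT.Unram.LatticeCell

set_option autoImplicit false

namespace Fermat.Agent.Lib.CFT.Cheb.CosetCell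

open MeasureTheory Module
open Fermat.Agent.Lib.CFT.Unram

variable {E : Type*} [NormedAddCommGroup E] [NormedSpace ℝ E] [FiniteDimensional ℝ E]
variable [MeasurableSpace E] [BorelSpace E]
variable (L : Submodule ℤ E) [DiscreteTopology L] [IsZLattice ℝ L]
variable (μ : Measure E) [Measure.IsAddHaarMeasure μ]

/-- The error term of the comparison between the sum of `H` over the coset `x₀ + L` and the
integral of `H`. -/
noncomputable def cosetError (x₀ : E) (H : E → ℝ) : ℝ :=
  ∑' x : L, H (x₀ + x) - (ZLattice.covolume L μ)⁻¹ * ∫ x, H x ∂μ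

/-- **Cell lemma for a coset.** -/
theorem cell_lemma_coset (x₀ : E) (H : E → ℝ) (hH : Integrable H μ) (M : ℝ) (ω : E → ℝ)
    (hω : Summable fun x : L => ω (x₀ + x))
    (hosc : ∀ y z : E, ‖y - z‖ ≤ cellDiam L → |H y - H z| ≤ M * ω y) :
    Summable (fun x : L => H (x₀ + x)) ∧ |cosetError L μ x₀ H| ≤ M * ∑' x : L, ω (x₀ + x) := by
  have hH' : Integrable (fun y => H (x₀ + y)) μ := hH.comp_add_left x₀
  have hint : ∫ y, H (x₀ + y) ∂μ = ∫ y, H y ∂μ := integral_add_left_eq_self (μ := μ) H x₀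
  have hosc' : ∀ y z : E, ‖y - z‖ ≤ cellDiam L →
      |H (x₀ + y) - H (x₀ + z)| ≤ M * ω (x₀ + y) := by
    intro y z hyz
    apply hosc
    rwa [add_sub_add_left_eq_sub]
  have := cell_lemma L μ (fun y => H (x₀ + y)) hH' M (fun y => ω (x₀ + y)) hω hosc'
  refine ⟨this.1, ?_⟩
  have h2 := this.2
  rw [hint] at h2
  exact h2

omit [MeasurableSpace E] [BorelSpace E] in
/-- Summability of the standard weight `(1 + ‖y‖)^(-b)`, `b > dim E`, over a coset of `L`. -/
theorem summable_one_add_norm_rpow (x₀ : E) {b : ℝ} (hb : (finrank ℝ E : ℝ) < b) :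
    Summable fun x : L => (1 + ‖x₀ + (x : E)‖) ^ (-b) := by
  have hb0 : 0 < b := lt_of_le_of_lt (Nat.cast_nonneg _) hb
  have hr : -b < -(finrank ℤ L : ℝ) := by
    rw [ZLattice.rank ℝ L]
    exact neg_lt_neg hb
  have hs := ZLattice.summable_norm_sub_rpow L (-b) hr (-x₀)
  refine Summable.of_norm_bounded_eventually hs ?_
  -- the bound holds except possibly at the single point `x = -x₀`
  have hfin : {x : L | (x : E) = -x₀}.Finite := by
    apply Set.Subsingleton.finite
    intro a ha b hb'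
    exact Subtype.ext (ha.trans hb'.symm)
  refine hfin.subset ?_
  intro x hx
  by_contra hne
  apply hx
  have hne' : (x : E) ≠ -x₀ := hne
  have hpos : 0 < ‖(x : E) - -x₀‖ := by
    rw [norm_pos_iff, sub_ne_zero]
    exact hne'
  have heq : ‖x₀ + (x : E)‖ = ‖(x : E) - -x₀‖ := by
    rw [sub_neg_eq_add, add_comm]
  show ‖(1 + ‖x₀ + (x : E)‖) ^ (-b)‖ ≤ ‖(x : E) - -x₀‖ ^ (-b)
  rw [Real.norm_eq_abs, abs_of_nonneg (by positivity), heq]
  exact Real.rpow_le_rpow_of_nonpos hpos (by linarith) (by linarith)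

/-- **Lipschitz dependence on a parameter.**  Let `H s`, `s ∈ I`, be integrable functions such
that each `H s` oscillates by at most `C₀ ω` and each difference `H s - H t` by at most
`C |s - t| ω` at the scale of the fundamental cell, with `ω` summable on the coset `x₀ + L`.
Then all the sums over the coset converge and the error terms are bounded and Lipschitz
in `s`. -/
theorem cosetError_lipschitz (x₀ : E) (I : Set ℝ) (H : ℝ → E → ℝ) (C₀ C : ℝ) (ω : E → ℝ)
    (hω : Summable fun x : L => ω (x₀ + x))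
    (hint : ∀ s ∈ I, Integrable (H s) μ)
    (hosc₀ : ∀ s ∈ I, ∀ y z : E, ‖y - z‖ ≤ cellDiam L → |H s y - H s z| ≤ C₀ * ω y)
    (hosc : ∀ s ∈ I, ∀ t ∈ I, ∀ y z : E, ‖y - z‖ ≤ cellDiam L →
      |(H s y - H t y) - (H s z - H t z)| ≤ C * |s - t| * ω y) :
    (∀ s ∈ I, Summable fun x : L => H s (x₀ + x)) ∧
    (∀ s ∈ I, |cosetError L μ x₀ (H s)| ≤ C₀ * ∑' x : L, ω (x₀ + x)) ∧
    (∀ s ∈ I, ∀ t ∈ I, |cosetError L μ x₀ (H s) - cosetError L μ x₀ (H t)| ≤
      C * (∑' x : L, ω (x₀ + x)) * |s - t|) := by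
  have h0 : ∀ s ∈ I, Summable (fun x : L => H s (x₀ + x)) ∧
      |cosetError L μ x₀ (H s)| ≤ C₀ * ∑' x : L, ω (x₀ + x) := fun s hs =>
    cell_lemma_coset L μ x₀ (H s) (hint s hs) C₀ ω hω (hosc₀ s hs)
  refine ⟨fun s hs => (h0 s hs).1, fun s hs => (h0 s hs).2, ?_⟩
  intro s hs t ht
  have hd := cell_lemma_coset L μ x₀ (fun y => H s y - H t y) ((hint s hs).sub (hint t ht))
    (C * |s - t|) ω hω (hosc s hs t ht)
  have hsum_s := (h0 s hs).1
  have hsum_t := (h0 t ht).1
  have key : cosetError L μ x₀ (fun y => H s y - H t y) =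
      cosetError L μ x₀ (H s) - cosetError L μ x₀ (H t) := by
    unfold cosetError
    rw [hsum_s.tsum_sub hsum_t, integral_sub (hint s hs) (hint t ht)]
    ring
  rw [← key]
  calc |cosetError L μ x₀ (fun y => H s y - H t y)|
      ≤ C * |s - t| * ∑' x : L, ω (x₀ + x) := hd.2
    _ = C * (∑' x : L, ω (x₀ + x)) * |s - t| := by ring

end Fermat.Agent.Lib.CFT.Cheb.CosetCell
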