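/-
helper79 (P-CFT by-product: CHEBOTAREV, WP-X).  Chebotarev's cyclotomic trick:
the generalized Dirichlet theorem for the extensions `F(ζ_ℓ)/F` implies the existence form of
Chebotarev's theorem.  Blueprint: board key `CHEB_PLAN`, item (T2).
-/
import Mathlib
import Fermat.Agent.Lib.CFT.Cheb.Defs
import Fermat.Agent.Lib.CFT.Unram.CycloFrob
import Fermat.Agent.Lib.CFT.Unram.CrossingFields.FixedCyclo
import Fermat.Agent.Lib.CFT.Unram.CrossingFields.FixedFieldPrime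

set_option autoImplicit false

namespace Fermat.Agent.Lib.CFT.Cheb.Crossing

open NumberField IntermediateField Polynomial
open Fermat.Agent.Lib.CFT.Unram Fermat.Agent.Lib.CFT.Unram.CrossingFields

/-! ### Group theory -/

section Group

variable {G A B : Type*} [Group G] [Group A] [Group B]

/-- If `f = (f₁, f₂) : G → A × B` is injective and the order of `f₁ g` divides the order of
`f₂ g`, then the cyclic group generated by `g` meets the kernel of `f₂` trivially. -/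
theorem zpowers_inf_ker_eq_bot (f₁ : G →* A) (f₂ : G →* B)
    (hf : Function.Injective (f₁.prod f₂)) (g : G) (h : orderOf (f₁ g) ∣ orderOf (f₂ g)) :
    Subgroup.zpowers g ⊓ f₂.ker = ⊥ := by
  rw [eq_bot_iff]
  rintro x ⟨hx1, hx2⟩
  rw [Subgroup.mem_bot]
  obtain ⟨k, rfl⟩ := Subgroup.mem_zpowers_iff.mp hx1
  have h2 : f₂ g ^ k = 1 := by
    have : f₂ (g ^ k) = 1 := hx2
    rwa [map_zpow] at this
  have h3 : (orderOf (f₂ g) : ℤ) ∣ k := orderOf_dvd_iff_zpow_eq_one.mpr h2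
  have h4 : (orderOf (f₁ g) : ℤ) ∣ k := (Int.natCast_dvd_natCast.mpr h).trans h3
  have h1 : f₁ g ^ k = 1 := orderOf_dvd_iff_zpow_eq_one.mp h4
  apply hf
  rw [map_one, MonoidHom.prod_apply, map_zpow, map_zpow, h1, h2]
  rfl

/-- In the situation of `zpowers_inf_ker_eq_bot`, the order of `g` is the order of `f₂ g`. -/
theorem orderOf_eq_of_prod_injective (f₁ : G →* A) (f₂ : G →* B)
    (hf : Function.Injective (f₁.prod f₂)) (g : G) (h : orderOf (f₁ g) ∣ orderOf (f₂ g)) :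
    orderOf g = orderOf (f₂ g) := by
  rw [← orderOf_injective (f₁.prod f₂) hf g, Prod.orderOf]
  exact Nat.lcm_eq_right h

end Group

/-! ### Residue fields and Frobenius elements relative to an intermediate field -/

section Residue

variable {K M : Type*} [Field K] [NumberField K] [Field M] [NumberField M] [Algebra K M]

/-- If the prime `Q ∩ 𝓞 F` of an intermediate field `F` has residue field with a prime number `p`
of elements, so has the prime `Q ∩ 𝓞 K`. -/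
theorem natCard_quotient_under_eq (F : IntermediateField K M) (Q : Ideal (𝓞 M)) [Q.IsPrime]
    (hQ : Q ≠ ⊥) {p : ℕ} (hp : p.Prime) (h : Nat.card (𝓞 F ⧸ Q.under (𝓞 F)) = p) :
    Nat.card (𝓞 K ⧸ Q.under (𝓞 K)) = p := by
  set 𝔓 : Ideal (𝓞 F) := Q.under (𝓞 F) with h𝔓
  set 𝔮 : Ideal (𝓞 K) := Q.under (𝓞 K) with h𝔮
  have hQ𝔓 : Q.LiesOver 𝔓 := ⟨rfl⟩
  have hQ𝔮 : Q.LiesOver 𝔮 := ⟨rfl⟩
  have h𝔓𝔮 : 𝔓.LiesOver 𝔮 := Ideal.LiesOver.tower_bot Q 𝔓 𝔮
  have h𝔓p : 𝔓.IsPrime := Ideal.IsPrime.under (𝓞 F) Q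
  have h𝔮p : 𝔮.IsPrime := Ideal.IsPrime.under (𝓞 K) Q
  have h𝔮0 : 𝔮 ≠ ⊥ := by
    intro h0
    apply hQ
    have : Q.LiesOver (⊥ : Ideal (𝓞 K)) := ⟨h0.symm⟩
    exact Ideal.eq_bot_of_liesOver_bot (𝓞 K) Q
  have h𝔓0 : 𝔓 ≠ ⊥ := by
    intro h0
    apply hQ
    have : Q.LiesOver (⊥ : Ideal (𝓞 F)) := ⟨h0.symm⟩
    exact Ideal.eq_bot_of_liesOver_bot (𝓞 F) Q
  have h𝔮m : 𝔮.IsMaximal := Ideal.IsPrime.isMaximal h𝔮p h𝔮0
  have h𝔓m : 𝔓.IsMaximal := Ideal.IsPrime.isMaximal h𝔓p h𝔓0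
  let _ : Field (𝓞 K ⧸ 𝔮) := Ideal.Quotient.field 𝔮
  let _ : Field (𝓞 F ⧸ 𝔓) := Ideal.Quotient.field 𝔓
  have hfink : Finite (𝓞 K ⧸ 𝔮) := Ideal.finiteQuotientOfFreeOfNeBot 𝔮 h𝔮0
  have hfinl : Finite (𝓞 F ⧸ 𝔓) := Ideal.finiteQuotientOfFreeOfNeBot 𝔓 h𝔓0
  have hN2 : 2 ≤ Nat.card (𝓞 K ⧸ 𝔮) := by
    have : Nontrivial (𝓞 K ⧸ 𝔮) := inferInstance
    exact Finite.one_lt_card
  have hcard' : Nat.card (𝓞 F ⧸ 𝔓) =
      Nat.card (𝓞 K ⧸ 𝔮) ^ Module.finrank (𝓞 K ⧸ 𝔮) (𝓞 F ⧸ 𝔓) :=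
    Module.natCard_eq_pow_finrank (K := 𝓞 K ⧸ 𝔮)
  have hpos : 0 < Module.finrank (𝓞 K ⧸ 𝔮) (𝓞 F ⧸ 𝔓) := Module.finrank_pos
  have hdvd : Nat.card (𝓞 K ⧸ 𝔮) ∣ p := by
    rw [← h, hcard']
    exact dvd_pow_self _ hpos.ne'
  rcases (Nat.dvd_prime hp).mp hdvd with h1 | h1
  · omega
  · exact h1

/-- A Frobenius element relative to an intermediate field `F`, at a prime whose residue fields
over `F` and over `K` have the same cardinality, is a Frobenius element relative to `K`. -/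
theorem isArithFrobAt_of_intermediateField [IsGalois K M] (F : IntermediateField K M)
    (g : Gal(M/K)) (g' : Gal(M/F)) (hgg' : ∀ x : M, g' x = g x) (Q : Ideal (𝓞 M))
    (hcard : Nat.card (𝓞 K ⧸ Q.under (𝓞 K)) = Nat.card (𝓞 F ⧸ Q.under (𝓞 F)))
    (h : IsArithFrobAt (𝓞 F) g' Q) : IsArithFrobAt (𝓞 K) g Q := by
  intro x
  have h1 := h x
  rw [hcard]
  have h2 : (MulSemiringAction.toAlgHom (𝓞 K) (𝓞 M) g) x =
      (MulSemiringAction.toAlgHom (𝓞 F) (𝓞 M) g') x := by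
    apply RingOfIntegers.ext
    exact (hgg' (x : M)).symm
  rw [h2]
  exact h1

end Residue

/-! ### The local step -/

section Local

variable (K L M : Type*) [Field K] [NumberField K] [Field L] [NumberField L] [Field M]
  [NumberField M] [Algebra K L] [Algebra L M] [Algebra K M] [IsScalarTower K L M]
  [IsGalois K L] [IsGalois K M] (ℓ : ℕ) [NeZero ℓ] [IsCyclotomicExtension {ℓ} L M]

/-- Let `g ∈ Gal(L(ζ_ℓ)/K)` fix pointwise an intermediate field `F` with `F(ζ_ℓ) = L(ζ_ℓ)`.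
For every prime `𝔮` of `F` of absolute degree one whose norm is congruent to `χ(g)` modulo `ℓ`,
the restriction of `g` to `L` is a Frobenius element at a prime of `L` lying over a prime of `K`
of the same norm. -/
theorem exists_prime_isArithFrobAt (Fx : IntermediateField K M)
    [hcyc : IsCyclotomicExtension {ℓ} Fx M] (g : Gal(M/K)) (hgF : ∀ y ∈ Fx, g y = y)
    (𝔮 : Ideal (𝓞 Fx))
    (h𝔮 : 𝔮 ∈ degOnePrimes Fx ℓ ((chi K L M ℓ g : (ZMod ℓ)ˣ) : ZMod ℓ)) :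
    ∃ P : Ideal (𝓞 L), P.IsPrime ∧ Ideal.absNorm (P.under (𝓞 K)) = Ideal.absNorm 𝔮 ∧
      IsArithFrobAt (𝓞 K) (AlgEquiv.restrictNormalHom L g) P := by
  obtain ⟨h𝔮p, hpprime, hmod⟩ := h𝔮
  have h𝔮0 : 𝔮 ≠ ⊥ := by
    intro h0
    rw [h0, Ideal.absNorm_bot] at hpprime
    exact Nat.not_prime_zero hpprime
  have := h𝔮p
  -- a prime `Q` of `M` above `𝔮`
  obtain ⟨Q, -, hQp, hQ⟩ := Ideal.exists_ideal_over_prime_of_isIntegral (S := 𝓞 M)
    𝔮 ⊥ (by simp [Ideal.comap_bot_of_injective _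
      (FaithfulSMul.algebraMap_injective (𝓞 Fx) (𝓞 M))])
  have hQu : Q.under (𝓞 Fx) = 𝔮 := hQ
  have hQ0 : Q ≠ ⊥ := by
    rintro rfl
    apply h𝔮0
    rw [← hQu, Ideal.under_def, Ideal.comap_bot_of_injective _
      (FaithfulSMul.algebraMap_injective (𝓞 Fx) (𝓞 M))]
  -- `ℓ ∉ Q`
  have hcop : Nat.Coprime ℓ (Ideal.absNorm 𝔮) := by
    have hu : IsUnit ((Ideal.absNorm 𝔮 : ℕ) : ZMod ℓ) := by
      rw [hmod]
      exact Units.isUnit _
    exact ((ZMod.isUnit_iff_coprime _ _).mp hu).symm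
  have hℓQ : (ℓ : 𝓞 M) ∉ Q :=
    natCast_notMem_of_coprime_absNorm Fx M ℓ Q (by rw [hQu]; exact hcop)
  have : Finite (𝓞 M ⧸ Q) := Ideal.finiteQuotientOfFreeOfNeBot Q hQ0
  -- a Frobenius element of `M/Fx` at `Q`
  obtain ⟨φ, hφ⟩ := IsArithFrobAt.exists_of_isInvariant (𝓞 Fx) Gal(M/Fx) Q
  have hζ := IsCyclotomicExtension.zeta_spec ℓ L M
  set ζ := IsCyclotomicExtension.zeta ℓ L M with hζdef
  have hφζ : φ ζ = ζ ^ Ideal.absNorm (Q.under (𝓞 Fx)) :=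
    CycloFrob.apply_zeta_of_isArithFrobAt hζ hℓQ hφ
  -- `g` as an element of `Gal(M/Fx)`
  have hfix : ∀ y : Fx, g (algebraMap Fx M y) = algebraMap Fx M y := by
    intro y
    exact hgF _ y.2
  let g' : Gal(M/Fx) := { (g : M ≃+* M) with commutes' := hfix }
  have hgg' : ∀ x : M, g' x = g x := fun _ => rfl
  have hg'ζ : g' ζ = ζ ^ ((chi K L M ℓ g : (ZMod ℓ)ˣ) : ZMod ℓ).val := by
    rw [hgg']
    exact chi_spec_zeta K L M ℓ g
  have hφg' : φ = g' := by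
    refine CycloFrob.eq_of_apply_zeta_eq_pow hζ hφζ hg'ζ ?_
    rw [hQu, hmod, ZMod.natCast_zmod_val]
  rw [hφg'] at hφ
  -- cardinalities of the residue fields
  have hcardF : Nat.card (𝓞 Fx ⧸ Q.under (𝓞 Fx)) = Ideal.absNorm 𝔮 := by
    rw [hQu, Ideal.absNorm_apply, Submodule.cardQuot_apply]
  have hcardK : Nat.card (𝓞 K ⧸ Q.under (𝓞 K)) = Ideal.absNorm 𝔮 :=
    natCard_quotient_under_eq Fx Q hQ0 hpprime hcardF
  have hgK : IsArithFrobAt (𝓞 K) g Q :=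
    isArithFrobAt_of_intermediateField Fx g g' hgg' Q (hcardK.trans hcardF.symm) hφ
  have hgL : IsArithFrobAt (𝓞 K) (AlgEquiv.restrictNormalHom L g) (Q.under (𝓞 L)) :=
    CycloFrob.isArithFrobAt_restrictNormalHom hgK
  refine ⟨Q.under (𝓞 L), Ideal.IsPrime.under (𝓞 L) Q, ?_, hgL⟩
  rw [Ideal.under_under, Ideal.absNorm_apply, Submodule.cardQuot_apply]
  exact hcardK

end Local

/-! ### Chebotarev's trick in a fixed tower `K ⊆ L ⊆ M = L(ζ_ℓ)` -/

section Tower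

universe u

/-- Chebotarev's trick: if `Φ_ℓ` is irreducible over `L` and the order of `σ ∈ Gal(L/K)` divides
`ℓ - 1`, the generalized Dirichlet theorem for the fixed field of a suitable cyclic subgroup of
`Gal(L(ζ_ℓ)/K)` produces infinitely many primes with Frobenius `σ`. -/
theorem infinite_of_tower (K L M : Type u) [Field K] [NumberField K] [Field L] [NumberField L]
    [Field M] [NumberField M] [Algebra K L] [Algebra L M] [Algebra K M] [IsScalarTower K L M]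
    [IsGalois K L] (ℓ : ℕ) [hℓ : Fact ℓ.Prime] [IsCyclotomicExtension {ℓ} L M]
    (h : CyclotomicDirichlet.{u}) (hirr : Irreducible (cyclotomic ℓ L))
    (σ : Gal(L/K)) (hσ : orderOf σ ∣ ℓ - 1) :
    {p : ℕ | p.Prime ∧ ∃ P : Ideal (𝓞 L), P.IsPrime ∧
      Ideal.absNorm (P.under (𝓞 K)) = p ∧ IsArithFrobAt (𝓞 K) σ P}.Infinite := by
  have : NeZero ℓ := ⟨hℓ.out.ne_zero⟩
  have : IsGalois K M := isGalois_top K L M ℓ
  have : FiniteDimensional K M := finiteDimensional_top K L M ℓ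
  -- a generator of `(ℤ/ℓ)ˣ`
  obtain ⟨τ₀, hτ₀⟩ := IsCyclic.exists_generator (α := (ZMod ℓ)ˣ)
  have hordτ : orderOf τ₀ = ℓ - 1 := by
    rw [orderOf_eq_card_of_forall_mem_zpowers hτ₀, Nat.card_eq_fintype_card, ZMod.card_units]
  -- the element `g` with `g|_L = σ` and `χ(g) = τ₀`
  obtain ⟨g, hgσ, hgχ⟩ := exists_toProd_eq K L M ℓ hirr σ τ₀
  have hinj : Function.Injective
      ((AlgEquiv.restrictNormalHom (F := K) (K₁ := M) L).prod (chi K L M ℓ)) :=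
    toProd_injective K L M ℓ
  have hdvd : orderOf (AlgEquiv.restrictNormalHom (F := K) (K₁ := M) L g) ∣
      orderOf (chi K L M ℓ g) := by
    rw [hgσ, hgχ, hordτ]
    exact hσ
  have hH : Subgroup.zpowers g ⊓ (chi K L M ℓ).ker = ⊥ :=
    zpowers_inf_ker_eq_bot _ _ hinj g hdvd
  have hordg : orderOf g = ℓ - 1 := by
    rw [orderOf_eq_of_prod_injective _ _ hinj g hdvd, hgχ, hordτ]
  -- the fixed field
  set Fx : IntermediateField K M := fixedField (Subgroup.zpowers g) with hFx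
  have hcyc : IsCyclotomicExtension {ℓ} Fx M :=
    isCyclotomicExtension_fixedField K L M ℓ (Subgroup.zpowers g) hH
  have hfin : Module.finrank Fx M = ℓ.totient := by
    rw [hFx, IntermediateField.finrank_fixedField_eq_card, Nat.card_zpowers, hordg,
      Nat.totient_prime hℓ.out]
  have hirrFx : Irreducible (cyclotomic ℓ Fx) := irreducible_cyclotomic_of_finrank ℓ hfin
  have hinf := h Fx ℓ hirrFx τ₀
  have hgF : ∀ y ∈ Fx, g y = y := fun y hy => hy ⟨g, Subgroup.mem_zpowers g⟩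
  -- every degree one prime of `Fx` with norm `≡ τ₀` gives an element of the set
  have hmem : ∀ 𝔮 ∈ degOnePrimes Fx ℓ ((τ₀ : (ZMod ℓ)ˣ) : ZMod ℓ),
      Ideal.absNorm 𝔮 ∈ {p : ℕ | p.Prime ∧ ∃ P : Ideal (𝓞 L), P.IsPrime ∧
        Ideal.absNorm (P.under (𝓞 K)) = p ∧ IsArithFrobAt (𝓞 K) σ P} := by
    intro 𝔮 h𝔮
    have h𝔮' : 𝔮 ∈ degOnePrimes Fx ℓ ((chi K L M ℓ g : (ZMod ℓ)ˣ) : ZMod ℓ) := by
      rw [hgχ]; exact h𝔮
    obtain ⟨P, hP, hPn, hPf⟩ := exists_prime_isArithFrobAt K L M ℓ Fx g hgF 𝔮 h𝔮'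
    rw [hgσ] at hPf
    exact ⟨h𝔮.2.1, P, hP, hPn, hPf⟩
  intro hfinS
  apply hinf
  refine (Set.Finite.biUnion hfinS
    (fun p _ => Ideal.finite_setOfPred_absNorm_eq (S := 𝓞 Fx) p)).subset ?_
  intro 𝔮 h𝔮
  rw [Set.mem_iUnion₂]
  exact ⟨Ideal.absNorm 𝔮, hmem 𝔮 h𝔮, rfl⟩

end Tower

/-- **WP-X.** The generalized Dirichlet theorem for cyclotomic extensions implies the existence
form of Chebotarev's density theorem. -/
theorem chebotarev_of.{u} (h : CyclotomicDirichlet.{u}) : Chebotarev.{u} := by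
  intro K L _ _ _ _ _ _ σ
  have hn : orderOf σ ≠ 0 := (orderOf_pos σ).ne'
  obtain ⟨ℓ, hℓ, -, -, hirr, h1⟩ :=
    CyclotomicAux.exists_prime_irreducible_cyclotomic_modEq_one L hn ∅
  have : Fact ℓ.Prime := ⟨hℓ⟩
  have : NeZero ℓ := ⟨hℓ.ne_zero⟩
  have hdvd : orderOf σ ∣ ℓ - 1 := (Nat.modEq_iff_dvd' hℓ.pos).1 h1.symm
  exact infinite_of_tower K L (CyclotomicField ℓ L) ℓ h hirr σ hdvd

end Fermat.Agent.Lib.CFT.Cheb.Crossing
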