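/-
helper38 (P-CFT by-product CHEBOTAREV, WP-L2).  The `L`-series of the norm-residue characters:
decomposition along residue classes, the trivial character, behaviour at `s = 1`.
Blueprint: board key `CHEB_PLAN`, item (ii).
-/
import Mathlib
import Fermat.Agent.Lib.CFT.Cheb.Defs

set_option autoImplicit false
set_option linter.unusedSectionVars false

namespace Fermat.Agent.Lib.CFT.Cheb.LSeries

open NumberField Filter Topology IsDedekindDomain
open scoped nonZeroDivisors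
open Fermat.Agent.Lib.CFT.Unram.EulerProduct

universe u

variable (F : Type u) [Field F] [NumberField F] (m : ℕ)

/-- The terms of a partial zeta function are summable for `s > 1`. -/
theorem summable_partialZeta (a : ZMod m) {s : ℝ} (hs : 1 < s) :
    Summable fun 𝔞 : {𝔞 : (Ideal (𝓞 F))⁰ // normRes F m 𝔞 = a} =>
      (Ideal.absNorm ((𝔞 : (Ideal (𝓞 F))⁰) : Ideal (𝓞 F)) : ℝ) ^ (-s) :=
  (summable_zetaReal F hs).subtype _

theorem partialZeta_nonneg (a : ZMod m) (s : ℝ) : 0 ≤ partialZeta F m a s :=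
  tsum_nonneg fun _ => Real.rpow_nonneg (Nat.cast_nonneg _) _

theorem partialZeta_eq_zero_of_notMem {a : (ZMod m)ˣ} (ha : a ∉ normResidues F m) (s : ℝ) :
    partialZeta F m (a : ZMod m) s = 0 := by
  have : IsEmpty {𝔞 : (Ideal (𝓞 F))⁰ // normRes F m 𝔞 = (a : ZMod m)} :=
    ⟨fun x => ha ⟨x.1, x.2⟩⟩
  exact tsum_empty

/-- Regrouping a sum over nonzero ideals according to the residue of the norm. -/
theorem tsum_eq_sum_fiber [NeZero m] {E : Type*} [NormedAddCommGroup E] [CompleteSpace E]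
    (g : (Ideal (𝓞 F))⁰ → E) (hg : Summable g) :
    ∑' 𝔞, g 𝔞 = ∑ a : ZMod m, ∑' 𝔞 : {𝔞 : (Ideal (𝓞 F))⁰ // normRes F m 𝔞 = a}, g 𝔞 := by
  let e := Equiv.sigmaFiberEquiv (normRes F m : (Ideal (𝓞 F))⁰ → ZMod m)
  have hg' : Summable fun c : (Σ a : ZMod m, {𝔞 : (Ideal (𝓞 F))⁰ // normRes F m 𝔞 = a}) =>
      g (e c) := e.summable_iff.2 hg
  rw [← e.tsum_eq, hg'.tsum_sigma, tsum_fintype]
  rfl

/-- A sum over `ZMod m` of a function vanishing on non-units is a sum over the units. -/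
theorem sum_zmod_eq_sum_units [NeZero m] {E : Type*} [AddCommMonoid E] (f : ZMod m → E)
    (hf : ∀ a : ZMod m, ¬ IsUnit a → f a = 0) :
    ∑ a : ZMod m, f a = ∑ u : (ZMod m)ˣ, f (u : ZMod m) := by
  classical
  let emb : (ZMod m)ˣ ↪ ZMod m := ⟨Units.val, Units.val_injective⟩
  have h1 : ∑ u : (ZMod m)ˣ, f (u : ZMod m) = ∑ a ∈ Finset.univ.map emb, f a := by
    rw [Finset.sum_map]
    rfl
  rw [h1]
  symm
  apply Finset.sum_subset (Finset.subset_univ _)
  intro a _ ha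
  apply hf
  rintro ⟨u, rfl⟩
  exact ha (Finset.mem_map.2 ⟨u, Finset.mem_univ _, rfl⟩)

theorem ofReal_rpow_neg (n : ℕ) (s : ℝ) :
    ((n : ℂ)) ^ (-(s : ℂ)) = (((n : ℝ) ^ (-s) : ℝ) : ℂ) := by
  rw [Complex.ofReal_cpow (Nat.cast_nonneg _), Complex.ofReal_natCast, Complex.ofReal_neg]

/-- **Decomposition of the `L`-series along residue classes.** -/
theorem LSer_eq_sum [NeZero m] (χ : DirichletCharacter ℂ m) {s : ℝ} (hs : 1 < s) :
    LSer F m χ (s : ℂ) = ∑ a : (ZMod m)ˣ, χ (a : ZMod m) * ((partialZeta F m (a : ZMod m) s : ℝ) : ℂ) := by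
  have hs' : 1 < (s : ℂ).re := by simpa using hs
  have hsum := summable_LSeriesIdeal F (idealChar F m χ) (norm_idealChar_le_one F m χ) hs'
  rw [LSer, LSeriesIdeal, tsum_eq_sum_fiber F m _ hsum]
  rw [sum_zmod_eq_sum_units m
    (fun a => ∑' 𝔞 : {𝔞 : (Ideal (𝓞 F))⁰ // normRes F m 𝔞 = a},
      idealChar F m χ 𝔞 * (Ideal.absNorm ((𝔞 : (Ideal (𝓞 F))⁰) : Ideal (𝓞 F)) : ℂ) ^ (-(s : ℂ)))]
  · refine Finset.sum_congr rfl fun a _ => ?_
    rw [partialZeta, Complex.ofReal_tsum, ← tsum_mul_left]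
    refine tsum_congr fun 𝔞 => ?_
    rw [idealChar_apply, ofReal_rpow_neg]
    congr 2
    exact 𝔞.2
  · intro a ha
    have : ∀ 𝔞 : {𝔞 : (Ideal (𝓞 F))⁰ // normRes F m 𝔞 = a},
        idealChar F m χ 𝔞 * (Ideal.absNorm ((𝔞 : (Ideal (𝓞 F))⁰) : Ideal (𝓞 F)) : ℂ) ^ (-(s : ℂ))
          = 0 := by
      intro 𝔞
      have h1 : idealChar F m χ 𝔞 = χ a := by
        rw [idealChar_apply]
        congr 1
        exact 𝔞.2
      rw [h1, χ.map_nonunit ha, zero_mul]
    rw [tsum_congr this, tsum_zero]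

/-- If a rational prime `q` divides `N(𝔞)`, `𝔞 ≠ 0`, then `𝔞 + (q) ≠ ⊤`. -/
theorem sup_span_ne_top_of_dvd_absNorm {𝔞 : Ideal (𝓞 F)} (h𝔞 : 𝔞 ≠ ⊥) {q : ℕ} (hq : q.Prime)
    (hdvd : q ∣ Ideal.absNorm 𝔞) : 𝔞 ⊔ Ideal.span {(q : 𝓞 F)} ≠ ⊤ := by
  intro htop
  have : Fact q.Prime := ⟨hq⟩
  have hfin : Finite (𝓞 F ⧸ 𝔞) := Ideal.finiteQuotientOfFreeOfNeBot 𝔞 h𝔞
  have hcard : Nat.card (𝓞 F ⧸ 𝔞) = Ideal.absNorm 𝔞 := by
    rw [Ideal.absNorm_apply, Submodule.cardQuot_apply]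
  obtain ⟨x, hx⟩ := exists_prime_addOrderOf_dvd_card' (G := 𝓞 F ⧸ 𝔞) q (hcard ▸ hdvd)
  obtain ⟨y, rfl⟩ := Ideal.Quotient.mk_surjective x
  have hy : y ∉ 𝔞 := by
    intro hy
    rw [← Ideal.Quotient.eq_zero_iff_mem] at hy
    rw [hy, addOrderOf_zero] at hx
    exact hq.one_lt.ne hx
  have hqy : (q : 𝓞 F) * y ∈ 𝔞 := by
    rw [← Ideal.Quotient.eq_zero_iff_mem, map_mul, map_natCast, ← nsmul_eq_mul, ← hx]
    exact addOrderOf_nsmul_eq_zero _
  have h1 : (1 : 𝓞 F) ∈ 𝔞 ⊔ Ideal.span {(q : 𝓞 F)} := by rw [htop]; trivial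
  obtain ⟨a, ha, b, hb, hab⟩ := Submodule.mem_sup.mp h1
  obtain ⟨r, rfl⟩ := Ideal.mem_span_singleton'.mp hb
  apply hy
  have : y = y * a + r * ((q : 𝓞 F) * y) := by
    calc y = y * 1 := (mul_one y).symm
      _ = y * (a + r * q) := by rw [hab]
      _ = _ := by ring
  rw [this]
  exact 𝔞.add_mem (𝔞.mul_mem_left _ ha) (𝔞.mul_mem_left _ hqy)

/-- The finite set of primes of `F` dividing `m`. -/
noncomputable def primesDividing [NeZero m] : Finset (HeightOneSpectrum (𝓞 F)) :=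
  (Ideal.finite_factors (R := 𝓞 F) (I := Ideal.span {(m : 𝓞 F)}) (by
    rw [Ne, Ideal.zero_eq_bot, Ideal.span_singleton_eq_bot]
    exact_mod_cast NeZero.ne m)).toFinset

theorem mem_primesDividing [NeZero m] (p : HeightOneSpectrum (𝓞 F)) :
    p ∈ primesDividing F m ↔ (m : 𝓞 F) ∈ p.asIdeal := by
  rw [primesDividing, Set.Finite.mem_toFinset, Set.mem_ofPred_eq, Ideal.dvd_iff_le,
    Ideal.span_singleton_le_iff_mem]

/-- A nonzero ideal has norm prime to `m` iff no prime dividing `m` divides it. -/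
theorem isUnit_normRes_iff [NeZero m] (𝔞 : (Ideal (𝓞 F))⁰) :
    IsUnit (normRes F m 𝔞) ↔ (𝔞 : Ideal (𝓞 F)) ∈ sieve (primesDividing F m) := by
  rw [normRes_apply, ZMod.isUnit_iff_coprime, mem_sieve]
  have h𝔞 : (𝔞 : Ideal (𝓞 F)) ≠ ⊥ := nonZeroDivisors.coe_ne_zero 𝔞
  constructor
  · intro hcop p hp hdvd
    rw [mem_primesDividing] at hp
    -- `N p` divides `N 𝔞` and `N (m)`
    have h1 : Ideal.absNorm p.asIdeal ∣ Ideal.absNorm (𝔞 : Ideal (𝓞 F)) :=
      Ideal.absNorm_dvd_absNorm_of_le (Ideal.le_of_dvd hdvd)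
    have h2 : Ideal.absNorm p.asIdeal ∣ Ideal.absNorm (Ideal.span {(m : 𝓞 F)}) :=
      Ideal.absNorm_dvd_absNorm_of_le ((Ideal.span_singleton_le_iff_mem _).mpr hp)
    have h3 : Ideal.absNorm (Ideal.span {(m : 𝓞 F)}) = m ^ Module.finrank ℚ F := by
      rw [Ideal.absNorm_span_singleton]
      have : (m : 𝓞 F) = algebraMap ℤ (𝓞 F) (m : ℤ) := by simp
      rw [this, Algebra.norm_algebraMap, RingOfIntegers.rank]
      simp [Int.natAbs_pow]
    rw [h3] at h2
    have hcop' : Nat.Coprime (Ideal.absNorm (𝔞 : Ideal (𝓞 F))) (m ^ Module.finrank ℚ F) :=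
      Nat.Coprime.pow_right _ hcop
    have h4 : Ideal.absNorm p.asIdeal = 1 :=
      Nat.eq_one_of_dvd_coprimes hcop' h1 h2
    exact absurd h4 (one_lt_absNorm_prime F p).ne'
  · intro h
    rw [Nat.coprime_iff_gcd_eq_one]
    by_contra hne
    obtain ⟨q, hq, hqdvd⟩ := Nat.exists_prime_and_dvd hne
    have hq1 : q ∣ Ideal.absNorm (𝔞 : Ideal (𝓞 F)) := hqdvd.trans (Nat.gcd_dvd_left _ _)
    have hq2 : q ∣ m := hqdvd.trans (Nat.gcd_dvd_right _ _)
    have hne' := sup_span_ne_top_of_dvd_absNorm F h𝔞 hq hq1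
    obtain ⟨M, hM, hle⟩ := Ideal.exists_le_maximal _ hne'
    have hM0 : M ≠ ⊥ := fun h0 => h𝔞 (le_bot_iff.mp (h0 ▸ (le_sup_left.trans hle)))
    let p : HeightOneSpectrum (𝓞 F) := ⟨M, hM.isPrime, hM0⟩
    have hqM : (q : 𝓞 F) ∈ M := hle (Ideal.mem_sup_right (Ideal.subset_span rfl))
    have hmM : (m : 𝓞 F) ∈ M := by
      obtain ⟨k, rfl⟩ := hq2
      rw [Nat.cast_mul]
      exact M.mul_mem_right _ hqM
    exact h p ((mem_primesDividing F m p).2 hmM) (Ideal.dvd_iff_le.mpr (le_sup_left.trans hle))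

/-- The Euler factor at the primes dividing `m`. -/
noncomputable def badFactor [NeZero m] (s : ℝ) : ℝ :=
  ∏ p ∈ primesDividing F m, (1 - (Ideal.absNorm p.asIdeal : ℝ) ^ (-s))

theorem badFactor_pos [NeZero m] {s : ℝ} (hs : 0 < s) : 0 < badFactor F m s := by
  apply Finset.prod_pos
  intro p _
  have := absNorm_prime_rpow_lt_one F p hs
  linarith

/-- `L(s, 1) = ζ_F(s) ∏_{𝔭 ∣ m} (1 - N𝔭^{-s})`. -/
theorem LSer_one_eq [NeZero m] {s : ℝ} (hs : 1 < s) :
    LSer F m (1 : DirichletCharacter ℂ m) (s : ℂ) =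
      ((badFactor F m s * zetaReal F s : ℝ) : ℂ) := by
  have hs0 : s ≠ 0 := by linarith
  have hsum : Summable fun a : Ideal (𝓞 F) => ‖normRPow F s hs0 a‖ := by
    refine (summable_absNorm_rpow F hs).congr fun a => ?_
    rw [normRPow_apply, Real.norm_of_nonneg (Real.rpow_nonneg (Nat.cast_nonneg _) _)]
  have h1 := tsum_indicator_sieve (normRPow F s hs0) hsum (primesDividing F m)
  have h2 : badFactor F m s * zetaReal F s =
      ∑' a : Ideal (𝓞 F), (sieve (primesDividing F m)).indicator (normRPow F s hs0) a := by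
    rw [h1, badFactor, zetaReal_eq_tsum F hs0]
    rfl
  rw [h2, LSer, LSeriesIdeal, Complex.ofReal_tsum]
  rw [← tsum_nonZeroDivisors_eq F
    (fun a => (((sieve (primesDividing F m)).indicator (normRPow F s hs0) a : ℝ) : ℂ))]
  · refine tsum_congr fun 𝔞 => ?_
    rw [idealChar_apply, ofReal_rpow_neg]
    by_cases h : IsUnit (normRes F m 𝔞)
    · rw [Set.indicator_of_mem ((isUnit_normRes_iff F m 𝔞).1 h), normRPow_apply]
      rw [normRes_apply] at h
      obtain ⟨u, hu⟩ := h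
      rw [← hu, MulChar.one_apply_coe, one_mul]
    · rw [Set.indicator_of_notMem (fun h' => h ((isUnit_normRes_iff F m 𝔞).2 h'))]
      rw [normRes_apply] at h
      rw [MulChar.map_nonunit _ h, zero_mul, Complex.ofReal_zero]
  · have : (sieve (primesDividing F m)).indicator (normRPow F s hs0) (0 : Ideal (𝓞 F)) = 0 := by
      by_cases h : (0 : Ideal (𝓞 F)) ∈ sieve (primesDividing F m)
      · rw [Set.indicator_of_mem h, map_zero]
      · rw [Set.indicator_of_notMem h]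
    rw [this, Complex.ofReal_zero]

/-! ### The pole of `L(s, 1)` at `s = 1` -/

theorem continuous_badFactor [NeZero m] : Continuous (badFactor F m) := by
  unfold badFactor
  apply continuous_finsetProd
  intro p _
  apply continuous_const.sub
  have hpos : (0 : ℝ) < (Ideal.absNorm p.asIdeal : ℝ) := by
    exact_mod_cast (zero_lt_one.trans (one_lt_absNorm_prime F p))
  exact continuous_const.rpow continuous_neg (fun _ => Or.inl hpos.ne')

/-- `(s - 1) ζ_F(s) → residue` along real `s → 1⁺`. -/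
theorem tendsto_sub_one_mul_zetaReal :
    Tendsto (fun s : ℝ => (s - 1) * zetaReal F s) (𝓝[>] 1) (𝓝 (dedekindZeta_residue F)) := by
  have h := tendsto_sub_one_mul_dedekindZeta_nhdsGT F
  have h2 := (Complex.continuous_re.tendsto _).comp h
  rw [Complex.ofReal_re] at h2
  refine h2.congr' ?_
  filter_upwards [self_mem_nhdsWithin] with s hs
  have hs1 : (1 : ℝ) < s := hs
  rw [Function.comp_apply, dedekindZeta_eq_zetaReal F hs1, ← Complex.ofReal_one,
    ← Complex.ofReal_sub, ← Complex.ofReal_mul, Complex.ofReal_re]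

/-- The constant `c = ∏_{𝔭 ∣ m} (1 - N𝔭⁻¹) · Res_{s=1} ζ_F > 0`. -/
noncomputable def poleConst [NeZero m] : ℝ := badFactor F m 1 * dedekindZeta_residue F

theorem poleConst_pos [NeZero m] : 0 < poleConst F m :=
  mul_pos (badFactor_pos F m one_pos) (dedekindZeta_residue_pos F)

/-- `(s - 1) L(s, 1) → c > 0` (real form). -/
theorem tendsto_sub_one_mul_LSer_one_real [NeZero m] :
    Tendsto (fun s : ℝ => (s - 1) * (badFactor F m s * zetaReal F s)) (𝓝[>] 1)
      (𝓝 (poleConst F m)) := by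
  have h1 : Tendsto (badFactor F m) (𝓝[>] 1) (𝓝 (badFactor F m 1)) :=
    ((continuous_badFactor F m).tendsto 1).mono_left nhdsWithin_le_nhds
  have h2 := h1.mul (tendsto_sub_one_mul_zetaReal F)
  refine h2.congr fun s => ?_
  ring

/-- `(s - 1) L(s, 1) → c > 0` (complex form). -/
theorem tendsto_sub_one_mul_LSer_one [NeZero m] :
    Tendsto (fun s : ℝ => ((s : ℂ) - 1) * LSer F m (1 : DirichletCharacter ℂ m) (s : ℂ))
      (𝓝[>] 1) (𝓝 ((poleConst F m : ℝ) : ℂ)) := by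
  have h := (Complex.continuous_ofReal.tendsto _).comp (tendsto_sub_one_mul_LSer_one_real F m)
  refine h.congr' ?_
  filter_upwards [self_mem_nhdsWithin] with s hs
  have hs1 : (1 : ℝ) < s := hs
  rw [Function.comp_apply, LSer_one_eq F m hs1]
  push_cast
  ring

/-! ### The subgroup of norm residues and character sums -/

/-- The norm residues form a subgroup of `(ZMod m)ˣ`. -/
noncomputable def normResiduesSubgroup [NeZero m] : Subgroup (ZMod m)ˣ where
  carrier := normResidues F m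
  one_mem' := ⟨1, by simp⟩
  mul_mem' := by
    rintro a b ⟨𝔞, ha⟩ ⟨𝔟, hb⟩
    exact ⟨𝔞 * 𝔟, by rw [map_mul, ha, hb, Units.val_mul]⟩
  inv_mem' := by
    rintro a ⟨𝔞, ha⟩
    refine ⟨𝔞 ^ (orderOf a - 1), ?_⟩
    rw [map_pow, ha, ← Units.val_pow_eq_pow_val]
    congr 1
    have hpos : 0 < orderOf a := orderOf_pos a
    have h1 : a ^ (orderOf a - 1) * a = 1 := by
      rw [← pow_succ, Nat.sub_add_cancel hpos, pow_orderOf_eq_one]
    exact eq_inv_of_mul_eq_one_left h1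

theorem mem_normResiduesSubgroup [NeZero m] (a : (ZMod m)ˣ) :
    a ∈ normResiduesSubgroup F m ↔ a ∈ normResidues F m := Iff.rfl

/-- A sum over the units of a function vanishing off a subgroup is a sum over the subgroup. -/
theorem sum_units_eq_sum_subgroup [NeZero m] (H : Subgroup (ZMod m)ˣ) [Fintype H]
    {E : Type*} [AddCommMonoid E] (f : (ZMod m)ˣ → E) (hf : ∀ a, a ∉ H → f a = 0) :
    ∑ a : (ZMod m)ˣ, f a = ∑ a : H, f (a : (ZMod m)ˣ) := by
  classical
  let emb : H ↪ (ZMod m)ˣ := ⟨Subtype.val, Subtype.val_injective⟩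
  have h1 : ∑ a : H, f (a : (ZMod m)ˣ) = ∑ a ∈ Finset.univ.map emb, f a := by
    rw [Finset.sum_map]
    rfl
  rw [h1]
  symm
  apply Finset.sum_subset (Finset.subset_univ _)
  intro a _ ha
  apply hf
  intro haH
  exact ha (Finset.mem_map.2 ⟨⟨a, haH⟩, Finset.mem_univ _, rfl⟩)

/-- The `L`-series as a sum over the subgroup of norm residues. -/
theorem LSer_eq_sum_subgroup [NeZero m] [Fintype (normResiduesSubgroup F m)]
    (χ : DirichletCharacter ℂ m) {s : ℝ} (hs : 1 < s) :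
    LSer F m χ (s : ℂ) = ∑ a : normResiduesSubgroup F m,
      χ ((a : (ZMod m)ˣ) : ZMod m) * ((partialZeta F m ((a : (ZMod m)ˣ) : ZMod m) s : ℝ) : ℂ) := by
  rw [LSer_eq_sum F m χ hs]
  apply sum_units_eq_sum_subgroup m (normResiduesSubgroup F m)
    (fun a : (ZMod m)ˣ => χ (a : ZMod m) * ((partialZeta F m (a : ZMod m) s : ℝ) : ℂ))
  intro a ha
  rw [partialZeta_eq_zero_of_notMem F m ha, Complex.ofReal_zero, mul_zero]

/-- A character trivial on the norm residues has the same `L`-series as the trivial character. -/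
theorem LSer_eq_LSer_one_of_trivial [NeZero m] (χ : DirichletCharacter ℂ m)
    (hχ : ∀ a ∈ normResidues F m, χ ((a : (ZMod m)ˣ) : ZMod m) = 1) {s : ℝ} (hs : 1 < s) :
    LSer F m χ (s : ℂ) = LSer F m (1 : DirichletCharacter ℂ m) (s : ℂ) := by
  have : Fintype (normResiduesSubgroup F m) := Fintype.ofFinite _
  rw [LSer_eq_sum_subgroup F m χ hs, LSer_eq_sum_subgroup F m 1 hs]
  refine Finset.sum_congr rfl fun a _ => ?_
  rw [hχ a a.2, MulChar.one_apply_coe]

/-- The restriction of a Dirichlet character to the subgroup of norm residues. -/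
noncomputable def resChar [NeZero m] (χ : DirichletCharacter ℂ m) :
    normResiduesSubgroup F m →* ℂ :=
  ((Units.coeHom ℂ).comp (MulChar.toUnitHom χ)).comp (normResiduesSubgroup F m).subtype

theorem resChar_apply [NeZero m] (χ : DirichletCharacter ℂ m) (a : normResiduesSubgroup F m) :
    resChar F m χ a = χ ((a : (ZMod m)ˣ) : ZMod m) := by
  change ((MulChar.toUnitHom χ (a : (ZMod m)ˣ) : ℂˣ) : ℂ) = _
  rw [MulChar.coe_toUnitHom]

/-- A character which is nontrivial on the norm residues sums to zero over them. -/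
theorem sum_subgroup_eq_zero [NeZero m] [Fintype (normResiduesSubgroup F m)]
    (χ : DirichletCharacter ℂ m)
    (hχ : ∃ a ∈ normResidues F m, χ ((a : (ZMod m)ˣ) : ZMod m) ≠ 1) :
    ∑ a : normResiduesSubgroup F m, χ ((a : (ZMod m)ˣ) : ZMod m) = 0 := by
  have hne : resChar F m χ ≠ 1 := by
    obtain ⟨a, ha, hne⟩ := hχ
    intro h
    apply hne
    have := congrArg (fun f : normResiduesSubgroup F m →* ℂ => f ⟨a, ha⟩) h
    simpa [resChar_apply] using this
  have := sum_hom_units_eq_zero (resChar F m χ) hne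
  simpa only [resChar_apply] using this

/-- For `χ` nontrivial on the norm residues, `L(s, χ) = ∑_{a ∈ H} χ(a) (Z_a(s) - Z_1(s))`. -/
theorem LSer_eq_sum_sub [NeZero m] [Fintype (normResiduesSubgroup F m)]
    (χ : DirichletCharacter ℂ m)
    (hχ : ∃ a ∈ normResidues F m, χ ((a : (ZMod m)ˣ) : ZMod m) ≠ 1) {s : ℝ} (hs : 1 < s) :
    LSer F m χ (s : ℂ) = ∑ a : normResiduesSubgroup F m,
      χ ((a : (ZMod m)ˣ) : ZMod m) *
        (((partialZeta F m ((a : (ZMod m)ˣ) : ZMod m) s -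
          partialZeta F m ((1 : (ZMod m)ˣ) : ZMod m) s : ℝ)) : ℂ) := by
  rw [LSer_eq_sum_subgroup F m χ hs]
  have h0 := sum_subgroup_eq_zero F m χ hχ
  have : ∑ a : normResiduesSubgroup F m, χ ((a : (ZMod m)ˣ) : ZMod m) *
      (((partialZeta F m ((a : (ZMod m)ˣ) : ZMod m) s -
          partialZeta F m ((1 : (ZMod m)ˣ) : ZMod m) s : ℝ)) : ℂ) =
      ∑ a : normResiduesSubgroup F m, χ ((a : (ZMod m)ˣ) : ZMod m) *
        ((partialZeta F m ((a : (ZMod m)ˣ) : ZMod m) s : ℝ) : ℂ) -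
      (∑ a : normResiduesSubgroup F m, χ ((a : (ZMod m)ˣ) : ZMod m)) *
        ((partialZeta F m ((1 : (ZMod m)ˣ) : ZMod m) s : ℝ) : ℂ) := by
    rw [Finset.sum_mul, ← Finset.sum_sub_distrib]
    refine Finset.sum_congr rfl fun a _ => ?_
    push_cast
    ring
  rw [this, h0, zero_mul, sub_zero]

/-! ### Lipschitz behaviour and the limit at `s = 1` for nontrivial characters -/

/-- **Lipschitz estimate.** -/
theorem exists_lipschitz_LSer (hZ : PartialZetaLipschitz.{u}) [NeZero m]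
    (χ : DirichletCharacter ℂ m)
    (hχ : ∃ a ∈ normResidues F m, χ ((a : (ZMod m)ˣ) : ZMod m) ≠ 1) :
    ∃ B : ℝ, 0 ≤ B ∧ ∀ s ∈ Set.Ioc (1 : ℝ) 2, ∀ t ∈ Set.Ioc (1 : ℝ) 2,
      ‖LSer F m χ (s : ℂ) - LSer F m χ (t : ℂ)‖ ≤ B * |s - t| := by
  have : Fintype (normResiduesSubgroup F m) := Fintype.ofFinite _
  have h1mem : (1 : (ZMod m)ˣ) ∈ normResidues F m := (normResiduesSubgroup F m).one_mem
  have hB : ∀ a : normResiduesSubgroup F m, ∃ B : ℝ, ∀ s ∈ Set.Ioc (1 : ℝ) 2,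
      ∀ t ∈ Set.Ioc (1 : ℝ) 2,
      |(partialZeta F m ((a : (ZMod m)ˣ) : ZMod m) s - partialZeta F m ((1 : (ZMod m)ˣ) : ZMod m) s) -
        (partialZeta F m ((a : (ZMod m)ˣ) : ZMod m) t -
          partialZeta F m ((1 : (ZMod m)ˣ) : ZMod m) t)| ≤ B * |s - t| :=
    fun a => hZ F m (a : (ZMod m)ˣ) 1 a.2 h1mem
  choose B hB using hB
  refine ⟨∑ a, |B a|, Finset.sum_nonneg fun _ _ => abs_nonneg _, ?_⟩
  intro s hs t ht
  rw [LSer_eq_sum_sub F m χ hχ hs.1, LSer_eq_sum_sub F m χ hχ ht.1, ← Finset.sum_sub_distrib,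
    Finset.sum_mul]
  refine (norm_sum_le _ _).trans (Finset.sum_le_sum fun a _ => ?_)
  rw [← mul_sub, norm_mul, ← Complex.ofReal_sub, Complex.norm_real, Real.norm_eq_abs]
  calc ‖χ ((a : (ZMod m)ˣ) : ZMod m)‖ * _ ≤ 1 * (B a * |s - t|) :=
        mul_le_mul (DirichletCharacter.norm_le_one χ _) (hB a s hs t ht) (abs_nonneg _) zero_le_one
    _ ≤ |B a| * |s - t| := by
        rw [one_mul]
        exact mul_le_mul_of_nonneg_right (le_abs_self _) (abs_nonneg _)

/-- A function which is Lipschitz on `(1, 2]` with values in `ℂ` has a limit at `1⁺`, approached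
at linear speed. -/
theorem exists_limit_of_lipschitz (g : ℝ → ℂ) (B : ℝ) (hB0 : 0 ≤ B)
    (hg : ∀ s ∈ Set.Ioc (1 : ℝ) 2, ∀ t ∈ Set.Ioc (1 : ℝ) 2, ‖g s - g t‖ ≤ B * |s - t|) :
    ∃ L : ℂ, (∀ s ∈ Set.Ioc (1 : ℝ) 2, ‖g s - L‖ ≤ B * (s - 1)) ∧
      Tendsto g (𝓝[>] 1) (𝓝 L) := by
  let u : ℕ → ℝ := fun n => 1 + 1 / ((n : ℝ) + 1)
  have hu_mem : ∀ n, u n ∈ Set.Ioc (1 : ℝ) 2 := by
    intro n
    have hpos : (0 : ℝ) < (n : ℝ) + 1 := by positivity
    constructor
    · simp only [u]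
      have : 0 < 1 / ((n : ℝ) + 1) := by positivity
      linarith
    · simp only [u]
      have : 1 / ((n : ℝ) + 1) ≤ 1 := by
        rw [div_le_one hpos]
        have : (0 : ℝ) ≤ n := Nat.cast_nonneg n
        linarith
      linarith
  have hu_lim : Tendsto u atTop (𝓝 1) := by
    have := tendsto_one_div_add_atTop_nhds_zero_nat (𝕜 := ℝ)
    have h2 := this.const_add 1
    simpa [u] using h2
  have hcauchy : CauchySeq (fun n => g (u n)) := by
    apply cauchySeq_of_le_tendsto_0 (fun N : ℕ => B * (2 / ((N : ℝ) + 1)))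
    · intro n k N hn hk
      rw [dist_eq_norm]
      refine (hg _ (hu_mem n) _ (hu_mem k)).trans ?_
      apply mul_le_mul_of_nonneg_left _ hB0
      have hN : (0 : ℝ) < (N : ℝ) + 1 := by positivity
      have h1 : 1 / ((n : ℝ) + 1) ≤ 1 / ((N : ℝ) + 1) := by
        apply one_div_le_one_div_of_le hN
        have : (N : ℝ) ≤ n := by exact_mod_cast hn
        linarith
      have h2 : 1 / ((k : ℝ) + 1) ≤ 1 / ((N : ℝ) + 1) := by
        apply one_div_le_one_div_of_le hN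
        have : (N : ℝ) ≤ k := by exact_mod_cast hk
        linarith
      have h3 : (0 : ℝ) < 1 / ((n : ℝ) + 1) := by positivity
      have h4 : (0 : ℝ) < 1 / ((k : ℝ) + 1) := by positivity
      simp only [u]
      rw [abs_le]
      constructor
      · have : 2 / ((N : ℝ) + 1) = 1 / ((N : ℝ) + 1) + 1 / ((N : ℝ) + 1) := by ring
        linarith
      · have : 2 / ((N : ℝ) + 1) = 1 / ((N : ℝ) + 1) + 1 / ((N : ℝ) + 1) := by ring
        linarith
    · have := tendsto_one_div_add_atTop_nhds_zero_nat (𝕜 := ℝ)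
      have h2 := (this.const_mul 2).const_mul B
      simp only [mul_zero] at h2
      refine h2.congr fun n => ?_
      ring
  obtain ⟨L, hL⟩ := cauchySeq_tendsto_of_complete hcauchy
  have hbound : ∀ s ∈ Set.Ioc (1 : ℝ) 2, ‖g s - L‖ ≤ B * (s - 1) := by
    intro s hs
    have h1 : Tendsto (fun n => ‖g s - g (u n)‖) atTop (𝓝 ‖g s - L‖) :=
      (continuous_norm.tendsto _).comp (tendsto_const_nhds.sub hL)
    have h2 : Tendsto (fun n => B * |s - u n|) atTop (𝓝 (B * |s - 1|)) :=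
      ((continuous_abs.tendsto _).comp (tendsto_const_nhds.sub hu_lim)).const_mul B
    have h3 := le_of_tendsto_of_tendsto' h1 h2 (fun n => hg s hs (u n) (hu_mem n))
    rwa [abs_of_pos (by linarith [hs.1] : (0 : ℝ) < s - 1)] at h3
  refine ⟨L, hbound, ?_⟩
  rw [Metric.tendsto_nhdsWithin_nhds]
  intro ε hε
  refine ⟨min 1 (ε / (B + 1)), lt_min one_pos (by positivity), ?_⟩
  intro s hs1 hdist
  have hs1' : (1 : ℝ) < s := hs1
  rw [Real.dist_eq, abs_of_pos (by linarith : (0 : ℝ) < s - 1)] at hdist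
  have hs2 : s ≤ 2 := by
    have := hdist.trans_le (min_le_left _ _)
    linarith
  rw [dist_eq_norm]
  refine (hbound s ⟨hs1', hs2⟩).trans_lt ?_
  have h5 : s - 1 < ε / (B + 1) := hdist.trans_le (min_le_right _ _)
  have hB1 : (0 : ℝ) < B + 1 := by linarith
  calc B * (s - 1) ≤ (B + 1) * (s - 1) := by nlinarith
    _ < (B + 1) * (ε / (B + 1)) := mul_lt_mul_of_pos_left h5 hB1
    _ = ε := by field_simp

/-- **Limit at `s = 1`** of the `L`-series of a character nontrivial on the norm residues. -/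
theorem exists_limit_LSer (hZ : PartialZetaLipschitz.{u}) [NeZero m]
    (χ : DirichletCharacter ℂ m)
    (hχ : ∃ a ∈ normResidues F m, χ ((a : (ZMod m)ˣ) : ZMod m) ≠ 1) :
    ∃ (L1 : ℂ) (B : ℝ), 0 ≤ B ∧
      (∀ s ∈ Set.Ioc (1 : ℝ) 2, ‖LSer F m χ (s : ℂ) - L1‖ ≤ B * (s - 1)) ∧
      Tendsto (fun s : ℝ => LSer F m χ (s : ℂ)) (𝓝[>] 1) (𝓝 L1) := by
  obtain ⟨B, hB0, hB⟩ := exists_lipschitz_LSer F m hZ χ hχ
  obtain ⟨L, h1, h2⟩ := exists_limit_of_lipschitz (fun s : ℝ => LSer F m χ (s : ℂ)) B hB0 hB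
  exact ⟨L, B, hB0, h1, h2⟩

end Fermat.Agent.Lib.CFT.Cheb.LSeries
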