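import Fermat.Agent.Lib.CFT.Cheb.NonVanishing
import Fermat.Agent.Lib.CFT.Cheb.LSeries

/-!
# CHEBOTAREV, WP-L4 (glue): non-vanishing of `L(1, χ)` from the pole of the product

Combination of the abstract pole order argument (`NonVanishing.lean`) with the results of WP-L2
(`LSeries.lean`).  The only remaining input is the simple pole of `∏ χ, LSer F m χ s` at `s = 1`
(WP-L3: this product is the Dedekind zeta function of `F(ζ_m)` up to finitely many Euler factors).
-/

set_option autoImplicit false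
set_option linter.unusedSectionVars false

namespace Fermat.Agent.Lib.CFT.Cheb.NonVanishing

open Filter Topology Finset CharGroup NumberField
open Fermat.Agent.Lib.CFT.Cheb.LSeries

universe u

variable (F : Type u) [Field F] [NumberField F] (m : ℕ) [NeZero m]

theorem notMem_trivOn_iff (χ : DirichletCharacter ℂ m) :
    χ ∉ trivOn (normResiduesSubgroup F m) ↔
      ∃ a ∈ normResidues F m, χ ((a : (ZMod m)ˣ) : ZMod m) ≠ 1 := by
  rw [mem_trivOn]
  push Not
  rfl

/-- `LSer F m χ` only depends on the restriction of `χ` to the norm residues. -/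
theorem LSer_congr (χ ψ : DirichletCharacter ℂ m)
    (h : ∀ a ∈ normResiduesSubgroup F m,
      χ ((a : (ZMod m)ˣ) : ZMod m) = ψ ((a : (ZMod m)ˣ) : ZMod m))
    {s : ℝ} (hs : s ∈ Set.Ioc (1 : ℝ) 2) : LSer F m χ (s : ℂ) = LSer F m ψ (s : ℂ) := by
  have : Fintype (normResiduesSubgroup F m) := Fintype.ofFinite _
  rw [LSer_eq_sum_subgroup F m χ hs.1, LSer_eq_sum_subgroup F m ψ hs.1]
  exact Finset.sum_congr rfl fun a _ => by rw [h a a.2]

/-- The limit at `1⁺` of the `L`-series of a character which is nontrivial on the norm residues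
(and `0` for the other characters). -/
noncomputable def limitValue (hZ : PartialZetaLipschitz.{u}) (χ : DirichletCharacter ℂ m) : ℂ := by
  classical
  exact if h : ∃ a ∈ normResidues F m, χ ((a : (ZMod m)ˣ) : ZMod m) ≠ 1 then
    Classical.choose (exists_limit_LSer F m hZ χ h) else 0

theorem limitValue_spec (hZ : PartialZetaLipschitz.{u}) (χ : DirichletCharacter ℂ m)
    (h : ∃ a ∈ normResidues F m, χ ((a : (ZMod m)ˣ) : ZMod m) ≠ 1) :
    ∃ B : ℝ, 0 ≤ B ∧
      (∀ s ∈ Set.Ioc (1 : ℝ) 2, ‖LSer F m χ (s : ℂ) - limitValue F m hZ χ‖ ≤ B * (s - 1)) ∧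
      Tendsto (fun s : ℝ => LSer F m χ (s : ℂ)) (𝓝[>] 1) (𝓝 (limitValue F m hZ χ)) := by
  classical
  rw [limitValue, dif_pos h]
  exact Classical.choose_spec (exists_limit_LSer F m hZ χ h)

/-- **WP-L4**: if the product of the `L`-series of all norm-residue characters modulo `m` has a
simple pole at `s = 1`, then every unit residue class modulo `m` contains the norm of an ideal, and
the `L`-series of every nontrivial character has a nonzero limit at `1⁺`, approached at linear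
speed. -/
theorem normResidues_eq_univ_and_limit_ne_zero (hZ : PartialZetaLipschitz.{u})
    {c' : ℂ} (hc' : c' ≠ 0)
    (hprod : Tendsto (fun s : ℝ => ((s : ℂ) - 1) * ∏ χ : DirichletCharacter ℂ m,
      LSer F m χ (s : ℂ)) (𝓝[>] (1 : ℝ)) (𝓝 c')) :
    normResidues F m = Set.univ ∧
    ∀ χ : DirichletCharacter ℂ m, χ ≠ 1 → ∃ L1 : ℂ, L1 ≠ 0 ∧ ∃ B : ℝ, 0 ≤ B ∧
      (∀ s ∈ Set.Ioc (1 : ℝ) 2, ‖LSer F m χ (s : ℂ) - L1‖ ≤ B * (s - 1)) ∧
      Tendsto (fun s : ℝ => LSer F m χ (s : ℂ)) (𝓝[>] 1) (𝓝 L1) := by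
  have hc0 : ((poleConst F m : ℝ) : ℂ) ≠ 0 :=
    Complex.ofReal_ne_zero.mpr (poleConst_pos F m).ne'
  have hmain := eq_top_and_L1_ne_zero F m (normResiduesSubgroup F m) (limitValue F m hZ)
    (fun χ ψ h s hs => LSer_congr F m χ ψ h hs) hc0 (tendsto_sub_one_mul_LSer_one F m)
    (fun χ hχ => by
      obtain ⟨B, -, hB, -⟩ := limitValue_spec F m hZ χ ((notMem_trivOn_iff F m χ).mp hχ)
      exact ⟨B, hB⟩) hc' hprod
  obtain ⟨htop, hne⟩ := hmain
  have huniv : normResidues F m = Set.univ := by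
    ext a
    simp only [Set.mem_univ, iff_true]
    have : a ∈ normResiduesSubgroup F m := by
      rw [htop]
      exact Subgroup.mem_top a
    exact this
  refine ⟨huniv, fun χ hχ => ?_⟩
  have hχ' : ∃ a ∈ normResidues F m, χ ((a : (ZMod m)ˣ) : ZMod m) ≠ 1 := by
    by_contra hcon
    push Not at hcon
    apply hχ
    ext a
    rw [MulChar.one_apply_coe]
    exact hcon a (huniv ▸ Set.mem_univ a)
  obtain ⟨B, hB0, hB, hlim⟩ := limitValue_spec F m hZ χ hχ'
  exact ⟨limitValue F m hZ χ, hne χ hχ, B, hB0, hB, hlim⟩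

/-- The simple pole of the product of the `L`-series from a factorisation of the Dedekind zeta
function of a number field `M` (in the application `M = F(ζ_m)`; this is the output shape expected
from WP-L3). -/
theorem exists_tendsto_prod_LSer_of_factor (M : Type*) [Field M] [NumberField M]
    (E : ℝ → ℂ) {e : ℂ} (he : e ≠ 0) (hE : Tendsto E (𝓝[>] (1 : ℝ)) (𝓝 e))
    (hfac : ∀ s ∈ Set.Ioc (1 : ℝ) 2, ((Unram.EulerProduct.zetaReal M s : ℝ) : ℂ) =
      E s * ∏ χ : DirichletCharacter ℂ m, LSer F m χ (s : ℂ)) :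
    ∃ c' : ℂ, c' ≠ 0 ∧ Tendsto (fun s : ℝ => ((s : ℂ) - 1) * ∏ χ : DirichletCharacter ℂ m,
      LSer F m χ (s : ℂ)) (𝓝[>] (1 : ℝ)) (𝓝 c') := by
  have hZ : Tendsto (fun s : ℝ => ((s : ℂ) - 1) * ((Unram.EulerProduct.zetaReal M s : ℝ) : ℂ))
      (𝓝[>] (1 : ℝ)) (𝓝 ((dedekindZeta_residue M : ℝ) : ℂ)) := by
    have h := (Complex.continuous_ofReal.tendsto _).comp (tendsto_sub_one_mul_zetaReal M)
    refine h.congr fun s => ?_
    rw [Function.comp_apply]
    push_cast
    ring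
  refine ⟨((dedekindZeta_residue M : ℝ) : ℂ) / e,
    div_ne_zero (Complex.ofReal_ne_zero.mpr (dedekindZeta_residue_pos M).ne') he, ?_⟩
  exact tendsto_of_factor hfac he hZ hE

/-- **WP-L4, final form**: from `PartialZetaLipschitz` and a factorisation of the Dedekind zeta
function of some number field `M` as `E(s) ∏ χ, LSer F m χ s` with `E → e ≠ 0`. -/
theorem normResidues_eq_univ_and_limit_ne_zero_of_factor (hZ : PartialZetaLipschitz.{u})
    (M : Type*) [Field M] [NumberField M]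
    (E : ℝ → ℂ) {e : ℂ} (he : e ≠ 0) (hE : Tendsto E (𝓝[>] (1 : ℝ)) (𝓝 e))
    (hfac : ∀ s ∈ Set.Ioc (1 : ℝ) 2, ((Unram.EulerProduct.zetaReal M s : ℝ) : ℂ) =
      E s * ∏ χ : DirichletCharacter ℂ m, LSer F m χ (s : ℂ)) :
    normResidues F m = Set.univ ∧
    ∀ χ : DirichletCharacter ℂ m, χ ≠ 1 → ∃ L1 : ℂ, L1 ≠ 0 ∧ ∃ B : ℝ, 0 ≤ B ∧
      (∀ s ∈ Set.Ioc (1 : ℝ) 2, ‖LSer F m χ (s : ℂ) - L1‖ ≤ B * (s - 1)) ∧
      Tendsto (fun s : ℝ => LSer F m χ (s : ℂ)) (𝓝[>] 1) (𝓝 L1) := by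
  obtain ⟨c', hc', hprod⟩ := exists_tendsto_prod_LSer_of_factor F m M E he hE hfac
  exact normResidues_eq_univ_and_limit_ne_zero F m hZ hc' hprod

end Fermat.Agent.Lib.CFT.Cheb.NonVanishing
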