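/-
helper56 (P-CFT by-product CHEBOTAREV, WP-L5).  From the behaviour of the `L`-series of the
norm-residue characters at `s = 1` to infinitely many degree-one primes in every residue class.
-/
import Mathlib
import Fermat.Agent.Lib.CFT.Cheb.Defs

set_option autoImplicit false

namespace Fermat.Agent.Lib.CFT.Cheb.PrimeSum

open NumberField Filter Topology IsDedekindDomain
open scoped nonZeroDivisors
open Fermat.Agent.Lib.CFT.Unram

section Terms

variable (F : Type*) [Field F] [NumberField F] (m : ℕ)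

/-- The absolute norm of a prime, as a real number. -/
noncomputable def nrm (p : HeightOneSpectrum (𝓞 F)) : ℝ := (Ideal.absNorm p.asIdeal : ℝ)

theorem two_le_nrm (p : HeightOneSpectrum (𝓞 F)) : 2 ≤ nrm F p := by
  have h := EulerProduct.one_lt_absNorm_prime F p
  unfold nrm
  exact_mod_cast h

theorem nrm_pos (p : HeightOneSpectrum (𝓞 F)) : 0 < nrm F p := by
  have := two_le_nrm F p
  linarith

theorem nrm_rpow_neg_le_half (p : HeightOneSpectrum (𝓞 F)) {s : ℝ} (hs : 1 ≤ s) :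
    nrm F p ^ (-s) ≤ 1 / 2 := by
  have h2 := two_le_nrm F p
  have h1 : nrm F p ^ (-s) ≤ nrm F p ^ (-(1 : ℝ)) :=
    Real.rpow_le_rpow_of_exponent_le (by linarith) (by linarith)
  have h3 : nrm F p ^ (-(1 : ℝ)) = (nrm F p)⁻¹ := by
    rw [Real.rpow_neg (nrm_pos F p).le, Real.rpow_one]
  have h4 : (nrm F p)⁻¹ ≤ 1 / 2 := by
    rw [inv_eq_one_div]
    exact one_div_le_one_div_of_le (by norm_num) h2
  linarith

theorem nrm_rpow_neg_mono (p : HeightOneSpectrum (𝓞 F)) {s t : ℝ} (hst : s ≤ t) :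
    nrm F p ^ (-t) ≤ nrm F p ^ (-s) :=
  Real.rpow_le_rpow_of_exponent_le (by have := two_le_nrm F p; linarith) (by linarith)

theorem summable_nrm_rpow {s : ℝ} (hs : 1 < s) :
    Summable fun p : HeightOneSpectrum (𝓞 F) => nrm F p ^ (-s) :=
  EulerProduct.summable_absNorm_prime_rpow F hs

/-- The local term `χ(N𝔭) N𝔭^(-s)` of the prime sum. -/
noncomputable def zterm (χ : DirichletCharacter ℂ m) (s : ℝ) (p : HeightOneSpectrum (𝓞 F)) : ℂ :=
  idealChar F m χ (EulerProduct.primeIdeal F p) * (Ideal.absNorm p.asIdeal : ℂ) ^ (-(s : ℂ))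

theorem zterm_eq (χ : DirichletCharacter ℂ m) (s : ℝ) (p : HeightOneSpectrum (𝓞 F)) :
    zterm F m χ s p =
      χ (Ideal.absNorm p.asIdeal : ZMod m) * (Ideal.absNorm p.asIdeal : ℂ) ^ (-(s : ℂ)) := by
  rw [zterm, idealChar_apply, EulerProduct.coe_primeIdeal]

theorem norm_cpow_eq (p : HeightOneSpectrum (𝓞 F)) {s : ℝ} (hs : 0 < s) :
    ‖(Ideal.absNorm p.asIdeal : ℂ) ^ (-(s : ℂ))‖ = nrm F p ^ (-s) := by
  have := EulerProduct.norm_natCast_cpow_neg (Ideal.absNorm p.asIdeal) (s := (s : ℂ))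
    (by simpa using hs)
  rw [this, Complex.ofReal_re, nrm]

theorem norm_zterm_le (χ : DirichletCharacter ℂ m) {s : ℝ} (hs : 0 < s)
    (p : HeightOneSpectrum (𝓞 F)) : ‖zterm F m χ s p‖ ≤ nrm F p ^ (-s) := by
  rw [zterm, norm_mul, norm_cpow_eq F p hs]
  calc ‖idealChar F m χ (EulerProduct.primeIdeal F p)‖ * nrm F p ^ (-s)
      ≤ 1 * nrm F p ^ (-s) :=
        mul_le_mul_of_nonneg_right (norm_idealChar_le_one F m χ _)
          (Real.rpow_nonneg (nrm_pos F p).le _)
    _ = _ := one_mul _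

theorem norm_zterm_le_half (χ : DirichletCharacter ℂ m) {s : ℝ} (hs : 1 ≤ s)
    (p : HeightOneSpectrum (𝓞 F)) : ‖zterm F m χ s p‖ ≤ 1 / 2 :=
  (norm_zterm_le F m χ (by linarith) p).trans (nrm_rpow_neg_le_half F p hs)

theorem summable_norm_zterm (χ : DirichletCharacter ℂ m) {s : ℝ} (hs : 1 < s) :
    Summable fun p : HeightOneSpectrum (𝓞 F) => ‖zterm F m χ s p‖ :=
  Summable.of_nonneg_of_le (fun _ => norm_nonneg _) (norm_zterm_le F m χ (by linarith))
    (summable_nrm_rpow F hs)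

theorem summable_zterm (χ : DirichletCharacter ℂ m) {s : ℝ} (hs : 1 < s) :
    Summable fun p : HeightOneSpectrum (𝓞 F) => zterm F m χ s p :=
  (summable_norm_zterm F m χ hs).of_norm

/-- The local term `-log (1 - χ(N𝔭) N𝔭^(-s))` of the logarithm of the Euler product. -/
noncomputable def logterm (χ : DirichletCharacter ℂ m) (s : ℝ) (p : HeightOneSpectrum (𝓞 F)) : ℂ :=
  -Complex.log (1 - zterm F m χ s p)

theorem norm_neg_log_one_sub_sub_le {z : ℂ} (hz : ‖z‖ ≤ 1 / 2) :
    ‖-Complex.log (1 - z) - z‖ ≤ ‖z‖ ^ 2 := by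
  have h1 : ‖-z‖ < 1 := by rw [norm_neg]; linarith
  have h := Complex.norm_log_one_add_sub_self_le h1
  have e : -Complex.log (1 - z) - z = -(Complex.log (1 + -z) - -z) := by
    rw [← sub_eq_add_neg]; ring
  rw [e, norm_neg]
  refine h.trans ?_
  rw [norm_neg]
  have h2 : (1 - ‖z‖)⁻¹ ≤ 2 := by
    rw [inv_le_comm₀ (by linarith) two_pos]; linarith
  have h3 : 0 ≤ ‖z‖ ^ 2 := sq_nonneg _
  calc ‖z‖ ^ 2 * (1 - ‖z‖)⁻¹ / 2 ≤ ‖z‖ ^ 2 * 2 / 2 := by gcongr
    _ = ‖z‖ ^ 2 := by ring

theorem norm_logterm_sub_zterm_le (χ : DirichletCharacter ℂ m) {s : ℝ} (hs : 1 ≤ s)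
    (p : HeightOneSpectrum (𝓞 F)) :
    ‖logterm F m χ s p - zterm F m χ s p‖ ≤ nrm F p ^ (-(2 : ℝ)) := by
  have h0 : (0 : ℝ) < s := by linarith
  refine (norm_neg_log_one_sub_sub_le (norm_zterm_le_half F m χ hs p)).trans ?_
  have h1 : ‖zterm F m χ s p‖ ^ 2 ≤ (nrm F p ^ (-s)) ^ 2 :=
    pow_le_pow_left₀ (norm_nonneg _) (norm_zterm_le F m χ h0 p) 2
  refine h1.trans ?_
  rw [← Real.rpow_natCast, ← Real.rpow_mul (nrm_pos F p).le]
  exact Real.rpow_le_rpow_of_exponent_le (by have := two_le_nrm F p; linarith)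
    (by push_cast; nlinarith)

theorem norm_logterm_le (χ : DirichletCharacter ℂ m) {s : ℝ} (hs : 1 ≤ s)
    (p : HeightOneSpectrum (𝓞 F)) : ‖logterm F m χ s p‖ ≤ 2 * nrm F p ^ (-s) := by
  have h0 : (0 : ℝ) < s := by linarith
  have hz := norm_zterm_le F m χ h0 p
  have hz2 := norm_zterm_le_half F m χ hs p
  have h1 := norm_neg_log_one_sub_sub_le hz2
  have h2 : ‖logterm F m χ s p‖ ≤ ‖logterm F m χ s p - zterm F m χ s p‖ + ‖zterm F m χ s p‖ := by
    have := norm_add_le (logterm F m χ s p - zterm F m χ s p) (zterm F m χ s p)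
    rwa [sub_add_cancel] at this
  have h3 : ‖zterm F m χ s p‖ ^ 2 ≤ ‖zterm F m χ s p‖ := by
    have := norm_nonneg (zterm F m χ s p)
    nlinarith
  have h4 : ‖logterm F m χ s p - zterm F m χ s p‖ ≤ ‖zterm F m χ s p‖ ^ 2 := h1
  linarith

theorem summable_logterm (χ : DirichletCharacter ℂ m) {s : ℝ} (hs : 1 < s) :
    Summable fun p : HeightOneSpectrum (𝓞 F) => logterm F m χ s p :=
  Summable.of_norm_bounded ((summable_nrm_rpow F hs).mul_left 2)
    (norm_logterm_le F m χ hs.le)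

end Terms

section Sums

variable (F : Type*) [Field F] [NumberField F] (m : ℕ)

/-- `∑_𝔭 -log (1 - χ(N𝔭) N𝔭^(-s))`, the logarithm of the Euler product of `L(s, χ)`. -/
noncomputable def logSum (χ : DirichletCharacter ℂ m) (s : ℝ) : ℂ :=
  ∑' p : HeightOneSpectrum (𝓞 F), logterm F m χ s p

/-- The prime sum `∑_𝔭 χ(N𝔭) N𝔭^(-s)`. -/
noncomputable def primeSum (χ : DirichletCharacter ℂ m) (s : ℝ) : ℂ :=
  ∑' p : HeightOneSpectrum (𝓞 F), zterm F m χ s p

/-- The constant `∑_𝔭 N𝔭^(-2)`. -/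
noncomputable def sqConst : ℝ := ∑' p : HeightOneSpectrum (𝓞 F), nrm F p ^ (-(2 : ℝ))

theorem one_sub_zterm_ne_zero (χ : DirichletCharacter ℂ m) {s : ℝ} (hs : 1 ≤ s)
    (p : HeightOneSpectrum (𝓞 F)) : 1 - zterm F m χ s p ≠ 0 := by
  intro h
  have h1 : zterm F m χ s p = 1 := (sub_eq_zero.mp h).symm
  have h2 := norm_zterm_le_half F m χ hs p
  rw [h1, norm_one] at h2
  norm_num at h2

theorem exp_logterm (χ : DirichletCharacter ℂ m) {s : ℝ} (hs : 1 ≤ s)
    (p : HeightOneSpectrum (𝓞 F)) :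
    Complex.exp (logterm F m χ s p) = (1 - zterm F m χ s p)⁻¹ := by
  rw [logterm, Complex.exp_neg, Complex.exp_log (one_sub_zterm_ne_zero F m χ hs p)]

theorem exp_logSum (χ : DirichletCharacter ℂ m) {s : ℝ} (hs : 1 < s) :
    Complex.exp (logSum F m χ s) = LSer F m χ (s : ℂ) := by
  have h1 : HasProd (fun p : HeightOneSpectrum (𝓞 F) => Complex.exp (logterm F m χ s p))
      (Complex.exp (logSum F m χ s)) := (summable_logterm F m χ hs).hasSum.cexp
  have hs' : 1 < ((s : ℝ) : ℂ).re := by simpa using hs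
  have h2 := EulerProduct.LSeriesIdeal_hasProd F (idealChar F m χ) (norm_idealChar_le_one F m χ) hs'
  have h3 : (fun p : HeightOneSpectrum (𝓞 F) => Complex.exp (logterm F m χ s p)) =
      fun p : HeightOneSpectrum (𝓞 F) =>
        (1 - idealChar F m χ (EulerProduct.primeIdeal F p) *
          (Ideal.absNorm p.asIdeal : ℂ) ^ (-(s : ℂ)))⁻¹ := by
    funext p
    rw [exp_logterm F m χ hs.le p, zterm]
  rw [h3] at h1
  exact h1.unique h2

theorem summable_nrm_rpow_two :
    Summable fun p : HeightOneSpectrum (𝓞 F) => nrm F p ^ (-(2 : ℝ)) :=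
  summable_nrm_rpow F (by norm_num)

theorem norm_logSum_sub_primeSum_le (χ : DirichletCharacter ℂ m) {s : ℝ} (hs : 1 < s) :
    ‖logSum F m χ s - primeSum F m χ s‖ ≤ sqConst F := by
  have hsub : Summable fun p : HeightOneSpectrum (𝓞 F) =>
      logterm F m χ s p - zterm F m χ s p :=
    (summable_logterm F m χ hs).sub (summable_zterm F m χ hs)
  have hnorm : Summable fun p : HeightOneSpectrum (𝓞 F) =>
      ‖logterm F m χ s p - zterm F m χ s p‖ :=
    Summable.of_nonneg_of_le (fun _ => norm_nonneg _)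
      (norm_logterm_sub_zterm_le F m χ hs.le) (summable_nrm_rpow_two F)
  rw [logSum, primeSum, ← (summable_logterm F m χ hs).tsum_sub (summable_zterm F m χ hs)]
  refine (norm_tsum_le_tsum_norm hnorm).trans ?_
  exact hnorm.tsum_le_tsum (norm_logterm_sub_zterm_le F m χ hs.le) (summable_nrm_rpow_two F)

theorem continuous_cpow_neg (p : HeightOneSpectrum (𝓞 F)) :
    Continuous fun s : ℝ => (Ideal.absNorm p.asIdeal : ℂ) ^ (-(s : ℂ)) := by
  have hne : (Ideal.absNorm p.asIdeal : ℂ) ≠ 0 := by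
    have := EulerProduct.one_lt_absNorm_prime F p
    exact_mod_cast (by omega : Ideal.absNorm p.asIdeal ≠ 0)
  exact Continuous.const_cpow (Complex.continuous_ofReal.neg) (Or.inl hne)

theorem continuous_zterm (χ : DirichletCharacter ℂ m) (p : HeightOneSpectrum (𝓞 F)) :
    Continuous fun s : ℝ => zterm F m χ s p := by
  unfold zterm
  exact continuous_const.mul (continuous_cpow_neg F p)

theorem continuousOn_logterm (χ : DirichletCharacter ℂ m) (p : HeightOneSpectrum (𝓞 F)) :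
    ContinuousOn (fun s : ℝ => logterm F m χ s p) (Set.Ici 1) := by
  unfold logterm
  refine ContinuousOn.neg (ContinuousOn.clog ?_ ?_)
  · exact (continuous_const.sub (continuous_zterm F m χ p)).continuousOn
  · intro s hs
    have h1 : ‖-zterm F m χ s p‖ < 1 := by
      rw [norm_neg]
      have := norm_zterm_le_half F m χ (Set.mem_Ici.mp hs) p
      linarith
    have := Complex.mem_slitPlane_of_norm_lt_one h1
    rwa [← sub_eq_add_neg] at this

theorem continuousOn_logSum (χ : DirichletCharacter ℂ m) :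
    ContinuousOn (logSum F m χ) (Set.Ioi 1) := by
  intro s0 hs0
  have hs0' : (1 : ℝ) < s0 := hs0
  set t : ℝ := (1 + s0) / 2 with ht
  have ht1 : 1 < t := by rw [ht]; linarith
  have hts : t < s0 := by rw [ht]; linarith
  have hcont : ContinuousOn (logSum F m χ) (Set.Ici t) := by
    unfold logSum
    refine continuousOn_tsum (u := fun p => 2 * nrm F p ^ (-t)) ?_ ?_ ?_
    · intro p
      exact (continuousOn_logterm F m χ p).mono (Set.Ici_subset_Ici.mpr ht1.le)
    · exact (summable_nrm_rpow F ht1).mul_left 2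
    · intro p s hs
      have hs1 : (1 : ℝ) ≤ s := ht1.le.trans (Set.mem_Ici.mp hs)
      refine (norm_logterm_le F m χ hs1 p).trans ?_
      have := nrm_rpow_neg_mono F p (Set.mem_Ici.mp hs)
      linarith
  exact (hcont.continuousAt (Ici_mem_nhds hts)).continuousWithinAt

end Sums

section Discrete

/-- A continuous real function on an interval taking integer values is constant. -/
theorem eq_of_continuousOn_int_valued {φ : ℝ → ℝ} {a b : ℝ}
    (hφ : ContinuousOn φ (Set.Ioo a b)) (hint : ∀ s ∈ Set.Ioo a b, ∃ n : ℤ, φ s = n)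
    {s0 s1 : ℝ} (hs0 : s0 ∈ Set.Ioo a b) (hs1 : s1 ∈ Set.Ioo a b) : φ s1 = φ s0 := by
  by_contra hne
  have hsub : Set.uIcc s0 s1 ⊆ Set.Ioo a b := Set.ordConnected_Ioo.uIcc_subset hs0 hs1
  have hivt := intermediate_value_uIcc (hφ.mono hsub)
  obtain ⟨n0, hn0⟩ := hint s0 hs0
  obtain ⟨n1, hn1⟩ := hint s1 hs1
  have hn : n0 ≠ n1 := by
    intro h
    apply hne
    rw [hn0, hn1, h]
  -- the midpoint value `n0 + 1/2` or `n0 - 1/2` lies strictly between
  have key : ∃ v : ℝ, v ∈ Set.uIcc (φ s0) (φ s1) ∧ ∀ k : ℤ, v ≠ k := by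
    rcases lt_or_gt_of_ne hn with hlt | hgt
    · refine ⟨(n0 : ℝ) + 1 / 2, ?_, ?_⟩
      · rw [hn0, hn1, Set.mem_uIcc]
        left
        have h1 : (n0 : ℝ) + 1 ≤ n1 := by exact_mod_cast Int.add_one_le_iff.mpr hlt
        constructor <;> linarith
      · intro k hk
        have h2 : (2 : ℝ) * n0 + 1 = 2 * k := by linarith
        have h3 : (2 : ℤ) * n0 + 1 = 2 * k := by exact_mod_cast h2
        omega
    · refine ⟨(n0 : ℝ) - 1 / 2, ?_, ?_⟩
      · rw [hn0, hn1, Set.mem_uIcc]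
        right
        have h1 : (n1 : ℝ) + 1 ≤ n0 := by exact_mod_cast Int.add_one_le_iff.mpr hgt
        constructor <;> linarith
      · intro k hk
        have h2 : (2 : ℝ) * n0 - 1 = 2 * k := by linarith
        have h3 : (2 : ℤ) * n0 - 1 = 2 * k := by exact_mod_cast h2
        omega
  obtain ⟨v, hv, hvk⟩ := key
  obtain ⟨c, hc, hcv⟩ := hivt hv
  obtain ⟨k, hk⟩ := hint c (hsub hc)
  exact hvk k (hcv ▸ hk)

/-- If `f` is continuous on `(1, ∞)` and `exp ∘ f` has a nonzero limit at `1⁺`, then `f` is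
bounded near `1⁺`. -/
theorem exists_bound_of_exp_tendsto {f : ℝ → ℂ} (hf : ContinuousOn f (Set.Ioi 1)) {L1 : ℂ}
    (hL1 : L1 ≠ 0) (h : Tendsto (fun s => Complex.exp (f s)) (𝓝[>] (1 : ℝ)) (𝓝 L1)) :
    ∃ u : ℝ, 1 < u ∧ ∃ B : ℝ, ∀ s ∈ Set.Ioo (1 : ℝ) u, ‖f s‖ ≤ B := by
  have hw : Tendsto (fun s => Complex.exp (f s) / L1) (𝓝[>] (1 : ℝ)) (𝓝 1) := by
    have := h.div_const L1
    rwa [div_self hL1] at this
  have hev : ∀ᶠ s in 𝓝[>] (1 : ℝ), ‖Complex.exp (f s) / L1 - 1‖ < 1 / 2 := by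
    have := (Metric.tendsto_nhds.mp hw) (1 / 2) (by norm_num)
    simpa [dist_eq_norm] using this
  obtain ⟨u, hu1, hu⟩ := mem_nhdsGT_iff_exists_Ioo_subset.mp hev
  have hu1' : (1 : ℝ) < u := hu1
  refine ⟨u, hu1', ?_⟩
  set w : ℝ → ℂ := fun s => Complex.exp (f s) / L1 with hwdef
  set g : ℝ → ℂ := fun s => f s - Complex.log (w s) with hgdef
  have hwn : ∀ s ∈ Set.Ioo (1 : ℝ) u, ‖w s - 1‖ < 1 / 2 := fun s hs => hu hs
  have hw0 : ∀ s, w s ≠ 0 := fun s => div_ne_zero (Complex.exp_ne_zero _) hL1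
  have hexp : ∀ s, Complex.exp (g s) = L1 := by
    intro s
    rw [hgdef]
    simp only
    rw [Complex.exp_sub, Complex.exp_log (hw0 s), hwdef]
    simp only
    field_simp
  have hfc : ContinuousOn f (Set.Ioo (1 : ℝ) u) := hf.mono Set.Ioo_subset_Ioi_self
  have hwc : ContinuousOn w (Set.Ioo (1 : ℝ) u) := by
    rw [hwdef]
    exact (Complex.continuous_exp.comp_continuousOn hfc).div_const L1
  have hslit : ∀ s ∈ Set.Ioo (1 : ℝ) u, w s ∈ Complex.slitPlane := by
    intro s hs
    have h1 : ‖w s - 1‖ < 1 := (hwn s hs).trans (by norm_num)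
    have := Complex.mem_slitPlane_of_norm_lt_one h1
    rwa [add_sub_cancel] at this
  have hgc : ContinuousOn g (Set.Ioo (1 : ℝ) u) := hfc.sub (hwc.clog hslit)
  set s0 : ℝ := (1 + u) / 2 with hs0def
  have hs0 : s0 ∈ Set.Ioo (1 : ℝ) u := by
    rw [hs0def]; constructor <;> linarith
  have h2pi : (2 * (Real.pi : ℂ) * Complex.I) ≠ 0 := by
    simp [Real.pi_ne_zero, Complex.I_ne_zero]
  set φ : ℝ → ℝ := fun s => ((g s - g s0) / (2 * (Real.pi : ℂ) * Complex.I)).re with hφdef
  have hφc : ContinuousOn φ (Set.Ioo (1 : ℝ) u) := by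
    rw [hφdef]
    exact Complex.continuous_re.comp_continuousOn
      ((hgc.sub continuousOn_const).div_const _)
  have hgint : ∀ s, ∃ n : ℤ, g s - g s0 = n * (2 * (Real.pi : ℂ) * Complex.I) := by
    intro s
    have : Complex.exp (g s - g s0) = 1 := by
      rw [Complex.exp_sub, hexp s, hexp s0, div_self hL1]
    exact Complex.exp_eq_one_iff.mp this
  have hφint : ∀ s ∈ Set.Ioo (1 : ℝ) u, ∃ n : ℤ, φ s = n := by
    intro s _
    obtain ⟨n, hn⟩ := hgint s
    refine ⟨n, ?_⟩
    rw [hφdef]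
    simp only
    rw [hn, mul_div_assoc, div_self h2pi, mul_one]
    simp
  have hconst : ∀ s ∈ Set.Ioo (1 : ℝ) u, g s = g s0 := by
    intro s hs
    have h1 := eq_of_continuousOn_int_valued hφc hφint hs0 hs
    obtain ⟨n, hn⟩ := hgint s
    have h2 : φ s = n := by
      rw [hφdef]
      simp only
      rw [hn, mul_div_assoc, div_self h2pi, mul_one]
      simp
    have h3 : φ s0 = 0 := by
      rw [hφdef]
      simp
    have h4 : (n : ℝ) = 0 := by rw [← h2, h1, h3]
    have h5 : n = 0 := by exact_mod_cast h4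
    rw [h5] at hn
    simpa [sub_eq_zero] using hn
  refine ⟨‖g s0‖ + 3 / 4, fun s hs => ?_⟩
  have h1 : f s = g s0 + Complex.log (w s) := by
    rw [← hconst s hs, hgdef]
    simp only
    ring
  have h2 : ‖Complex.log (w s)‖ ≤ 3 / 4 := by
    have hz : ‖w s - 1‖ ≤ 1 / 2 := (hwn s hs).le
    have := Complex.norm_log_one_add_half_le_self hz
    rw [add_sub_cancel] at this
    linarith
  rw [h1]
  exact (norm_add_le _ _).trans (by linarith)

end Discrete

section HigherDegree

/-- A nonnegative function dominated by `h ∘ g`, where `h` is summable and the fibres of `g`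
have at most `d` elements, is summable with sum at most `d * ∑ h`. -/
theorem sum_le_of_fiber_card_le {α β : Type*} [DecidableEq β] (f : α → ℝ) (g : α → β)
    (h : β → ℝ) (d : ℕ) (hh0 : ∀ b, 0 ≤ h b) (hfh : ∀ a, f a ≤ h (g a))
    (hh : Summable h)
    (hcard : ∀ (s : Finset α) (b : β), (s.filter fun a => g a = b).card ≤ d) (s : Finset α) :
    ∑ a ∈ s, f a ≤ d * ∑' b, h b := by
  calc ∑ a ∈ s, f a ≤ ∑ a ∈ s, h (g a) := Finset.sum_le_sum fun a _ => hfh a
    _ = ∑ b ∈ s.image g, ∑ a ∈ s with g a = b, h (g a) :=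
        (Finset.sum_fiberwise_of_maps_to (fun a ha => Finset.mem_image_of_mem g ha) _).symm
    _ = ∑ b ∈ s.image g, ((s.filter fun a => g a = b).card : ℝ) * h b := by
        refine Finset.sum_congr rfl fun b _ => ?_
        rw [Finset.sum_congr rfl (fun a ha => by rw [(Finset.mem_filter.mp ha).2] :
          ∀ a ∈ s.filter (fun a => g a = b), h (g a) = h b), Finset.sum_const, nsmul_eq_mul]
    _ ≤ ∑ b ∈ s.image g, (d : ℝ) * h b := by
        refine Finset.sum_le_sum fun b _ => ?_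
        exact mul_le_mul_of_nonneg_right (by exact_mod_cast hcard s b) (hh0 b)
    _ = d * ∑ b ∈ s.image g, h b := by rw [Finset.mul_sum]
    _ ≤ d * ∑' b, h b := by
        refine mul_le_mul_of_nonneg_left ?_ (Nat.cast_nonneg d)
        exact hh.sum_le_tsum _ fun b _ => hh0 b

variable (F : Type*) [Field F] [NumberField F]

/-- The rational prime below a prime of `𝓞 F` (chosen via
`Ideal.exists_prime_and_absNorm_eq_pow`). -/
noncomputable def below (p : HeightOneSpectrum (𝓞 F)) : ℕ :=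
  haveI := p.isMaximal
  Classical.choose (Ideal.exists_prime_and_absNorm_eq_pow p.asIdeal)

theorem below_spec (p : HeightOneSpectrum (𝓞 F)) :
    ∃ n, 0 < n ∧ ((below F p : ℕ) : 𝓞 F) ∈ p.asIdeal ∧ (below F p).Prime ∧
      Ideal.absNorm p.asIdeal = below F p ^ n := by
  have := p.isMaximal
  exact Classical.choose_spec (Ideal.exists_prime_and_absNorm_eq_pow p.asIdeal)

theorem card_filter_below_le (s : Finset (HeightOneSpectrum (𝓞 F))) (l : ℕ) :
    (s.filter fun p => below F p = l).card ≤ Module.finrank ℚ F := by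
  classical
  set t := s.filter fun p => below F p = l with ht
  rcases t.eq_empty_or_nonempty with h0 | hne
  · rw [h0]; simp
  obtain ⟨p0, hp0⟩ := hne
  have hl : l.Prime := by
    obtain ⟨n, -, -, hp, -⟩ := below_spec F p0
    rwa [(Finset.mem_filter.mp hp0).2] at hp
  have hdvd : ∏ p ∈ t, p.asIdeal ∣ Ideal.span {((l : ℕ) : 𝓞 F)} := by
    refine Finset.prod_dvd_of_coprime ?_ ?_
    · intro p _ q _ hpq
      rw [Function.onFun, Ideal.isCoprime_iff_sup_eq]
      exact Ideal.IsMaximal.coprime_of_ne p.isMaximal q.isMaximal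
        fun h => hpq (HeightOneSpectrum.ext h)
    · intro p hp
      rw [Ideal.dvd_iff_le, Ideal.span_singleton_le_iff_mem]
      obtain ⟨n, -, hmem, -, -⟩ := below_spec F p
      rwa [(Finset.mem_filter.mp hp).2] at hmem
  have hnorm := map_dvd Ideal.absNorm hdvd
  rw [map_prod, Ideal.absNorm_span_natCast, RingOfIntegers.rank] at hnorm
  -- each factor is a positive power of `l`
  have hpow : ∀ p ∈ t, l ∣ Ideal.absNorm p.asIdeal := by
    intro p hp
    obtain ⟨n, hn, -, -, hN⟩ := below_spec F p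
    rw [(Finset.mem_filter.mp hp).2] at hN
    rw [hN]
    exact dvd_pow_self l hn.ne'
  have h1 : l ^ t.card ∣ ∏ p ∈ t, Ideal.absNorm p.asIdeal := by
    rw [← Finset.prod_const]
    exact Finset.prod_dvd_prod_of_dvd _ _ hpow
  exact (Nat.pow_dvd_pow_iff_le_right hl.one_lt).mp (h1.trans hnorm)

theorem sq_below_le_of_not_prime (p : HeightOneSpectrum (𝓞 F))
    (hp : ¬ (Ideal.absNorm p.asIdeal).Prime) :
    below F p ^ 2 ≤ Ideal.absNorm p.asIdeal := by
  obtain ⟨n, hn, -, hl, hN⟩ := below_spec F p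
  have hn2 : 2 ≤ n := by
    by_contra h
    have h1 : n = 1 := by omega
    rw [h1, pow_one] at hN
    exact hp (hN ▸ hl)
  rw [hN]
  exact Nat.pow_le_pow_right hl.pos hn2

/-- The contribution of the primes of degree at least two: `∑ 1/N𝔭` over the primes whose norm
is not a prime number converges. -/
theorem summable_higherDegree :
    Summable fun p : HeightOneSpectrum (𝓞 F) =>
      if (Ideal.absNorm p.asIdeal).Prime then (0 : ℝ) else ((Ideal.absNorm p.asIdeal : ℝ))⁻¹ := by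
  classical
  have hh : Summable fun n : ℕ => (1 : ℝ) / (n : ℝ) ^ 2 :=
    Real.summable_one_div_nat_pow.mpr (by norm_num)
  refine summable_of_sum_le (c := (Module.finrank ℚ F : ℝ) * ∑' n : ℕ, (1 : ℝ) / (n : ℝ) ^ 2)
    (fun p => by positivity) ?_
  intro s
  refine sum_le_of_fiber_card_le _ (below F) (fun n : ℕ => (1 : ℝ) / (n : ℝ) ^ 2)
    (Module.finrank ℚ F) (fun n => by positivity) ?_ hh (card_filter_below_le F) s
  intro p
  split_ifs with hp
  · positivity
  · have h1 := sq_below_le_of_not_prime F p hp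
    obtain ⟨n, -, -, hl, -⟩ := below_spec F p
    have h2 : (0 : ℝ) < (below F p : ℝ) ^ 2 := by
      have : (0 : ℝ) < (below F p : ℝ) := by exact_mod_cast hl.pos
      positivity
    rw [inv_eq_one_div]
    refine one_div_le_one_div_of_le h2 ?_
    exact_mod_cast h1

end HigherDegree

section Limits

variable (F : Type*) [Field F] [NumberField F] (m : ℕ)

/-- What this file consumes from the analytic work packages (`L2`, `L4`): the `L`-series of
the nontrivial norm-residue characters have nonzero limits at `1⁺`, and the one of the trivial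
character tends to infinity. -/
structure LSerLimits : Prop where
  limit_ne_zero : ∀ χ : DirichletCharacter ℂ m, χ ≠ 1 → ∃ L1 : ℂ, L1 ≠ 0 ∧
    Tendsto (fun s : ℝ => LSer F m χ (s : ℂ)) (𝓝[>] (1 : ℝ)) (𝓝 L1)
  pole : Tendsto (fun s : ℝ => ‖LSer F m (1 : DirichletCharacter ℂ m) (s : ℂ)‖)
    (𝓝[>] (1 : ℝ)) atTop

theorem norm_primeSum_le (χ : DirichletCharacter ℂ m) {s : ℝ} (hs : 1 < s) :
    ‖primeSum F m χ s‖ ≤ ‖logSum F m χ s‖ + sqConst F := by
  have h1 := norm_logSum_sub_primeSum_le F m χ hs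
  have h2 : ‖primeSum F m χ s‖ ≤ ‖logSum F m χ s‖ + ‖logSum F m χ s - primeSum F m χ s‖ := by
    have := norm_sub_le (logSum F m χ s) (logSum F m χ s - primeSum F m χ s)
    rwa [sub_sub_cancel] at this
  linarith

/-- For a character whose `L`-series has a nonzero limit at `1⁺`, the prime sum stays bounded. -/
theorem eventually_norm_primeSum_le (χ : DirichletCharacter ℂ m) {L1 : ℂ} (hL1 : L1 ≠ 0)
    (h : Tendsto (fun s : ℝ => LSer F m χ (s : ℂ)) (𝓝[>] (1 : ℝ)) (𝓝 L1)) :
    ∃ B : ℝ, ∀ᶠ s in 𝓝[>] (1 : ℝ), ‖primeSum F m χ s‖ ≤ B := by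
  have hev : (fun s : ℝ => Complex.exp (logSum F m χ s)) =ᶠ[𝓝[>] (1 : ℝ)]
      fun s : ℝ => LSer F m χ (s : ℂ) :=
    eventually_nhdsWithin_of_forall fun s hs => exp_logSum F m χ hs
  obtain ⟨u, hu, B, hB⟩ :=
    exists_bound_of_exp_tendsto (continuousOn_logSum F m χ) hL1 (h.congr' hev.symm)
  refine ⟨B + sqConst F, ?_⟩
  have hmem : Set.Ioo (1 : ℝ) u ∈ 𝓝[>] (1 : ℝ) := Ioo_mem_nhdsGT hu
  filter_upwards [hmem] with s hs
  have := norm_primeSum_le F m χ hs.1
  have := hB s hs
  linarith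

/-- For the trivial character the real part of the prime sum tends to infinity. -/
theorem tendsto_re_primeSum_one
    (h : Tendsto (fun s : ℝ => ‖LSer F m (1 : DirichletCharacter ℂ m) (s : ℂ)‖)
      (𝓝[>] (1 : ℝ)) atTop) :
    Tendsto (fun s : ℝ => (primeSum F m (1 : DirichletCharacter ℂ m) s).re)
      (𝓝[>] (1 : ℝ)) atTop := by
  have h1 : Tendsto (fun s : ℝ => Real.log ‖LSer F m (1 : DirichletCharacter ℂ m) (s : ℂ)‖
      - sqConst F) (𝓝[>] (1 : ℝ)) atTop :=
    tendsto_atTop_add_const_right _ _ (Real.tendsto_log_atTop.comp h)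
  refine tendsto_atTop_mono' _ ?_ h1
  filter_upwards [self_mem_nhdsWithin] with s hs
  have hs' : 1 < s := hs
  have h2 : ‖LSer F m (1 : DirichletCharacter ℂ m) (s : ℂ)‖ =
      Real.exp (logSum F m (1 : DirichletCharacter ℂ m) s).re := by
    rw [← exp_logSum F m 1 hs', Complex.norm_exp]
  rw [h2, Real.log_exp]
  have h3 := norm_logSum_sub_primeSum_le F m (1 : DirichletCharacter ℂ m) hs'
  have h4 := (abs_le.mp ((Complex.abs_re_le_norm _).trans h3)).2
  rw [Complex.sub_re] at h4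
  linarith

end Limits

section Orthogonality

variable (F : Type*) [Field F] [NumberField F] (m : ℕ) [NeZero m]

/-- `∑ N𝔭^(-s)` over the primes `𝔭` with `N𝔭 ≡ a (mod m)`. -/
noncomputable def classSum (a : ZMod m) (s : ℝ) : ℝ :=
  ∑' p : HeightOneSpectrum (𝓞 F),
    if (Ideal.absNorm p.asIdeal : ZMod m) = a then nrm F p ^ (-s) else 0

theorem sum_char_mul_primeSum (a : (ZMod m)ˣ) {s : ℝ} (hs : 1 < s) :
    ∑ χ : DirichletCharacter ℂ m, χ ((a : ZMod m)⁻¹) * primeSum F m χ s =
      (m.totient : ℂ) * ((classSum F m (a : ZMod m) s : ℝ) : ℂ) := by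
  have h1 : ∀ χ : DirichletCharacter ℂ m, χ ((a : ZMod m)⁻¹) * primeSum F m χ s =
      ∑' p : HeightOneSpectrum (𝓞 F), χ ((a : ZMod m)⁻¹) * zterm F m χ s p := fun χ => by
    rw [primeSum, tsum_mul_left]
  simp_rw [h1]
  rw [← Summable.tsum_finsetSum (fun χ _ => (summable_zterm F m χ hs).mul_left _)]
  rw [classSum, Complex.ofReal_tsum, ← tsum_mul_left]
  refine tsum_congr fun p => ?_
  simp_rw [zterm_eq, ← mul_assoc, ← Finset.sum_mul]
  rw [DirichletCharacter.sum_char_inv_mul_char_eq ℂ a.isUnit]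
  by_cases hpa : (Ideal.absNorm p.asIdeal : ZMod m) = (a : ZMod m)
  · rw [if_pos hpa.symm, if_pos hpa, nrm, Complex.ofReal_cpow (Nat.cast_nonneg _)]
    push_cast
    rfl
  · rw [if_neg (fun h => hpa h.symm), if_neg hpa]
    simp

theorem re_primeSum_sub_le (a : (ZMod m)ˣ) {s : ℝ} (hs : 1 < s) :
    (primeSum F m (1 : DirichletCharacter ℂ m) s).re -
        ∑ χ ∈ (Finset.univ : Finset (DirichletCharacter ℂ m)).erase 1, ‖primeSum F m χ s‖ ≤
      (m.totient : ℝ) * classSum F m (a : ZMod m) s := by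
  have h := congrArg Complex.re (sum_char_mul_primeSum F m a hs)
  have hR : ((m.totient : ℂ) * ((classSum F m (a : ZMod m) s : ℝ) : ℂ)).re =
      (m.totient : ℝ) * classSum F m (a : ZMod m) s := by
    rw [← Complex.ofReal_natCast, ← Complex.ofReal_mul, Complex.ofReal_re]
  rw [hR, Complex.re_sum, ← Finset.add_sum_erase _ _ (Finset.mem_univ (1 : DirichletCharacter ℂ m))]
    at h
  have hunit : IsUnit ((a : ZMod m)⁻¹) := by
    rw [ZMod.inv_coe_unit]; exact Units.isUnit _
  have h1 : ((1 : DirichletCharacter ℂ m) ((a : ZMod m)⁻¹) *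
      primeSum F m (1 : DirichletCharacter ℂ m) s).re =
      (primeSum F m (1 : DirichletCharacter ℂ m) s).re := by
    rw [MulChar.one_apply hunit, one_mul]
  rw [h1] at h
  have h2 : -∑ χ ∈ (Finset.univ : Finset (DirichletCharacter ℂ m)).erase 1,
      ‖primeSum F m χ s‖ ≤
      ∑ χ ∈ (Finset.univ : Finset (DirichletCharacter ℂ m)).erase 1,
        (χ ((a : ZMod m)⁻¹) * primeSum F m χ s).re := by
    rw [← Finset.sum_neg_distrib]
    refine Finset.sum_le_sum fun χ _ => ?_
    have h3 := (abs_le.mp (Complex.abs_re_le_norm (χ ((a : ZMod m)⁻¹) * primeSum F m χ s))).1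
    have h4 : ‖χ ((a : ZMod m)⁻¹) * primeSum F m χ s‖ ≤ ‖primeSum F m χ s‖ := by
      rw [norm_mul]
      calc ‖χ ((a : ZMod m)⁻¹)‖ * ‖primeSum F m χ s‖ ≤ 1 * ‖primeSum F m χ s‖ :=
            mul_le_mul_of_nonneg_right (DirichletCharacter.norm_le_one χ _) (norm_nonneg _)
        _ = _ := one_mul _
    linarith
  linarith

theorem tendsto_classSum (h : LSerLimits F m) (a : (ZMod m)ˣ) :
    Tendsto (classSum F m (a : ZMod m)) (𝓝[>] (1 : ℝ)) atTop := by
  have hB : ∀ χ : DirichletCharacter ℂ m, ∃ B : ℝ, ∀ᶠ s in 𝓝[>] (1 : ℝ),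
      χ ≠ 1 → ‖primeSum F m χ s‖ ≤ B := by
    intro χ
    by_cases hχ : χ = 1
    · exact ⟨0, Eventually.of_forall fun s h => absurd hχ h⟩
    · obtain ⟨L1, hL1, ht⟩ := h.limit_ne_zero χ hχ
      obtain ⟨B, hB⟩ := eventually_norm_primeSum_le F m χ hL1 ht
      exact ⟨B, hB.mono fun s hs _ => hs⟩
  choose B hB using hB
  have hall : ∀ᶠ s in 𝓝[>] (1 : ℝ),
      ∀ χ ∈ (Finset.univ : Finset (DirichletCharacter ℂ m)).erase 1,
        ‖primeSum F m χ s‖ ≤ B χ :=
    (eventually_all_finset _).mpr fun χ hχ =>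
      (hB χ).mono fun s hs => hs (Finset.ne_of_mem_erase hχ)
  have h1 := tendsto_re_primeSum_one F m h.pole
  have h2 : Tendsto (fun s : ℝ => (primeSum F m (1 : DirichletCharacter ℂ m) s).re -
      ∑ χ ∈ (Finset.univ : Finset (DirichletCharacter ℂ m)).erase 1, B χ)
      (𝓝[>] (1 : ℝ)) atTop := tendsto_atTop_add_const_right _ _ h1
  have h3 : Tendsto (fun s : ℝ => (m.totient : ℝ) * classSum F m (a : ZMod m) s)
      (𝓝[>] (1 : ℝ)) atTop := by
    refine tendsto_atTop_mono' _ ?_ h2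
    filter_upwards [hall, self_mem_nhdsWithin] with s hs hs1
    have h4 := re_primeSum_sub_le F m a hs1
    have h5 := Finset.sum_le_sum hs
    linarith
  have hpos : (0 : ℝ) < (m.totient : ℝ) := by
    exact_mod_cast Nat.totient_pos.mpr (NeZero.pos m)
  exact (tendsto_const_mul_atTop_of_pos hpos).mp h3

omit [NeZero m] in
/-- If only finitely many degree-one primes have norm `≡ a`, the class sum stays bounded. -/
theorem classSum_le_of_finite (a : ZMod m) (hfin : (degOnePrimes F m a).Finite) :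
    ∃ C : ℝ, ∀ s : ℝ, 1 < s → classSum F m a s ≤ C := by
  classical
  set D : Set (HeightOneSpectrum (𝓞 F)) := {p | p.asIdeal ∈ degOnePrimes F m a} with hD
  have hDfin : D.Finite :=
    hfin.preimage (fun p _ q _ h => HeightOneSpectrum.ext h)
  set g1 : HeightOneSpectrum (𝓞 F) → ℝ := fun p => if p ∈ D then 1 else 0 with hg1
  set g2 : HeightOneSpectrum (𝓞 F) → ℝ := fun p =>
    if (Ideal.absNorm p.asIdeal).Prime then (0 : ℝ) else ((Ideal.absNorm p.asIdeal : ℝ))⁻¹ with hg2
  have hs1 : Summable g1 := by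
    refine summable_of_hasFiniteSupport (Set.Finite.subset hDfin fun p hp => ?_)
    by_contra hpD
    exact hp (by rw [hg1]; simp only; rw [if_neg hpD])
  have hs2 : Summable g2 := summable_higherDegree F
  refine ⟨∑' p, g1 p + ∑' p, g2 p, fun s hs => ?_⟩
  have hle : ∀ p : HeightOneSpectrum (𝓞 F),
      (if (Ideal.absNorm p.asIdeal : ZMod m) = a then nrm F p ^ (-s) else 0) ≤ g1 p + g2 p := by
    intro p
    have hg1n : 0 ≤ g1 p := by rw [hg1]; simp only; split_ifs <;> norm_num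
    have hg2n : 0 ≤ g2 p := by rw [hg2]; simp only; split_ifs <;> positivity
    split_ifs with hpa
    · by_cases hpr : (Ideal.absNorm p.asIdeal).Prime
      · have hpD : p ∈ D := ⟨p.isPrime, hpr, hpa⟩
        have h1 : g1 p = 1 := by rw [hg1]; simp only; rw [if_pos hpD]
        have h2 := nrm_rpow_neg_le_half F p hs.le
        linarith
      · have h1 : g2 p = (nrm F p)⁻¹ := by rw [hg2]; simp only; rw [if_neg hpr]; rfl
        have h2 : nrm F p ^ (-s) ≤ (nrm F p)⁻¹ := by
          have := nrm_rpow_neg_mono F p hs.le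
          rwa [Real.rpow_neg_one] at this
        linarith
    · linarith
  have hsum : Summable fun p : HeightOneSpectrum (𝓞 F) =>
      if (Ideal.absNorm p.asIdeal : ZMod m) = a then nrm F p ^ (-s) else 0 := by
    refine Summable.of_nonneg_of_le (fun p => ?_) hle (hs1.add hs2)
    split_ifs
    · exact Real.rpow_nonneg (nrm_pos F p).le _
    · exact le_rfl
  rw [classSum, ← hs1.tsum_add hs2]
  exact hsum.tsum_le_tsum hle (hs1.add hs2)

/-- **WP-L5**: if the `L`-series of the norm-residue characters behave as expected at `1⁺`,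
every unit residue class contains the norms of infinitely many primes of degree one. -/
theorem degOnePrimes_infinite (h : LSerLimits F m) (a : (ZMod m)ˣ) :
    (degOnePrimes F m (a : ZMod m)).Infinite := by
  intro hfin
  obtain ⟨C, hC⟩ := classSum_le_of_finite F m (a : ZMod m) hfin
  have ht := tendsto_classSum F m h a
  have h1 : ∀ᶠ s in 𝓝[>] (1 : ℝ), C + 1 ≤ classSum F m (a : ZMod m) s :=
    ht.eventually_ge_atTop (C + 1)
  have h2 : ∀ᶠ s in 𝓝[>] (1 : ℝ), classSum F m (a : ZMod m) s ≤ C :=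
    eventually_nhdsWithin_of_forall fun s hs => hC s hs
  obtain ⟨s, hs1, hs2⟩ := (h1.and h2).exists
  linarith

end Orthogonality

universe u

/-- The generalized Dirichlet theorem, from the behaviour of the `L`-series at `1⁺`. -/
theorem cyclotomicDirichlet_of_lserLimits
    (h : ∀ (F : Type u) [Field F] [NumberField F] (m : ℕ) [NeZero m],
      Irreducible (Polynomial.cyclotomic m F) → LSerLimits F m) :
    CyclotomicDirichlet.{u} :=
  fun F _ _ m _ hirr a => degOnePrimes_infinite F m (h F m hirr) a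

end Fermat.Agent.Lib.CFT.Cheb.PrimeSum
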