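/-
helper57 (P-CFT by-product CHEBOTAREV, WP-L3).  The decomposition law in a cyclotomic extension
`M = F(ζ_m)` of a number field `F` (primes not dividing `m`: trivial inertia, residue degree the
order of `N𝔮` modulo `m`, number of primes above `[M:F]/f`) and the factorisation of the
Dedekind zeta function of `M` as a product of the `L`-series of the norm-residue characters.
-/
import Mathlib
import Fermat.Agent.Lib.CFT.Cheb.Defs
import Fermat.Agent.Lib.CFT.Unram.CycloFrob
import Fermat.Agent.Lib.CFT.Cheb.CharGroup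
import Fermat.Agent.Lib.CFT.Cheb.LSeries

set_option autoImplicit false

namespace Fermat.Agent.Lib.CFT.Cheb.ZetaFactor

open NumberField IsDedekindDomain
open scoped nonZeroDivisors

/-! ### The order of a Frobenius element at a prime with trivial inertia -/

section FrobOrder

variable {F M : Type*} [Field F] [NumberField F] [Field M] [NumberField M] [Algebra F M]
  [IsGalois F M]

/-- Powers of a Frobenius element act on the residue field as powers of the Frobenius map. -/
theorem mk_pow_smul {σ : Gal(M/F)} {Q : Ideal (𝓞 M)} (H : IsArithFrobAt (𝓞 F) σ Q) (k : ℕ)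
    (x : 𝓞 M) :
    Ideal.Quotient.mk Q ((σ ^ k) • x) =
      (Ideal.Quotient.mk Q x) ^ (Nat.card (𝓞 F ⧸ Q.under (𝓞 F)) ^ k) := by
  induction k generalizing x with
  | zero => simp
  | succ k ih =>
    rw [pow_succ', mul_smul]
    have h1 : Ideal.Quotient.mk Q (σ • ((σ ^ k) • x)) =
        (Ideal.Quotient.mk Q ((σ ^ k) • x)) ^ Nat.card (𝓞 F ⧸ Q.under (𝓞 F)) :=
      H.mk_apply ((σ ^ k) • x)
    rw [h1, ih, ← pow_mul, pow_succ]

/-- If the inertia group at `Q` is trivial, a power `σ ^ k` of a Frobenius element is trivial iff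
the `k`-th power of the Frobenius map is trivial on the residue field. -/
theorem pow_eq_one_iff {σ : Gal(M/F)} {Q : Ideal (𝓞 M)} (H : IsArithFrobAt (𝓞 F) σ Q)
    (hI : Ideal.inertia Gal(M/F) Q = ⊥) (k : ℕ) :
    σ ^ k = 1 ↔ ∀ x : 𝓞 M ⧸ Q, x ^ (Nat.card (𝓞 F ⧸ Q.under (𝓞 F)) ^ k) = x := by
  constructor
  · intro h x
    obtain ⟨x, rfl⟩ := Ideal.Quotient.mk_surjective x
    rw [← mk_pow_smul H k x, h, one_smul]
  · intro h
    have : σ ^ k ∈ Ideal.inertia Gal(M/F) Q := by
      intro x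
      show (σ ^ k) • x - x ∈ Q
      rw [← Ideal.Quotient.eq, mk_pow_smul H k x, h]
    rwa [hI, Subgroup.mem_bot] at this

/-- The order of a Frobenius element at a prime with trivial inertia group is the residue
degree. -/
theorem orderOf_eq_inertiaDeg {σ : Gal(M/F)} {Q : Ideal (𝓞 M)} [hQp : Q.IsPrime] (hQ : Q ≠ ⊥)
    (H : IsArithFrobAt (𝓞 F) σ Q) (hI : Ideal.inertia Gal(M/F) Q = ⊥) :
    orderOf σ = Q.inertiaDeg (𝓞 F) := by
  have hQm : Q.IsMaximal := hQp.isMaximal hQ
  have hqm : (Q.under (𝓞 F)).IsMaximal := Ideal.IsMaximal.under (𝓞 F) Q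
  rw [Ideal.inertiaDeg_eq_of_isMaximal (Q.under (𝓞 F)) Q]
  let _ : Field (𝓞 F ⧸ Q.under (𝓞 F)) := Ideal.Quotient.field _
  let _ : Field (𝓞 M ⧸ Q) := Ideal.Quotient.field _
  have : Finite (𝓞 M ⧸ Q) := Ideal.finiteQuotientOfFreeOfNeBot Q hQ
  have : Finite (𝓞 F ⧸ Q.under (𝓞 F)) :=
    Finite.of_injective _ (algebraMap (𝓞 F ⧸ Q.under (𝓞 F)) (𝓞 M ⧸ Q)).injective
  let _ : Fintype (𝓞 F ⧸ Q.under (𝓞 F)) := Fintype.ofFinite _
  rw [← FiniteField.orderOf_frobeniusAlgHom (𝓞 F ⧸ Q.under (𝓞 F)) (𝓞 M ⧸ Q),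
    orderOf_eq_orderOf_iff]
  intro k
  rw [pow_eq_one_iff H hI k, DFunLike.ext_iff]
  simp only [AlgHom.coe_pow, FiniteField.coe_frobeniusAlgHom, pow_iterate, AlgHom.one_apply,
    Nat.card_eq_fintype_card]

end FrobOrder

/-! ### The decomposition law in a cyclotomic extension -/

section Cyclo

variable {F M : Type*} [Field F] [NumberField F] [Field M] [NumberField M] [Algebra F M]
  {m : ℕ} [NeZero m] [IsCyclotomicExtension {m} F M]

/-- **Decomposition law in `F(ζ_m)/F`, residue degree.**  For a prime `Q` of `M = F(ζ_m)` not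
containing `m`, the norm of the prime `𝔮` of `F` below is a unit modulo `m`, and the residue
degree of `Q` over `F` is the order of this unit. -/
theorem exists_unit_inertiaDeg_eq_orderOf {Q : Ideal (𝓞 M)} [hQp : Q.IsPrime] (hQ : Q ≠ ⊥)
    (hm : (m : 𝓞 M) ∉ Q) :
    ∃ u : (ZMod m)ˣ, (u : ZMod m) = (Ideal.absNorm (Q.under (𝓞 F)) : ZMod m) ∧
      Q.inertiaDeg (𝓞 F) = orderOf u := by
  have : IsGalois F M := IsCyclotomicExtension.isGalois {m} F M
  have hζ := IsCyclotomicExtension.zeta_spec m F M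
  have : Finite (𝓞 M ⧸ Q) := Ideal.finiteQuotientOfFreeOfNeBot Q hQ
  obtain ⟨σ, hσ⟩ := IsArithFrobAt.exists_of_isInvariant (𝓞 F) Gal(M/F) Q
  refine ⟨hζ.autToPow F σ, Unram.CycloFrob.autToPow_of_isArithFrobAt hζ hm hσ, ?_⟩
  rw [← orderOf_eq_inertiaDeg hQ hσ (Unram.CycloFrob.inertia_eq_bot hζ hm)]
  exact (orderOf_injective (hζ.autToPow F) (hζ.autToPow_injective F) σ).symm

/-- **Decomposition law in `F(ζ_m)/F`, residue degree** (for a given unit representing the norm
of the prime below). -/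
theorem inertiaDeg_eq_orderOf {Q : Ideal (𝓞 M)} [hQp : Q.IsPrime] (hQ : Q ≠ ⊥)
    (hm : (m : 𝓞 M) ∉ Q) {u : (ZMod m)ˣ}
    (hu : (u : ZMod m) = (Ideal.absNorm (Q.under (𝓞 F)) : ZMod m)) :
    Q.inertiaDeg (𝓞 F) = orderOf u := by
  obtain ⟨v, hv, h⟩ := exists_unit_inertiaDeg_eq_orderOf (F := F) hQ hm
  rw [h, Units.ext (hv.trans hu.symm)]

/-- **Decomposition law in `F(ζ_m)/F`, norms.** -/
theorem absNorm_eq_pow_orderOf {Q : Ideal (𝓞 M)} [hQp : Q.IsPrime] (hQ : Q ≠ ⊥)
    (hm : (m : 𝓞 M) ∉ Q) {u : (ZMod m)ˣ}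
    (hu : (u : ZMod m) = (Ideal.absNorm (Q.under (𝓞 F)) : ZMod m)) :
    Ideal.absNorm Q = Ideal.absNorm (Q.under (𝓞 F)) ^ orderOf u := by
  rw [← inertiaDeg_eq_orderOf hQ hm hu]
  exact (Ideal.absNorm_pow_inertiaDeg (Q.under (𝓞 F)) Q).symm

/-- **Decomposition law in `F(ζ_m)/F`, number of primes.** -/
theorem ncard_primesOver_mul_orderOf {Q : Ideal (𝓞 M)} [hQp : Q.IsPrime] (hQ : Q ≠ ⊥)
    (hm : (m : 𝓞 M) ∉ Q) {u : (ZMod m)ˣ}
    (hu : (u : ZMod m) = (Ideal.absNorm (Q.under (𝓞 F)) : ZMod m)) :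
    ((Q.under (𝓞 F)).primesOver (𝓞 M)).ncard * orderOf u = Module.finrank F M := by
  have : IsGalois F M := IsCyclotomicExtension.isGalois {m} F M
  have hζ := IsCyclotomicExtension.zeta_spec m F M
  have hqm : (Q.under (𝓞 F)).IsMaximal :=
    have := hQp.isMaximal hQ
    Ideal.IsMaximal.under (𝓞 F) Q
  have h := Ideal.ncard_primesOver_mul_card_inertia_mul_finrank (G := Gal(M/F))
    (Q.under (𝓞 F)) Q
  rw [Unram.CycloFrob.inertia_eq_bot hζ hm, Subgroup.card_bot, mul_one,
    inertiaDeg_eq_orderOf hQ hm hu, IsGalois.card_aut_eq_finrank] at h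
  exact h

end Cyclo

/-! ### Regrouping a product over the primes of `M` along the primes of `F` -/

section Fiber

variable (F : Type*) {M : Type*} [Field F] [NumberField F] [Field M] [NumberField M]
  [Algebra F M]

/-- The primes of `M` above a prime `q` of `F` correspond to `primesOver`. -/
noncomputable def fiberEquiv (q : HeightOneSpectrum (𝓞 F)) :
    {Q : HeightOneSpectrum (𝓞 M) // Q.under (𝓞 F) = q} ≃ q.asIdeal.primesOver (𝓞 M) where
  toFun Q := ⟨Q.1.asIdeal, Q.1.isPrime, ⟨(congrArg HeightOneSpectrum.asIdeal Q.2).symm⟩⟩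
  invFun P := ⟨⟨P.1, P.2.1, Ideal.ne_bot_of_mem_primesOver q.ne_bot P.2⟩,
    HeightOneSpectrum.ext (P.2.2.over).symm⟩
  left_inv _ := rfl
  right_inv _ := rfl

instance finite_fiber (q : HeightOneSpectrum (𝓞 F)) :
    Finite {Q : HeightOneSpectrum (𝓞 M) // Q.under (𝓞 F) = q} :=
  Finite.of_equiv _ (fiberEquiv F q).symm

omit [NumberField F] [NumberField M] in
theorem card_fiber (q : HeightOneSpectrum (𝓞 F)) :
    Nat.card {Q : HeightOneSpectrum (𝓞 M) // Q.under (𝓞 F) = q} =
      (q.asIdeal.primesOver (𝓞 M)).ncard := by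
  rw [Nat.card_congr (fiberEquiv F q), Nat.card_coe_set_eq]

/-- Regrouping of an (unconditionally convergent) product over the primes of `M` along the primes
of `F`. -/
theorem hasProd_under {f : HeightOneSpectrum (𝓞 M) → ℂ} {a : ℂ} (hf : HasProd f a) :
    HasProd (fun q : HeightOneSpectrum (𝓞 F) =>
      ∏ᶠ Q : {Q : HeightOneSpectrum (𝓞 M) // Q.under (𝓞 F) = q}, f Q) a := by
  have h1 := (Equiv.sigmaFiberEquiv
    (fun Q : HeightOneSpectrum (𝓞 M) => Q.under (𝓞 F))).hasProd_iff.mpr hf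
  refine h1.sigma fun q => ?_
  let _ : Fintype {Q : HeightOneSpectrum (𝓞 M) // Q.under (𝓞 F) = q} := Fintype.ofFinite _
  rw [finprod_eq_prod_of_fintype]
  exact hasProd_fintype _

end Fiber

/-! ### The factorisation of the `L`-series -/

section Main

open Unram.EulerProduct

variable (F M : Type*) [Field F] [NumberField F] [Field M] [NumberField M] [Algebra F M]
  (m : ℕ)

omit [NumberField M] [Algebra F M] in
variable {F} in
/-- The norm of a proper ideal containing `m` is not a unit modulo `m`. -/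
theorem not_isUnit_absNorm_of_mem {I : Ideal (𝓞 F)} (hI : I ≠ ⊤) (hm : (m : 𝓞 F) ∈ I) :
    ¬ IsUnit ((Ideal.absNorm I : ℕ) : ZMod m) := by
  intro h
  rw [ZMod.isUnit_iff_coprime] at h
  obtain ⟨a, b, hab⟩ := Nat.isCoprime_iff_coprime.mpr h
  apply hI
  rw [Ideal.eq_top_iff_one]
  have h1 : (a : 𝓞 F) * ((Ideal.absNorm I : ℕ) : 𝓞 F) + (b : 𝓞 F) * (m : 𝓞 F) = 1 := by
    exact_mod_cast congrArg (Int.cast : ℤ → 𝓞 F) hab
  rw [← h1]
  exact I.add_mem (I.mul_mem_left _ (Ideal.absNorm_mem I)) (I.mul_mem_left _ hm)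

theorem natCast_pow_cpow (N f : ℕ) (s : ℂ) : (((N ^ f : ℕ) : ℂ)) ^ s = ((N : ℂ) ^ s) ^ f := by
  rw [Nat.cast_pow, ← Complex.natCast_cpow_natCast_mul, Complex.cpow_nat_mul]

variable [NeZero m] [IsCyclotomicExtension {m} F M]

/-- The Euler factors at a prime `q` of `F`: the product over the primes of `M = F(ζ_m)` above
`q` of the Euler factors of `L_M(s, 1_m)` is the product over all Dirichlet characters modulo `m`
of the Euler factors of `L_F(s, χ)`. -/
theorem finprod_fiber_eq (hdeg : Module.finrank F M = m.totient)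
    (q : HeightOneSpectrum (𝓞 F)) (s : ℂ) :
    ∏ᶠ Q : {Q : HeightOneSpectrum (𝓞 M) // Q.under (𝓞 F) = q},
      (1 - idealChar M m (1 : DirichletCharacter ℂ m) (primeIdeal M Q.1) *
        (Ideal.absNorm Q.1.asIdeal : ℂ) ^ (-s))⁻¹ =
    ∏ χ : DirichletCharacter ℂ m,
      (1 - idealChar F m χ (primeIdeal F q) * (Ideal.absNorm q.asIdeal : ℂ) ^ (-s))⁻¹ := by
  let _ : Fintype {Q : HeightOneSpectrum (𝓞 M) // Q.under (𝓞 F) = q} := Fintype.ofFinite _
  rw [finprod_eq_prod_of_fintype]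
  have hQu : ∀ Q : {Q : HeightOneSpectrum (𝓞 M) // Q.under (𝓞 F) = q},
      Q.1.asIdeal.under (𝓞 F) = q.asIdeal := fun Q => congrArg HeightOneSpectrum.asIdeal Q.2
  have hmem : ∀ Q : {Q : HeightOneSpectrum (𝓞 M) // Q.under (𝓞 F) = q},
      (m : 𝓞 M) ∈ Q.1.asIdeal ↔ (m : 𝓞 F) ∈ q.asIdeal := by
    intro Q
    rw [← hQu Q, Ideal.under_def, Ideal.mem_comap, map_natCast]
  by_cases hm : (m : 𝓞 F) ∈ q.asIdeal
  · -- bad primes: all factors are `1`
    have h1 : ∀ χ : DirichletCharacter ℂ m, idealChar F m χ (primeIdeal F q) = 0 := by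
      intro χ
      rw [idealChar_apply]
      exact χ.map_nonunit (not_isUnit_absNorm_of_mem m q.isPrime.ne_top hm)
    have h2 : ∀ Q : {Q : HeightOneSpectrum (𝓞 M) // Q.under (𝓞 F) = q},
        idealChar M m (1 : DirichletCharacter ℂ m) (primeIdeal M Q.1) = 0 := by
      intro Q
      rw [idealChar_apply]
      exact MulChar.map_nonunit _
        (not_isUnit_absNorm_of_mem m Q.1.isPrime.ne_top ((hmem Q).mpr hm))
    simp only [h1, h2, zero_mul, sub_zero, inv_one, Finset.prod_const_one]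
  · -- good primes
    obtain ⟨⟨Q₀, hQ₀p, hQ₀l⟩⟩ := (inferInstance : Nonempty (q.asIdeal.primesOver (𝓞 M)))
    have hQ₀u : Q₀.under (𝓞 F) = q.asIdeal := hQ₀l.over.symm
    have hQ₀0 : Q₀ ≠ ⊥ := Ideal.ne_bot_of_mem_primesOver q.ne_bot ⟨hQ₀p, hQ₀l⟩
    have hmQ₀ : (m : 𝓞 M) ∉ Q₀ := by
      intro h
      apply hm
      rw [← hQ₀u, Ideal.under_def, Ideal.mem_comap, map_natCast]
      exact h
    obtain ⟨u, hu, -⟩ := exists_unit_inertiaDeg_eq_orderOf (F := F) hQ₀0 hmQ₀
    rw [hQ₀u] at hu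
    have hcount := ncard_primesOver_mul_orderOf (F := F) hQ₀0 hmQ₀ (u := u) (by rw [hQ₀u, hu])
    rw [hQ₀u, hdeg, ← card_fiber, Nat.card_eq_fintype_card] at hcount
    have hf0 : 0 < orderOf u := orderOf_pos u
    set T : ℂ := (Ideal.absNorm q.asIdeal : ℂ) ^ (-s) with hT
    -- the factors on the `M` side
    have hfac : ∀ Q : {Q : HeightOneSpectrum (𝓞 M) // Q.under (𝓞 F) = q},
        (1 - idealChar M m (1 : DirichletCharacter ℂ m) (primeIdeal M Q.1) *
          (Ideal.absNorm Q.1.asIdeal : ℂ) ^ (-s))⁻¹ = (1 - T ^ orderOf u)⁻¹ := by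
      intro Q
      have hmQ : (m : 𝓞 M) ∉ Q.1.asIdeal := fun h => hm ((hmem Q).mp h)
      have hN : Ideal.absNorm Q.1.asIdeal = Ideal.absNorm q.asIdeal ^ orderOf u := by
        have := absNorm_eq_pow_orderOf (F := F) Q.1.ne_bot hmQ (u := u) (by rw [hQu Q, hu])
        rwa [hQu Q] at this
      have h1 : idealChar M m (1 : DirichletCharacter ℂ m) (primeIdeal M Q.1) = 1 := by
        rw [idealChar_apply, coe_primeIdeal, hN, Nat.cast_pow, ← hu, ← Units.val_pow_eq_pow_val,
          MulChar.one_apply_coe]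
      rw [h1, one_mul, hN, natCast_pow_cpow]
    -- the factors on the `F` side
    have hchar : ∀ χ : DirichletCharacter ℂ m,
        (1 - idealChar F m χ (primeIdeal F q) * (Ideal.absNorm q.asIdeal : ℂ) ^ (-s))⁻¹ =
          (1 - χ (u : ZMod m) * T)⁻¹ := by
      intro χ
      rw [idealChar_apply, coe_primeIdeal, ← hu]
    rw [Finset.prod_congr rfl fun Q _ => hfac Q, Finset.prod_congr rfl fun χ _ => hchar χ,
      CharGroup.prod_inv_one_sub_mul, Finset.prod_const, Finset.card_univ, inv_pow]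
    congr 2
    exact (Nat.div_eq_of_eq_mul_left hf0 hcount.symm).symm

/-- **Factorisation of the `L`-series in a cyclotomic extension.**  If `M = F(ζ_m)` has degree
`φ(m)` over `F`, the `L`-series of the trivial character modulo `m` over `M` is the product of
the `L`-series over `F` of all norm-residue characters modulo `m`. -/
theorem prod_LSer_eq (hdeg : Module.finrank F M = m.totient) {s : ℂ} (hs : 1 < s.re) :
    ∏ χ : DirichletCharacter ℂ m, LSer F m χ s = LSer M m (1 : DirichletCharacter ℂ m) s := by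
  have h1 : HasProd (fun q : HeightOneSpectrum (𝓞 F) => ∏ χ : DirichletCharacter ℂ m,
      (1 - idealChar F m χ (primeIdeal F q) * (Ideal.absNorm q.asIdeal : ℂ) ^ (-s))⁻¹)
      (∏ χ : DirichletCharacter ℂ m, LSer F m χ s) :=
    hasProd_prod fun χ _ =>
      LSeriesIdeal_hasProd F (idealChar F m χ) (norm_idealChar_le_one F m χ) hs
  have h2 := hasProd_under F (LSeriesIdeal_hasProd M (idealChar M m 1)
    (norm_idealChar_le_one M m 1) hs)
  rw [funext fun q => finprod_fiber_eq F M m hdeg q s] at h2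
  exact h1.unique h2

/-- `prod_LSer_eq` under the hypothesis that the cyclotomic polynomial is irreducible. -/
theorem prod_LSer_eq_of_irreducible (h : Irreducible (Polynomial.cyclotomic m F)) {s : ℂ}
    (hs : 1 < s.re) :
    ∏ χ : DirichletCharacter ℂ m, LSer F m χ s = LSer M m (1 : DirichletCharacter ℂ m) s :=
  prod_LSer_eq F M m (IsCyclotomicExtension.finrank M h) hs

/-- **Factorisation of the Dedekind zeta function of `M = F(ζ_m)`** (real `s > 1`): up to the
Euler factors at the primes of `M` dividing `m`, it is the product of the `L`-series over `F` of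
all norm-residue characters modulo `m`. -/
theorem prod_LSer_eq_zetaReal (hdeg : Module.finrank F M = m.totient) {s : ℝ} (hs : 1 < s) :
    ∏ χ : DirichletCharacter ℂ m, LSer F m χ (s : ℂ) =
      ((LSeries.badFactor M m s * zetaReal M s : ℝ) : ℂ) := by
  rw [prod_LSer_eq F M m hdeg (by simpa using hs), LSeries.LSer_one_eq M m hs]

open Filter Topology in
/-- The pole of `∏_χ L(s, χ)` at `s = 1`: `(s - 1) ∏_χ L(s, χ) → c > 0`, with `c` the constant
`LSeries.poleConst M m` of `M = F(ζ_m)`. -/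
theorem tendsto_sub_one_mul_prod_LSer (hdeg : Module.finrank F M = m.totient) :
    Tendsto (fun s : ℝ => ((s : ℂ) - 1) * ∏ χ : DirichletCharacter ℂ m, LSer F m χ (s : ℂ))
      (𝓝[>] 1) (𝓝 ((LSeries.poleConst M m : ℝ) : ℂ)) := by
  refine (LSeries.tendsto_sub_one_mul_LSer_one M m).congr' ?_
  filter_upwards [self_mem_nhdsWithin] with s hs
  have hs1 : (1 : ℝ) < s := hs
  rw [prod_LSer_eq F M m hdeg (by simpa using hs1)]

end Main

/-! ### Intrinsic form (no auxiliary field in the statement) -/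

section Intrinsic

open Filter Topology

/-- **Pole of the product of the norm-residue `L`-series.**  If the `m`-th cyclotomic polynomial
is irreducible over the number field `F`, then `(s - 1) ∏_χ L_F(s, χ)` tends to a positive real
number as `s → 1⁺`. -/
theorem exists_tendsto_sub_one_mul_prod_LSer (F : Type*) [Field F] [NumberField F] (m : ℕ)
    [NeZero m] (h : Irreducible (Polynomial.cyclotomic m F)) :
    ∃ c : ℝ, 0 < c ∧
      Tendsto (fun s : ℝ => ((s : ℂ) - 1) * ∏ χ : DirichletCharacter ℂ m, LSer F m χ (s : ℂ))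
        (𝓝[>] 1) (𝓝 (c : ℂ)) := by
  have : NumberField (CyclotomicField m F) := IsCyclotomicExtension.numberField {m} F _
  exact ⟨LSeries.poleConst (CyclotomicField m F) m, LSeries.poleConst_pos _ m,
    tendsto_sub_one_mul_prod_LSer F (CyclotomicField m F) m
      (IsCyclotomicExtension.finrank (CyclotomicField m F) h)⟩

end Intrinsic

end Fermat.Agent.Lib.CFT.Cheb.ZetaFactor
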