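/-
helper57 (P-CFT by-product CHEBOTAREV).  Final glue of the `L`-series part: from WP-L2
(`LSeries.lean`), WP-L3 (`ZetaFactor.lean`), WP-L4 (`NonVanishingGlue.lean`) and WP-L5
(`PrimeSum.lean`) to `cyclotomicDirichlet_of : PartialZetaLipschitz → CyclotomicDirichlet`.
-/
import Mathlib
import Fermat.Agent.Lib.CFT.Cheb.NonVanishingGlue
import Fermat.Agent.Lib.CFT.Cheb.PrimeSum
import Fermat.Agent.Lib.CFT.Cheb.ZetaFactor

set_option autoImplicit false

namespace Fermat.Agent.Lib.CFT.Cheb.DirichletGlue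

open Filter Topology NumberField

universe u

/-- The `L`-series of the trivial character modulo `m` tends to infinity at `1⁺`. -/
theorem tendsto_norm_LSer_one_atTop (F : Type u) [Field F] [NumberField F] (m : ℕ) [NeZero m] :
    Tendsto (fun s : ℝ => ‖LSer F m (1 : DirichletCharacter ℂ m) (s : ℂ)‖)
      (𝓝[>] (1 : ℝ)) atTop := by
  have h0 := (LSeries.tendsto_sub_one_mul_LSer_one F m).norm
  have hc : 0 < ‖((LSeries.poleConst F m : ℝ) : ℂ)‖ := by
    rw [norm_pos_iff]
    exact Complex.ofReal_ne_zero.mpr (LSeries.poleConst_pos F m).ne'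
  have h1 : Tendsto (fun s : ℝ => (s - 1)⁻¹) (𝓝[>] (1 : ℝ)) atTop := by
    have h2 : Tendsto (fun s : ℝ => s - 1) (𝓝[>] (1 : ℝ)) (𝓝[>] (0 : ℝ)) := by
      refine tendsto_nhdsWithin_iff.mpr ⟨?_, ?_⟩
      · have : Tendsto (fun s : ℝ => s - 1) (𝓝 (1 : ℝ)) (𝓝 (1 - 1)) :=
          (continuous_id.sub continuous_const).tendsto 1
        rw [sub_self] at this
        exact this.mono_left nhdsWithin_le_nhds
      · filter_upwards [self_mem_nhdsWithin] with s hs
        exact Set.mem_Ioi.mpr (sub_pos.mpr (Set.mem_Ioi.mp hs))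
    exact tendsto_inv_nhdsGT_zero.comp h2
  refine (h1.atTop_mul_pos hc h0).congr' ?_
  filter_upwards [self_mem_nhdsWithin] with s hs
  have hs1 : (1 : ℝ) < s := hs
  have hn : ‖((s : ℂ) - 1)‖ = s - 1 := by
    rw [← Complex.ofReal_one, ← Complex.ofReal_sub, Complex.norm_real,
      Real.norm_of_nonneg (by linarith)]
  rw [norm_mul, hn, ← mul_assoc, inv_mul_cancel₀ (by linarith), one_mul]

/-- The behaviour at `1⁺` of the `L`-series of the norm-residue characters, when the cyclotomic
polynomial is irreducible. -/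
theorem lserLimits (hZ : PartialZetaLipschitz.{u}) (F : Type u) [Field F] [NumberField F]
    (m : ℕ) [NeZero m] (h : Irreducible (Polynomial.cyclotomic m F)) :
    PrimeSum.LSerLimits F m := by
  obtain ⟨c, hc, hprod⟩ := ZetaFactor.exists_tendsto_sub_one_mul_prod_LSer F m h
  obtain ⟨-, hne⟩ := NonVanishing.normResidues_eq_univ_and_limit_ne_zero F m hZ
    (Complex.ofReal_ne_zero.mpr hc.ne') hprod
  refine ⟨fun χ hχ => ?_, tendsto_norm_LSer_one_atTop F m⟩
  obtain ⟨L1, hL1, -, -, -, hlim⟩ := hne χ hχ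
  exact ⟨L1, hL1, hlim⟩

/-- Every unit residue class modulo `m` is the class of the norm of an ideal, when the cyclotomic
polynomial is irreducible. -/
theorem normResidues_eq_univ (hZ : PartialZetaLipschitz.{u}) (F : Type u) [Field F]
    [NumberField F] (m : ℕ) [NeZero m] (h : Irreducible (Polynomial.cyclotomic m F)) :
    normResidues F m = Set.univ := by
  obtain ⟨c, hc, hprod⟩ := ZetaFactor.exists_tendsto_sub_one_mul_prod_LSer F m h
  exact (NonVanishing.normResidues_eq_univ_and_limit_ne_zero F m hZ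
    (Complex.ofReal_ne_zero.mpr hc.ne') hprod).1

/-- **Generalized Dirichlet theorem** (WP-L), modulo the analytic core WP-Z. -/
theorem cyclotomicDirichlet_of (hZ : PartialZetaLipschitz.{u}) : CyclotomicDirichlet.{u} :=
  PrimeSum.cyclotomicDirichlet_of_lserLimits fun F _ _ m _ hirr => lserLimits hZ F m hirr

end Fermat.Agent.Lib.CFT.Cheb.DirichletGlue
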