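/-
helper89 (CHEBOTAREV, WP-Z4, analytic half).  For a kernel `k s : E → ℝ` (`s ∈ (1,2]`) satisfying
the oscillation bounds delivered by WP-Z2, the error of the comparison "sum over a coset of a
lattice of `y ↦ k s (c • y)` versus its integral" is bounded and Lipschitz in `s`, and the main
term is `covol⁻¹ * c^(-dim) * ∫ k s`.
-/
import Mathlib
import Fermat.Agent.Lib.CFT.Cheb.CosetCell

set_option autoImplicit false

namespace Fermat.Agent.Lib.CFT.Cheb.ScaledKernel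

open MeasureTheory Module
open Fermat.Agent.Lib.CFT.Unram Fermat.Agent.Lib.CFT.Cheb.CosetCell

variable {E : Type*} [NormedAddCommGroup E] [NormedSpace ℝ E] [FiniteDimensional ℝ E]
variable [MeasurableSpace E] [BorelSpace E]

/-- The oscillation hypotheses on a kernel (output shape of WP-Z2), for the dimension `d`. -/
structure OscData (d : ℕ) (k : ℝ → E → ℝ) : Prop where
  osc : ∀ δ : ℝ, 0 < δ → ∃ M : ℝ, 0 ≤ M ∧ ∀ s : ℝ, 1 ≤ s → s ≤ 2 → ∀ y z : E, ‖y - z‖ ≤ δ →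
    |k s y - k s z| ≤ M * ((1 + ‖y‖) ^ (d + 1))⁻¹
  osc_sub : ∀ δ : ℝ, 0 < δ → ∃ M : ℝ, 0 ≤ M ∧ ∀ s : ℝ, 1 ≤ s → s ≤ 2 → ∀ t : ℝ, 1 ≤ t → t ≤ 2 →
    ∀ y z : E, ‖y - z‖ ≤ δ →
      |(k s y - k t y) - (k s z - k t z)| ≤ M * |s - t| * (1 + ‖y‖) ^ (-((d : ℝ) + 1 / 2))

omit [FiniteDimensional ℝ E] [MeasurableSpace E] [BorelSpace E] in
theorem min_mul_le_one_add_norm_smul {c : ℝ} (hc : 0 < c) (y : E) :
    min 1 c * (1 + ‖y‖) ≤ 1 + ‖c • y‖ := by
  rw [norm_smul, Real.norm_eq_abs, abs_of_pos hc, mul_add, mul_one]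
  have h1 : min 1 c ≤ 1 := min_le_left _ _
  have h2 : min 1 c ≤ c := min_le_right _ _
  have h3 : min 1 c * ‖y‖ ≤ c * ‖y‖ := mul_le_mul_of_nonneg_right h2 (norm_nonneg y)
  linarith

omit [FiniteDimensional ℝ E] [MeasurableSpace E] [BorelSpace E] in
/-- Comparison of the weights at `c • y` and at `y`. -/
theorem one_add_norm_smul_rpow_le {c : ℝ} (hc : 0 < c) {b : ℝ} (hb : 0 ≤ b) (y : E) :
    (1 + ‖c • y‖) ^ (-b) ≤ (min 1 c) ^ (-b) * (1 + ‖y‖) ^ (-b) := by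
  have hm : 0 < min 1 c := lt_min one_pos hc
  have hy : 0 < 1 + ‖y‖ := by positivity
  rw [← Real.mul_rpow hm.le hy.le]
  exact Real.rpow_le_rpow_of_nonpos (mul_pos hm hy) (min_mul_le_one_add_norm_smul hc y)
    (by linarith)

omit [NormedSpace ℝ E] [FiniteDimensional ℝ E] [MeasurableSpace E] [BorelSpace E] in
theorem inv_pow_le_rpow (d : ℕ) (y : E) :
    ((1 + ‖y‖) ^ (d + 1))⁻¹ ≤ (1 + ‖y‖) ^ (-((d : ℝ) + 1 / 2)) := by
  have hy : 1 ≤ 1 + ‖y‖ := by linarith [norm_nonneg y]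
  have hy0 : 0 < 1 + ‖y‖ := by positivity
  rw [← Real.rpow_natCast, ← Real.rpow_neg hy0.le]
  apply Real.rpow_le_rpow_of_exponent_le hy
  push_cast
  linarith

variable (L : Submodule ℤ E) [DiscreteTopology L] [IsZLattice ℝ L]
variable (μ : Measure E) [Measure.IsAddHaarMeasure μ]

/-- **Main analytic statement of WP-Z4.**  For a kernel with the oscillation bounds of WP-Z2
(for `d = dim E`), a lattice `L`, a point `x₀` and a scaling factor `c > 0`, the sums of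
`y ↦ k s (c • y)` over the coset `x₀ + L` converge for `s ∈ (1,2]` and the error terms
`cosetError` are bounded and Lipschitz in `s`. -/
theorem cosetError_scaled_lipschitz {k : ℝ → E → ℝ} (hk : OscData (finrank ℝ E) k)
    (hint : ∀ s : ℝ, 1 < s → Integrable (k s) μ) (x₀ : E) {c : ℝ} (hc : 0 < c) :
    (∀ s ∈ Set.Ioc (1 : ℝ) 2, Summable fun x : L => k s (c • (x₀ + x))) ∧
    ∃ B : ℝ, 0 ≤ B ∧
      (∀ s ∈ Set.Ioc (1 : ℝ) 2, |cosetError L μ x₀ (fun y => k s (c • y))| ≤ B) ∧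
      (∀ s ∈ Set.Ioc (1 : ℝ) 2, ∀ t ∈ Set.Ioc (1 : ℝ) 2,
        |cosetError L μ x₀ (fun y => k s (c • y)) - cosetError L μ x₀ (fun y => k t (c • y))|
          ≤ B * |s - t|) := by
  set d := finrank ℝ E with hd
  set b : ℝ := (d : ℝ) + 1 / 2 with hb
  have hb0 : 0 ≤ b := by positivity
  have hbd : (finrank ℝ E : ℝ) < b := by rw [hb, ← hd]; linarith
  set ω : E → ℝ := fun y => (1 + ‖y‖) ^ (-b) with hω
  have hωsum : Summable fun x : L => ω (x₀ + x) := summable_one_add_norm_rpow L x₀ hbd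
  -- the scale of the oscillation bounds
  set δ : ℝ := c * (|cellDiam L| + 1) with hδ
  have hδ0 : 0 < δ := by positivity
  obtain ⟨M₀, hM₀, hosc₀⟩ := hk.osc δ hδ0
  obtain ⟨M₁, hM₁, hosc₁⟩ := hk.osc_sub δ hδ0
  set κ : ℝ := (min 1 c) ^ (-b) with hκ
  have hκ0 : 0 ≤ κ := Real.rpow_nonneg (le_min zero_le_one hc.le) _
  have hscale : ∀ y z : E, ‖y - z‖ ≤ cellDiam L → ‖c • y - c • z‖ ≤ δ := by
    intro y z hyz
    rw [← smul_sub, norm_smul, Real.norm_eq_abs, abs_of_pos hc, hδ]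
    apply mul_le_mul_of_nonneg_left _ hc.le
    linarith [le_abs_self (cellDiam L)]
  have hH := cosetError_lipschitz L μ x₀ (Set.Ioc (1 : ℝ) 2) (fun s y => k s (c • y))
    (M₀ * κ) (M₁ * κ) ω hωsum
    (fun s hs => (hint s hs.1).comp_smul hc.ne')
    (by
      intro s hs y z hyz
      have h1 := hosc₀ s hs.1.le hs.2 (c • y) (c • z) (hscale y z hyz)
      calc |k s (c • y) - k s (c • z)| ≤ M₀ * ((1 + ‖c • y‖) ^ (d + 1))⁻¹ := h1
        _ ≤ M₀ * (1 + ‖c • y‖) ^ (-b) :=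
            mul_le_mul_of_nonneg_left (inv_pow_le_rpow d (c • y)) hM₀
        _ ≤ M₀ * (κ * (1 + ‖y‖) ^ (-b)) :=
            mul_le_mul_of_nonneg_left (one_add_norm_smul_rpow_le hc hb0 y) hM₀
        _ = M₀ * κ * ω y := by rw [hω]; ring)
    (by
      intro s hs t ht y z hyz
      have h1 := hosc₁ s hs.1.le hs.2 t ht.1.le ht.2 (c • y) (c • z) (hscale y z hyz)
      calc |(k s (c • y) - k t (c • y)) - (k s (c • z) - k t (c • z))|
          ≤ M₁ * |s - t| * (1 + ‖c • y‖) ^ (-b) := h1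
        _ ≤ M₁ * |s - t| * (κ * (1 + ‖y‖) ^ (-b)) :=
            mul_le_mul_of_nonneg_left (one_add_norm_smul_rpow_le hc hb0 y)
              (mul_nonneg hM₁ (abs_nonneg _))
        _ = M₁ * κ * |s - t| * ω y := by rw [hω]; ring)
  obtain ⟨hS, hB0, hB1⟩ := hH
  refine ⟨fun s hs => ?_, ?_⟩
  · have := hS s hs
    exact this
  · set Sw : ℝ := ∑' x : L, ω (x₀ + x) with hSw
    have hSw0 : 0 ≤ Sw := tsum_nonneg fun x => Real.rpow_nonneg (by positivity) _
    refine ⟨max (M₀ * κ * Sw) (M₁ * κ * Sw), le_max_of_le_left (by positivity), ?_, ?_⟩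
    · intro s hs
      exact (hB0 s hs).trans (le_max_left _ _)
    · intro s hs t ht
      exact (hB1 s hs t ht).trans
        (mul_le_mul_of_nonneg_right (le_max_right _ _) (abs_nonneg _))

/-- The main term: the integral of the rescaled kernel. -/
theorem integral_scaled (f : E → ℝ) {c : ℝ} (hc : 0 < c) :
    ∫ y, f (c • y) ∂μ = (c ^ finrank ℝ E)⁻¹ * ∫ y, f y ∂μ := by
  rw [Measure.integral_comp_smul_of_nonneg μ f c (hR := hc.le), smul_eq_mul]

end Fermat.Agent.Lib.CFT.Cheb.ScaledKernel
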