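/-
helper89 (CHEBOTAREV, WP-Z4, lattice half).  For a kernel `k s` on the mixed space of a number
field `K` with the oscillation bounds of WP-Z2, an integral ideal `b`, a second ideal `b'`
(in the application `b' = m b`) and a point `r`, the sum of `y ↦ k s (N(b)^(-1/d) • y)` over the
coset `r + b'` equals the main term `(N b / N b') * covO⁻¹ * ∫ k s` up to an error which is bounded
and Lipschitz in `s ∈ (1, 2]`.
-/
import Mathlib
import Fermat.Agent.Lib.CFT.Cheb.ScaledKernel
import Fermat.Agent.Lib.CFT.Unram.PartialZetaMain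

set_option autoImplicit false

namespace Fermat.Agent.Lib.CFT.Cheb.IdealCoset

open NumberField NumberField.mixedEmbedding Module MeasureTheory Ideal
open scoped Classical nonZeroDivisors
open Fermat.Agent.Lib.CFT.Unram Fermat.Agent.Lib.CFT.Cheb.CosetCell
  Fermat.Agent.Lib.CFT.Cheb.ScaledKernel

variable {K : Type*} [Field K] [NumberField K]

/-- The error term: sum over the coset `r + b'` of the kernel rescaled by `N(b)^(-1/d)`, minus
the main term. -/
noncomputable def idealCosetError (k : ℝ → mixedSpace K → ℝ) (b b' : (Ideal (𝓞 K))⁰)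
    (r : mixedSpace K) (s : ℝ) : ℝ :=
  ∑' x : idealLattice K (FractionalIdeal.mk0 K b'), k s (scaleC b • (r + (x : mixedSpace K))) -
    ((absNorm (b : Ideal (𝓞 K)) : ℝ) / (absNorm (b' : Ideal (𝓞 K)) : ℝ)) *
      ((covO K)⁻¹ * ∫ y : mixedSpace K, k s y)

theorem idealCosetError_eq_cosetError (k : ℝ → mixedSpace K → ℝ) (b b' : (Ideal (𝓞 K))⁰)
    (r : mixedSpace K) (s : ℝ) :
    idealCosetError k b b' r s =
      cosetError (idealLattice K (FractionalIdeal.mk0 K b')) volume r
        (fun y => k s (scaleC b • y)) := by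
  unfold idealCosetError cosetError
  rw [integral_scaled volume (k s) (scaleC_pos b), mixedEmbedding.finrank, scaleC_pow, inv_inv,
    covolume_idealLattice_mk0]
  have h1 : (absNorm (b' : Ideal (𝓞 K)) : ℝ) ≠ 0 := (absNorm_pos_real b').ne'
  have h2 : covO K ≠ 0 := (covO_pos K).ne'
  congr 1
  field_simp

/-- **Coset sums over ideal lattices.** -/
theorem idealCosetError_lipschitz {k : ℝ → mixedSpace K → ℝ} (hk : OscData (finrank ℚ K) k)
    (hint : ∀ s : ℝ, 1 < s → Integrable (k s) (volume : Measure (mixedSpace K)))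
    (b b' : (Ideal (𝓞 K))⁰) (r : mixedSpace K) :
    (∀ s ∈ Set.Ioc (1 : ℝ) 2, Summable fun x : idealLattice K (FractionalIdeal.mk0 K b') =>
      k s (scaleC b • (r + (x : mixedSpace K)))) ∧
    ∃ B : ℝ, 0 ≤ B ∧
      (∀ s ∈ Set.Ioc (1 : ℝ) 2, |idealCosetError k b b' r s| ≤ B) ∧
      (∀ s ∈ Set.Ioc (1 : ℝ) 2, ∀ t ∈ Set.Ioc (1 : ℝ) 2,
        |idealCosetError k b b' r s - idealCosetError k b b' r t| ≤ B * |s - t|) := by
  have hk' : OscData (finrank ℝ (mixedSpace K)) k := by
    rw [mixedEmbedding.finrank]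
    exact hk
  obtain ⟨h1, B, hB0, hB1, hB2⟩ := cosetError_scaled_lipschitz
    (idealLattice K (FractionalIdeal.mk0 K b')) volume hk' hint r (scaleC_pos b)
  refine ⟨h1, B, hB0, ?_, ?_⟩
  · intro s hs
    rw [idealCosetError_eq_cosetError]
    exact hB1 s hs
  · intro s hs t ht
    rw [idealCosetError_eq_cosetError, idealCosetError_eq_cosetError]
    exact hB2 s hs t ht

end Fermat.Agent.Lib.CFT.Cheb.IdealCoset
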