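/-
helper95 (CHEBOTAREV block, WP-Z3).  Arithmetic of the norm-residue partial zeta functions:
ideals in a class as lattice points modulo units, the norm residue of `(x)/b` in terms of
`x mod m` and of the signs of `x` at the real places, and the counting of admissible pairs.
-/
import Mathlib
import Fermat.Agent.Lib.CFT.Cheb.Defs
import Fermat.Agent.Lib.CFT.Unram.PartialZetaOrbit
import Fermat.Agent.Lib.CFT.Unram.Moving

set_option autoImplicit false

namespace Fermat.Agent.Lib.CFT.Cheb.IdealParam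

open NumberField NumberField.mixedEmbedding NumberField.InfinitePlace NumberField.Units Ideal
open Fermat.Agent.Lib.CFT.Unram Fermat.Agent.Lib.CFT.Unram.PartialZetaOrbit
open scoped nonZeroDivisors

variable {K : Type*} [Field K] [NumberField K]

/-! ### The quotient ideal `(x)/b` and the weighted orbit sum -/

section Quot

variable (b : (Ideal (𝓞 K))⁰) {C : ClassGroup (𝓞 K)} (hb : ClassGroup.mk0 b = C⁻¹)

/-- The ideal `(x)/b` (in the class `C`) attached to a nonzero element `x` of `b`. -/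
noncomputable def quot (x : NZ b) : Cls C := ((paramEquiv b hb).symm x).1

theorem span_eq_mul_quot (x : NZ b) :
    span {x.1} = (b : Ideal (𝓞 K)) * ((quot b hb x).1 : Ideal (𝓞 K)) := by
  have h := span_param b hb ((paramEquiv b hb).symm x)
  have h2 : param b hb ((paramEquiv b hb).symm x) = x := (paramEquiv b hb).apply_symm_apply x
  rw [h2] at h
  exact h

theorem quot_param (p : Cls C × (𝓞 K)ˣ) : quot b hb (param b hb p) = p.1 := by
  have : (paramEquiv b hb).symm (param b hb p) = p := (paramEquiv b hb).symm_apply_apply p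
  unfold quot
  rw [this]

theorem absNorm_span_eq (x : NZ b) :
    absNorm (span {x.1} : Ideal (𝓞 K)) =
      absNorm (b : Ideal (𝓞 K)) * absNorm ((quot b hb x).1 : Ideal (𝓞 K)) := by
  rw [span_eq_mul_quot b hb x, map_mul]

/-- **Weighted orbit sum.**  For a nonnegative summable function `g` on the ideals of the class
`C`, the sum of `g` is `1/w` times the sum over the nonzero elements `x` of `b` of
`eta x * g ((x)/b)`. -/
theorem orbit_tsum (eta : mixedSpace K → ℝ) (h0 : ∀ x, 0 ≤ eta x)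
    (hsum : ∀ x, mixedEmbedding.norm x ≠ 0 →
      HasSum (fun u : (𝓞 K)ˣ => eta (u • x)) (torsionOrder K : ℝ))
    (g : Cls C → ℝ) (hg : ∀ I, 0 ≤ g I) (hS : Summable g) :
    Summable (fun x : NZ b => eta (mixedEmbedding K (x.1 : K)) * g (quot b hb x)) ∧
    ∑' x : NZ b, eta (mixedEmbedding K (x.1 : K)) * g (quot b hb x)
      = (torsionOrder K : ℝ) * ∑' I : Cls C, g I := by
  set f : NZ b → ℝ := fun x => eta (mixedEmbedding K (x.1 : K)) * g (quot b hb x) with hf
  have hpt : ∀ p : Cls C × (𝓞 K)ˣ, f (param b hb p)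
      = eta (p.2 • mixedEmbedding K ((gen b hb p.1 : 𝓞 K) : K)) * g p.1 := by
    intro p
    simp only [hf]
    rw [quot_param, ← coe_toLattice_param, coe_toLattice]
  have hne : ∀ I : Cls C, mixedEmbedding.norm (mixedEmbedding K ((gen b hb I : 𝓞 K) : K)) ≠ 0 :=
    fun I => norm_toLattice_ne_zero b ⟨gen b hb I, gen_mem b hb I, gen_ne_zero b hb I⟩
  have hrow : ∀ I : Cls C, HasSum (fun u : (𝓞 K)ˣ => f (param b hb (I, u)))
      ((torsionOrder K : ℝ) * g I) := by
    intro I
    simp only [hpt]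
    exact (hsum _ (hne I)).mul_right _
  have hnn : ∀ p : Cls C × (𝓞 K)ˣ, 0 ≤ f (param b hb p) := fun p =>
    mul_nonneg (h0 _) (hg _)
  have hS2 : Summable (fun p : Cls C × (𝓞 K)ˣ => f (param b hb p)) := by
    rw [summable_prod_of_nonneg hnn]
    refine ⟨fun I => (hrow I).summable, ?_⟩
    refine (hS.mul_left (torsionOrder K : ℝ)).congr fun I => ?_
    exact (hrow I).tsum_eq.symm
  have hS1 : Summable f := by
    have := (paramEquiv b hb).summable_iff (f := f)
    exact this.mp hS2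
  refine ⟨hS1, ?_⟩
  have e2 : ∑' p : Cls C × (𝓞 K)ˣ, f (param b hb p) = ∑' a : NZ b, f a :=
    (paramEquiv b hb).tsum_eq f
  rw [← e2, hS2.tsum_prod' fun I => (hrow I).summable, ← tsum_mul_left]
  exact tsum_congr fun I => (hrow I).tsum_eq

end Quot

/-! ### The sign of the norm -/

section Sign


open scoped Classical in
theorem prod_filter_mk_eq (w : InfinitePlace K) (x : K) :
    ∏ φ ∈ Finset.univ.filter (fun φ : K →+* ℂ => mk φ = w), φ x =
      if IsReal w then w.embedding x else ((Complex.normSq (w.embedding x) : ℝ) : ℂ) := by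
  have hfilter : Finset.univ.filter (fun φ : K →+* ℂ => mk φ = w) =
      {embedding w} ∪ {ComplexEmbedding.conjugate (embedding w)} := by
    ext φ
    simp only [Finset.mem_filter, Finset.mem_univ, true_and, Finset.mem_union,
      Finset.mem_singleton]
    conv_lhs => rw [← mk_embedding w, mk_eq_iff]
    constructor
    · rintro (h | h)
      · exact Or.inl h
      · right
        rw [← h, ComplexEmbedding.involutive_conjugate]
    · rintro (h | h)
      · exact Or.inl h
      · right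
        rw [h, ComplexEmbedding.involutive_conjugate]
  rw [hfilter]
  split_ifs with hw
  · rw [ComplexEmbedding.isReal_iff.mp (isReal_iff.mp hw), Finset.union_idempotent,
      Finset.prod_singleton]
  · have hne : embedding w ≠ ComplexEmbedding.conjugate (embedding w) := by
      rwa [Ne, eq_comm, ← ComplexEmbedding.isReal_iff, ← isReal_iff]
    rw [← Finset.insert_eq, Finset.prod_pair hne, ComplexEmbedding.conjugate_coe_eq,
      Complex.mul_conj]

open scoped Classical in
theorem norm_eq_prod_places (x : K) :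
    ((Algebra.norm ℚ x : ℚ) : ℂ) = ∏ w : InfinitePlace K,
      (if IsReal w then w.embedding x else ((Complex.normSq (w.embedding x) : ℝ) : ℂ)) := by
  rw [← Finset.prod_congr rfl (fun w _ => prod_filter_mk_eq w x)]
  rw [Finset.prod_fiberwise Finset.univ mk (fun φ => φ x)]
  have h := Algebra.norm_eq_prod_embeddings ℚ ℂ x
  rw [eq_ratCast] at h
  rw [h]
  exact (Fintype.prod_equiv (RingHom.equivRatAlgHom K ℂ) (fun f : K →+* ℂ => f x)
      (fun φ : K →ₐ[ℚ] ℂ => φ x) fun _ => by simp [RingHom.equivRatAlgHom_apply]).symm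

open scoped Classical in
/-- The signed norm on the mixed space. -/
noncomputable def signedNorm (x : mixedSpace K) : ℝ :=
  (∏ w : {w : InfinitePlace K // IsReal w}, x.1 w) *
    ∏ w : {w : InfinitePlace K // IsComplex w}, Complex.normSq (x.2 w)

open scoped Classical in
theorem norm_eq_signedNorm (x : K) :
    ((Algebra.norm ℚ x : ℚ) : ℝ) = signedNorm (mixedEmbedding K x) := by
  apply Complex.ofReal_injective
  rw [Complex.ofReal_ratCast, norm_eq_prod_places, signedNorm]
  push_cast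
  rw [← Fintype.prod_subtype_mul_prod_subtype (fun w : InfinitePlace K => IsReal w)]
  congr 1
  · refine Finset.prod_congr rfl fun w _ => ?_
    rw [if_pos w.2, mixedEmbedding_apply_isReal, embedding_of_isReal_apply]
  · refine Fintype.prod_equiv (Equiv.subtypeEquivRight fun w => not_isReal_iff_isComplex) _ _ ?_
    intro w
    rw [if_neg w.2, mixedEmbedding_apply_isComplex]
    rfl

open scoped Classical in
theorem signedNorm_eq (x : mixedSpace K) :
    signedNorm x = (-1 : ℝ) ^ (signSet x).ncard * mixedEmbedding.norm x := by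
  have hcard : (signSet x).ncard =
      (Finset.univ.filter (fun w : {w : InfinitePlace K // IsReal w} => x.1 w ≤ 0)).card := by
    rw [← Set.ncard_coe_finset]
    congr 1
    ext w
    simp [signSet]
  have hreal : ∏ w : {w : InfinitePlace K // IsReal w}, x.1 w =
      (-1 : ℝ) ^ (signSet x).ncard * ∏ w : {w : InfinitePlace K // IsReal w}, ‖x.1 w‖ := by
    rw [hcard, ← Finset.prod_const, Finset.prod_filter, ← Finset.prod_mul_distrib]
    refine Finset.prod_congr rfl fun w _ => ?_
    split_ifs with h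
    · rw [Real.norm_of_nonpos h]; ring
    · rw [Real.norm_of_nonneg (not_le.mp h).le]; ring
  rw [signedNorm, hreal, mixedEmbedding.norm_apply,
    ← Fintype.prod_subtype_mul_prod_subtype (fun w : InfinitePlace K => IsReal w), mul_assoc]
  congr 2
  · refine Finset.prod_congr rfl fun w _ => ?_
    rw [normAtPlace_apply_of_isReal w.2, mult, if_pos w.2, pow_one]
  · refine (Fintype.prod_equiv (Equiv.subtypeEquivRight fun w => not_isReal_iff_isComplex) _ _ ?_).symm
    intro w
    have hw : IsComplex w.1 := not_isReal_iff_isComplex.mp w.2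
    rw [normAtPlace_apply_of_isComplex hw, mult, if_neg w.2, Complex.normSq_eq_norm_sq]
    rfl

/-- The sign `(-1)^#σ` of a sign pattern. -/
noncomputable def sgn (σ : Set {w : InfinitePlace K // IsReal w}) : ℤ := (-1) ^ σ.ncard

theorem norm_int_eq (x : 𝓞 K) :
    Algebra.norm ℤ x =
      sgn (signSet (mixedEmbedding K (x : K))) * (absNorm (span {x} : Ideal (𝓞 K)) : ℤ) := by
  have h1 := norm_eq_signedNorm (x : K)
  rw [signedNorm_eq, norm_eq_norm, ← Algebra.coe_norm_int] at h1
  rw [absNorm_span_singleton, Int.natCast_natAbs, sgn]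
  have h2 : ((Algebra.norm ℤ x : ℤ) : ℝ) =
      (((-1) ^ (signSet (mixedEmbedding K (x : K))).ncard * |Algebra.norm ℤ x| : ℤ) : ℝ) := by
    push_cast
    push_cast at h1
    exact h1
  exact_mod_cast h2

end Sign

/-! ### The norm modulo `m` -/

section NormZ


/-- The residue modulo `m` of the algebraic norm. -/
noncomputable def normZ (m : ℕ) : 𝓞 K →* ZMod m :=
  ((Int.castRingHom (ZMod m)) : ℤ →* ZMod m).comp (Algebra.norm ℤ)

omit [NumberField K] in
theorem normZ_apply (m : ℕ) (x : 𝓞 K) : normZ m x = ((Algebra.norm ℤ x : ℤ) : ZMod m) := rfl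

theorem normZ_add_mul (m : ℕ) (x z : 𝓞 K) : normZ m (x + (m : 𝓞 K) * z) = normZ m x := by
  classical
  let bas := RingOfIntegers.basis K
  rw [normZ_apply, normZ_apply, Algebra.norm_eq_matrix_det bas, Algebra.norm_eq_matrix_det bas]
  have h1 : ∀ M : Matrix (Module.Free.ChooseBasisIndex ℤ (𝓞 K))
      (Module.Free.ChooseBasisIndex ℤ (𝓞 K)) ℤ, ((M.det : ℤ) : ZMod m) =
      ((Int.castRingHom (ZMod m)).mapMatrix M).det := fun M =>
    (Int.castRingHom (ZMod m)).map_det M
  rw [h1, h1]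
  congr 1
  rw [map_add, map_mul, map_natCast, map_add, map_mul, map_natCast]
  have : ((m : ℕ) : Matrix (Module.Free.ChooseBasisIndex ℤ (𝓞 K))
      (Module.Free.ChooseBasisIndex ℤ (𝓞 K)) (ZMod m)) = 0 := by
    ext i j
    rw [Matrix.natCast_apply]
    simp
  rw [this, zero_mul, add_zero]

theorem normZ_eq_of_sub_mem {m : ℕ} {x y : 𝓞 K} (h : x - y ∈ span {(m : 𝓞 K)}) :
    normZ m x = normZ m y := by
  obtain ⟨z, hz⟩ := mem_span_singleton'.mp h
  have : x = y + (m : 𝓞 K) * z := by rw [mul_comm, hz]; ring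
  rw [this, normZ_add_mul]

end NormZ

/-! ### Residues modulo `m`, choices, reindexing of coset sums -/

section Rm

variable (K) in
/-- The ideal generated by the integer `m`. -/
abbrev mIdeal (m : ℕ) : Ideal (𝓞 K) := span {(m : 𝓞 K)}

variable (K) in
/-- The finite ring `𝓞 K / m`. -/
abbrev Rm (m : ℕ) : Type _ := 𝓞 K ⧸ mIdeal K m

theorem mIdeal_ne_bot (m : ℕ) [NeZero m] : mIdeal K m ≠ ⊥ := by
  rw [Ne, span_singleton_eq_bot]
  exact_mod_cast NeZero.ne m

instance (m : ℕ) [NeZero m] : Finite (Rm K m) :=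
  Ideal.finiteQuotientOfFreeOfNeBot _ (mIdeal_ne_bot m)

/-- The norm on `𝓞 K / m` with values in `ℤ / m`. -/
noncomputable def resNorm (m : ℕ) : Rm K m →* ZMod m where
  toFun r := Quotient.liftOn' r (normZ m) (fun x y h => by
    apply normZ_eq_of_sub_mem
    have := (Submodule.quotientRel_def (mIdeal K m)).mp h
    exact this)
  map_one' := by
    show Quotient.liftOn' (Ideal.Quotient.mk (mIdeal K m) 1) _ _ = 1
    exact map_one (normZ m)
  map_mul' r r' := by
    obtain ⟨x, rfl⟩ := Ideal.Quotient.mk_surjective r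
    obtain ⟨y, rfl⟩ := Ideal.Quotient.mk_surjective r'
    show Quotient.liftOn' (Ideal.Quotient.mk (mIdeal K m) (x * y)) _ _ = _
    exact map_mul (normZ m) x y

@[simp] theorem resNorm_mk (m : ℕ) (x : 𝓞 K) :
    resNorm m (Ideal.Quotient.mk (mIdeal K m) x) = normZ m x := rfl

end Rm

section Coprime

theorem coprime_absNorm_of_isCoprime (m : ℕ) {I : Ideal (𝓞 K)} (hI : I ≠ ⊥)
    (h : IsCoprime I (mIdeal K m)) : Nat.Coprime (absNorm I) m := by
  have hmap : (span {(m : ℤ)} : Ideal ℤ).map (algebraMap ℤ (𝓞 K)) = mIdeal K m := by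
    rw [Ideal.map_span, Set.image_singleton]
    simp
  have h1 := isCoprime_relNorm (span {(m : ℤ)} : Ideal ℤ) I hI (by rwa [hmap])
  rw [Ideal.relNorm_int, Ideal.isCoprime_span_singleton_iff] at h1
  exact Nat.isCoprime_iff_coprime.mp h1

theorem isCoprime_of_coprime_absNorm (m : ℕ) {I : Ideal (𝓞 K)}
    (h : Nat.Coprime (absNorm I) m) : IsCoprime I (mIdeal K m) := by
  rw [Ideal.isCoprime_iff_exists]
  have h1 : IsCoprime ((absNorm I : ℕ) : ℤ) (m : ℤ) := Nat.isCoprime_iff_coprime.mpr h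
  obtain ⟨u, v, huv⟩ := h1
  refine ⟨(u : 𝓞 K) * (absNorm I : 𝓞 K), Ideal.mul_mem_left _ _ (Ideal.absNorm_mem I),
    (v : 𝓞 K) * (m : 𝓞 K), Ideal.mul_mem_left _ _ (Ideal.mem_span_singleton_self _), ?_⟩
  have := congrArg (Int.cast : ℤ → 𝓞 K) huv
  push_cast at this
  exact this

omit [NumberField K] in
theorem isUnit_mk_of_isCoprime (m : ℕ) {x : 𝓞 K} (h : IsCoprime (span {x}) (mIdeal K m)) :
    IsUnit (Ideal.Quotient.mk (mIdeal K m) x) := by
  rw [Ideal.isCoprime_span_singleton_iff] at h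
  obtain ⟨u, v, huv⟩ := h
  refine IsUnit.of_mul_eq_one (Ideal.Quotient.mk (mIdeal K m) u) ?_
  have h1 := congrArg (Ideal.Quotient.mk (mIdeal K m)) huv
  rw [map_add, map_mul, map_mul, map_one] at h1
  have h2 : Ideal.Quotient.mk (mIdeal K m) (m : 𝓞 K) = 0 :=
    Ideal.Quotient.eq_zero_iff_mem.mpr (Ideal.mem_span_singleton_self _)
  rw [h2, mul_zero, add_zero] at h1
  rw [mul_comm]
  exact h1

end Coprime

section Choice

variable (K) (m : ℕ) [NeZero m]

theorem exists_b (C : ClassGroup (𝓞 K)) : ∃ b : (Ideal (𝓞 K))⁰,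
    ClassGroup.mk0 b = C⁻¹ ∧ IsCoprime (b : Ideal (𝓞 K)) (mIdeal K m) :=
  exists_mk0_eq_and_isCoprime (mIdeal K m) (mIdeal_ne_bot m) C⁻¹

/-- A chosen integral ideal in the class `C⁻¹`, prime to `m`. -/
noncomputable def bOf (C : ClassGroup (𝓞 K)) : (Ideal (𝓞 K))⁰ := (exists_b K m C).choose

theorem mk0_bOf (C : ClassGroup (𝓞 K)) : ClassGroup.mk0 (bOf K m C) = C⁻¹ :=
  (exists_b K m C).choose_spec.1

theorem isCoprime_bOf (C : ClassGroup (𝓞 K)) :
    IsCoprime (bOf K m C : Ideal (𝓞 K)) (mIdeal K m) :=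
  (exists_b K m C).choose_spec.2

omit [NumberField K] [NeZero m] in
variable {K m} in
theorem exists_rep {b : Ideal (𝓞 K)} (hb : IsCoprime b (mIdeal K m)) (r : Rm K m) :
    ∃ x ∈ b, Ideal.Quotient.mk (mIdeal K m) x = r := by
  obtain ⟨z, rfl⟩ := Ideal.Quotient.mk_surjective r
  obtain ⟨i, hi, j, hj, hij⟩ := Ideal.isCoprime_iff_exists.mp hb
  refine ⟨z * i, Ideal.mul_mem_left _ _ hi, ?_⟩
  have h1 : z = z * i + z * j := by rw [← mul_add, hij, mul_one]
  have h2 : Ideal.Quotient.mk (mIdeal K m) (z * j) = 0 :=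
    Ideal.Quotient.eq_zero_iff_mem.mpr (Ideal.mul_mem_left _ _ hj)
  conv_rhs => rw [h1, map_add, h2, add_zero]

/-- A chosen representative in `bOf K m C` of the residue `r` modulo `m`. -/
noncomputable def rep (C : ClassGroup (𝓞 K)) (r : Rm K m) : 𝓞 K :=
  (exists_rep (isCoprime_bOf K m C) r).choose

theorem rep_mem (C : ClassGroup (𝓞 K)) (r : Rm K m) :
    rep K m C r ∈ (bOf K m C : Ideal (𝓞 K)) :=
  (exists_rep (isCoprime_bOf K m C) r).choose_spec.1

theorem mk_rep (C : ClassGroup (𝓞 K)) (r : Rm K m) :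
    Ideal.Quotient.mk (mIdeal K m) (rep K m C r) = r :=
  (exists_rep (isCoprime_bOf K m C) r).choose_spec.2

/-- The ideal `m * bOf K m C`. -/
noncomputable def mb (C : ClassGroup (𝓞 K)) : (Ideal (𝓞 K))⁰ :=
  ⟨mIdeal K m, mem_nonZeroDivisors_of_ne_zero (mIdeal_ne_bot m)⟩ * bOf K m C

theorem coe_mb (C : ClassGroup (𝓞 K)) :
    (mb K m C : Ideal (𝓞 K)) = mIdeal K m * (bOf K m C : Ideal (𝓞 K)) := rfl

theorem mem_mb_iff (C : ClassGroup (𝓞 K)) (x : 𝓞 K) :
    x ∈ (mb K m C : Ideal (𝓞 K)) ↔ x ∈ (bOf K m C : Ideal (𝓞 K)) ∧ x ∈ mIdeal K m := by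
  rw [coe_mb, mul_comm, Ideal.mul_eq_inf_of_isCoprime (isCoprime_bOf K m C), Ideal.mem_inf]

end Choice

section Residue

omit [NumberField K] in
theorem sgn_mul_self (σ : Set {w : InfinitePlace K // IsReal w}) : sgn σ * sgn σ = 1 := by
  unfold sgn
  rw [← mul_pow]
  simp

variable (m : ℕ) (b : (Ideal (𝓞 K))⁰) {C : ClassGroup (𝓞 K)} (hb : ClassGroup.mk0 b = C⁻¹)

/-- The norm residue of `(x)/b` in terms of `x`. -/
theorem normRes_quot_mul (x : NZ b) :
    normRes K m (quot b hb x).1 * ((absNorm (b : Ideal (𝓞 K)) : ℕ) : ZMod m) =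
      ((sgn (signSet (mixedEmbedding K (x.1 : K))) : ℤ) : ZMod m) * normZ m x.1 := by
  rw [normZ_apply, norm_int_eq, absNorm_span_eq b hb x]
  push_cast
  rw [← mul_assoc, ← Int.cast_mul, sgn_mul_self, Int.cast_one, one_mul, normRes_apply, mul_comm]

end Residue

section Fiber

theorem mem_idealLattice_mk0 (J : (Ideal (𝓞 K))⁰) (v : mixedSpace K) :
    v ∈ idealLattice K (FractionalIdeal.mk0 K J) ↔
      ∃ y ∈ (J : Ideal (𝓞 K)), mixedEmbedding K (y : K) = v := by
  rw [mem_idealLattice]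
  constructor
  · rintro ⟨y, hy, rfl⟩
    rw [SetLike.mem_coe, FractionalIdeal.coe_mk0, FractionalIdeal.mem_coeIdeal] at hy
    obtain ⟨a, ha, rfl⟩ := hy
    exact ⟨a, ha, rfl⟩
  · rintro ⟨y, hy, rfl⟩
    refine ⟨(y : K), ?_, rfl⟩
    rw [SetLike.mem_coe, FractionalIdeal.coe_mk0, FractionalIdeal.mem_coeIdeal]
    exact ⟨y, hy, rfl⟩

theorem mixedEmbedding_coe_injective :
    Function.Injective (fun x : 𝓞 K => mixedEmbedding K (x : K)) := by
  intro x y h
  exact RingOfIntegers.ext (mixedEmbedding_injective K h)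

variable (m : ℕ) [NeZero m] (C : ClassGroup (𝓞 K))

/-- The elements of `bOf K m C` with residue `r` modulo `m`, in the mixed space. -/
def fiberSet (r : Rm K m) : Set (mixedSpace K) :=
  (fun x : 𝓞 K => mixedEmbedding K (x : K)) ''
    {x | x ∈ (bOf K m C : Ideal (𝓞 K)) ∧ Ideal.Quotient.mk (mIdeal K m) x = r}

theorem mem_fiberSet_iff (r : Rm K m) (x : 𝓞 K) :
    mixedEmbedding K (x : K) ∈ fiberSet m C r ↔
      x ∈ (bOf K m C : Ideal (𝓞 K)) ∧ Ideal.Quotient.mk (mIdeal K m) x = r := by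
  unfold fiberSet
  rw [mixedEmbedding_coe_injective.mem_set_image (f := fun x : 𝓞 K => mixedEmbedding K (x : K))]
  rfl

theorem rep_add_mem_fiberSet (r : Rm K m)
    (y : idealLattice K (FractionalIdeal.mk0 K (mb K m C))) :
    mixedEmbedding K (rep K m C r : K) + (y : mixedSpace K) ∈ fiberSet m C r := by
  obtain ⟨y0, hy0, hy⟩ := (mem_idealLattice_mk0 _ _).mp y.2
  rw [← hy, ← map_add]
  have : ((rep K m C r : 𝓞 K) : K) + (y0 : K) = ((rep K m C r + y0 : 𝓞 K) : K) := by
    push_cast; rfl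
  rw [this, mem_fiberSet_iff]
  rw [mem_mb_iff] at hy0
  refine ⟨Ideal.add_mem _ (rep_mem K m C r) hy0.1, ?_⟩
  rw [map_add, mk_rep, Ideal.Quotient.eq_zero_iff_mem.mpr hy0.2, add_zero]

theorem fiberSet_subset_range (r : Rm K m) :
    fiberSet m C r ⊆ Set.range (fun y : idealLattice K (FractionalIdeal.mk0 K (mb K m C)) =>
      mixedEmbedding K (rep K m C r : K) + (y : mixedSpace K)) := by
  rintro _ ⟨x, ⟨hxb, hxr⟩, rfl⟩
  have hmem : x - rep K m C r ∈ (mb K m C : Ideal (𝓞 K)) := by
    rw [mem_mb_iff]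
    refine ⟨Ideal.sub_mem _ hxb (rep_mem K m C r), ?_⟩
    rw [← Ideal.Quotient.eq_zero_iff_mem, map_sub, hxr, mk_rep, sub_self]
  refine ⟨⟨mixedEmbedding K ((x - rep K m C r : 𝓞 K) : K),
    (mem_idealLattice_mk0 _ _).mpr ⟨_, hmem, rfl⟩⟩, ?_⟩
  show mixedEmbedding K (rep K m C r : K) + mixedEmbedding K ((x - rep K m C r : 𝓞 K) : K) = _
  rw [← map_add]
  congr 1
  push_cast
  ring

open scoped Classical in
/-- **Reindexing of a coset sum.** -/
theorem tsum_fiber (G : mixedSpace K → ℝ) (hG : G 0 = 0) (r : Rm K m) :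
    (Summable (fun x : NZ (bOf K m C) =>
        if Ideal.Quotient.mk (mIdeal K m) x.1 = r then G (mixedEmbedding K (x.1 : K)) else 0) ↔
      Summable (fun y : idealLattice K (FractionalIdeal.mk0 K (mb K m C)) =>
        G (mixedEmbedding K (rep K m C r : K) + (y : mixedSpace K)))) ∧
    ∑' x : NZ (bOf K m C),
        (if Ideal.Quotient.mk (mIdeal K m) x.1 = r then G (mixedEmbedding K (x.1 : K)) else 0) =
      ∑' y : idealLattice K (FractionalIdeal.mk0 K (mb K m C)),
        G (mixedEmbedding K (rep K m C r : K) + (y : mixedSpace K)) := by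
  classical
  set F : mixedSpace K → ℝ := (fiberSet m C r).indicator G with hF
  -- the two parametrisations
  set κ : NZ (bOf K m C) → mixedSpace K := fun x => mixedEmbedding K (x.1 : K) with hκ
  set ι : idealLattice K (FractionalIdeal.mk0 K (mb K m C)) → mixedSpace K :=
    fun y => mixedEmbedding K (rep K m C r : K) + (y : mixedSpace K) with hι
  have hκinj : Function.Injective κ := fun x y h =>
    Subtype.ext (mixedEmbedding_coe_injective h)
  have hιinj : Function.Injective ι := fun x y h => Subtype.ext (add_left_cancel h)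
  have hκF : ∀ x : NZ (bOf K m C), F (κ x) =
      if Ideal.Quotient.mk (mIdeal K m) x.1 = r then G (mixedEmbedding K (x.1 : K)) else 0 := by
    intro x
    simp only [hF, hκ, Set.indicator_apply, mem_fiberSet_iff, x.2.1, true_and]
  have hιF : ∀ y, F (ι y) = G (ι y) := fun y =>
    Set.indicator_of_mem (rep_add_mem_fiberSet m C r y) G
  have hsuppκ : Function.support F ⊆ Set.range κ := by
    intro v hv
    have hvS : v ∈ fiberSet m C r := by
      by_contra h
      exact hv (Set.indicator_of_notMem h G)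
    obtain ⟨x, ⟨hxb, hxr⟩, rfl⟩ := hvS
    refine ⟨⟨x, hxb, ?_⟩, rfl⟩
    rintro rfl
    apply hv
    simp only [hF]
    rw [Set.indicator_apply]
    split_ifs
    · simpa using hG
    · rfl
  have hsuppι : Function.support F ⊆ Set.range ι := by
    intro v hv
    have hvS : v ∈ fiberSet m C r := by
      by_contra h
      exact hv (Set.indicator_of_notMem h G)
    exact fiberSet_subset_range m C r hvS
  constructor
  · have h1 := hκinj.summable_iff (f := F) (fun v hv => by
      by_contra h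
      exact hv (hsuppκ h))
    have h2 := hιinj.summable_iff (f := F) (fun v hv => by
      by_contra h
      exact hv (hsuppι h))
    have e1 : (F ∘ κ) = fun x : NZ (bOf K m C) =>
        if Ideal.Quotient.mk (mIdeal K m) x.1 = r then G (mixedEmbedding K (x.1 : K)) else 0 :=
      funext hκF
    have e2 : (F ∘ ι) = fun y => G (ι y) := funext hιF
    rw [← e1, h1, ← h2, e2]
  · have h1 := hκinj.tsum_eq (f := F) hsuppκ
    have h2 := hιinj.tsum_eq (f := F) hsuppι
    rw [← tsum_congr hκF, h1, ← h2]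
    exact tsum_congr hιF

end Fiber


/-! ### Admissible pairs and the main formula -/

section Main

variable (m : ℕ) [NeZero m]

/-- The type of pairs (residue modulo `m`, sign pattern). -/
abbrev Pair (K : Type*) [Field K] [NumberField K] (m : ℕ) : Type _ :=
  Rm K m × Set {w : InfinitePlace K // IsReal w}

/-- The value of the "signed norm residue" on a pair. -/
noncomputable def nu (p : Pair K m) : ZMod m := ((sgn p.2 : ℤ) : ZMod m) * resNorm m p.1

/-- The admissible pairs for the class `C` and the residue `a`. -/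
noncomputable def adm (C : ClassGroup (𝓞 K)) (a : (ZMod m)ˣ) : Finset (Pair K m) :=
  (Set.toFinite {p : Pair K m |
    nu m p = (a : ZMod m) * ((absNorm (bOf K m C : Ideal (𝓞 K)) : ℕ) : ZMod m)}).toFinset

theorem mem_adm (C : ClassGroup (𝓞 K)) (a : (ZMod m)ˣ) (p : Pair K m) :
    p ∈ adm m C a ↔
      nu m p = (a : ZMod m) * ((absNorm (bOf K m C : Ideal (𝓞 K)) : ℕ) : ZMod m) := by
  unfold adm
  rw [Set.Finite.mem_toFinset]
  rfl

open scoped Classical in
/-- The term of a coset sum. -/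
noncomputable def cosetTerm (eta : mixedSpace K → ℝ) (b : (Ideal (𝓞 K))⁰)
    (σ : Set {w : InfinitePlace K // IsReal w}) (s : ℝ) (x : mixedSpace K) : ℝ :=
  if signSet x = σ then
    eta x * (mixedEmbedding.norm x / (absNorm (b : Ideal (𝓞 K)) : ℝ)) ^ (-s) else 0

theorem cosetTerm_zero (eta : mixedSpace K → ℝ) (b : (Ideal (𝓞 K))⁰)
    (σ : Set {w : InfinitePlace K // IsReal w}) {s : ℝ} (hs : s ≠ 0) :
    cosetTerm eta b σ s 0 = 0 := by
  unfold cosetTerm
  split_ifs
  · rw [map_zero, zero_div, Real.zero_rpow (neg_ne_zero.mpr hs), mul_zero]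
  · rfl

theorem isUnit_absNorm_bOf (C : ClassGroup (𝓞 K)) :
    IsUnit (((absNorm (bOf K m C : Ideal (𝓞 K)) : ℕ) : ZMod m)) := by
  rw [ZMod.isUnit_iff_coprime]
  exact coprime_absNorm_of_isCoprime m (nonZeroDivisors.coe_ne_zero _) (isCoprime_bOf K m C)

theorem normRes_quot_eq_iff (C : ClassGroup (𝓞 K)) (a : (ZMod m)ˣ) (x : NZ (bOf K m C)) :
    normRes K m (quot (bOf K m C) (mk0_bOf K m C) x).1 = (a : ZMod m) ↔
      (Ideal.Quotient.mk (mIdeal K m) x.1, signSet (mixedEmbedding K (x.1 : K))) ∈ adm m C a := by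
  rw [mem_adm, nu, resNorm_mk, ← normRes_quot_mul m (bOf K m C) (mk0_bOf K m C) x]
  exact ((isUnit_absNorm_bOf m C).mul_left_inj).symm

end Main

section ClassSum

variable (m : ℕ) [NeZero m]

theorem summable_cls (C : ClassGroup (𝓞 K)) {s : ℝ} (hs : 1 < s) :
    Summable (fun I : Cls C => ((absNorm (I.1 : Ideal (𝓞 K)) : ℝ)) ^ (-s)) := by
  have h := EulerProduct.summable_absNorm_rpow K hs
  have hinj : Function.Injective (fun I : Cls C => ((I.1 : (Ideal (𝓞 K))⁰) : Ideal (𝓞 K))) :=
    fun I J h => Subtype.ext (Subtype.ext h)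
  exact h.comp_injective hinj

theorem norm_div_eq (C : ClassGroup (𝓞 K)) (x : NZ (bOf K m C)) :
    mixedEmbedding.norm (mixedEmbedding K (x.1 : K)) /
        (absNorm (bOf K m C : Ideal (𝓞 K)) : ℝ) =
      (absNorm ((quot (bOf K m C) (mk0_bOf K m C) x).1 : Ideal (𝓞 K)) : ℝ) := by
  have h1 := norm_toLattice (bOf K m C) x
  rw [coe_toLattice] at h1
  rw [h1, absNorm_span_eq (bOf K m C) (mk0_bOf K m C) x, Nat.cast_mul]
  have : (absNorm (bOf K m C : Ideal (𝓞 K)) : ℝ) ≠ 0 :=
    Nat.cast_ne_zero.mpr (absNorm_ne_zero_of_nonZeroDivisors _)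
  field_simp

open scoped Classical in
/-- **The norm-residue partial zeta function of a class as a finite sum of coset sums.** -/
theorem torsionOrder_mul_classSum (eta : mixedSpace K → ℝ) (h0 : ∀ x, 0 ≤ eta x)
    (hsum : ∀ x, mixedEmbedding.norm x ≠ 0 →
      HasSum (fun u : (𝓞 K)ˣ => eta (u • x)) (torsionOrder K : ℝ))
    (C : ClassGroup (𝓞 K)) (a : (ZMod m)ˣ) {s : ℝ} (hs : 1 < s) :
    (∀ p ∈ adm m C a, Summable fun y : idealLattice K (FractionalIdeal.mk0 K (mb K m C)) =>
      cosetTerm eta (bOf K m C) p.2 s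
        (mixedEmbedding K (rep K m C p.1 : K) + (y : mixedSpace K))) ∧
    (torsionOrder K : ℝ) * ∑' I : Cls C,
        (if normRes K m I.1 = (a : ZMod m) then ((absNorm (I.1 : Ideal (𝓞 K)) : ℝ)) ^ (-s) else 0)
      = ∑ p ∈ adm m C a, ∑' y : idealLattice K (FractionalIdeal.mk0 K (mb K m C)),
          cosetTerm eta (bOf K m C) p.2 s
            (mixedEmbedding K (rep K m C p.1 : K) + (y : mixedSpace K)) := by
  set b := bOf K m C with hbdef
  have hb := mk0_bOf K m C
  have hs0 : s ≠ 0 := by linarith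
  set g : Cls C → ℝ := fun I =>
    if normRes K m I.1 = (a : ZMod m) then ((absNorm (I.1 : Ideal (𝓞 K)) : ℝ)) ^ (-s) else 0
    with hg
  have hg0 : ∀ I, 0 ≤ g I := by
    intro I
    simp only [hg]
    split_ifs
    · exact Real.rpow_nonneg (Nat.cast_nonneg _) _
    · exact le_rfl
  have hgS : Summable g := by
    refine Summable.of_nonneg_of_le hg0 (fun I => ?_) (summable_cls C hs)
    simp only [hg]
    split_ifs
    · exact le_rfl
    · exact Real.rpow_nonneg (Nat.cast_nonneg _) _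
  obtain ⟨hfS, hfE⟩ := orbit_tsum b hb eta h0 hsum g hg0 hgS
  -- the terms
  set T : Pair K m → NZ b → ℝ := fun p x =>
    if Ideal.Quotient.mk (mIdeal K m) x.1 = p.1 then
      cosetTerm eta b p.2 s (mixedEmbedding K (x.1 : K)) else 0 with hT
  have hTnn : ∀ p x, 0 ≤ T p x := by
    intro p x
    simp only [hT, cosetTerm]
    split_ifs
    · exact mul_nonneg (h0 _) (Real.rpow_nonneg
        (div_nonneg (mixedEmbedding.norm_nonneg _) (Nat.cast_nonneg _)) _)
    · exact le_rfl
    · exact le_rfl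
  have hfT : ∀ x : NZ b, eta (mixedEmbedding K (x.1 : K)) * g (quot b hb x) =
      ∑ p ∈ adm m C a, T p x := by
    intro x
    have hcond : ∀ p : Pair K m, T p x =
        if p = (Ideal.Quotient.mk (mIdeal K m) x.1, signSet (mixedEmbedding K (x.1 : K))) then
          eta (mixedEmbedding K (x.1 : K)) *
            (mixedEmbedding.norm (mixedEmbedding K (x.1 : K)) /
              (absNorm (b : Ideal (𝓞 K)) : ℝ)) ^ (-s) else 0 := by
      intro p
      simp only [hT, cosetTerm]
      by_cases h1 : Ideal.Quotient.mk (mIdeal K m) x.1 = p.1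
      · by_cases h2 : signSet (mixedEmbedding K (x.1 : K)) = p.2
        · rw [if_pos h1, if_pos h2, if_pos (Prod.ext h1.symm h2.symm)]
        · rw [if_pos h1, if_neg h2, if_neg]
          intro h
          exact h2 (by rw [h])
      · rw [if_neg h1, if_neg]
        intro h
        exact h1 (by rw [h])
    rw [Finset.sum_congr rfl (fun p _ => hcond p), Finset.sum_ite_eq']
    simp only [hg]
    by_cases h : normRes K m (quot b hb x).1 = (a : ZMod m)
    · rw [if_pos h, if_pos ((normRes_quot_eq_iff m C a x).mp h), norm_div_eq m C x]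
    · rw [if_neg h, if_neg (fun h' => h ((normRes_quot_eq_iff m C a x).mpr h')), mul_zero]
  have hTS : ∀ p ∈ adm m C a, Summable (T p) := by
    intro p hp
    refine Summable.of_nonneg_of_le (hTnn p) (fun x => ?_) hfS
    rw [hfT x]
    exact Finset.single_le_sum (f := fun q => T q x) (fun q _ => hTnn q x) hp
  have hfib := fun p : Pair K m =>
    tsum_fiber m C (cosetTerm eta b p.2 s) (cosetTerm_zero eta b p.2 hs0) p.1
  refine ⟨fun p hp => (hfib p).1.mp (hTS p hp), ?_⟩
  rw [← hfE, tsum_congr hfT, Summable.tsum_finsetSum hTS]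
  exact Finset.sum_congr rfl fun p _ => (hfib p).2

end ClassSum

section Global

variable (m : ℕ) [NeZero m]

omit [NeZero m] in
/-- The partial zeta function of a norm residue as a sum over the ideal classes. -/
theorem partialZeta_eq_sum_classes (a : ZMod m) {s : ℝ} (hs : 1 < s) :
    partialZeta K m a s = ∑ C : ClassGroup (𝓞 K), ∑' I : Cls C,
      (if normRes K m I.1 = a then ((absNorm (I.1 : Ideal (𝓞 K)) : ℝ)) ^ (-s) else 0) := by
  classical
  set h : (Ideal (𝓞 K))⁰ → ℝ := fun 𝔞 =>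
    if normRes K m 𝔞 = a then ((absNorm (𝔞 : Ideal (𝓞 K)) : ℝ)) ^ (-s) else 0 with hh
  have hnn : ∀ 𝔞, 0 ≤ h 𝔞 := by
    intro 𝔞
    simp only [hh]
    split_ifs
    · exact Real.rpow_nonneg (Nat.cast_nonneg _) _
    · exact le_rfl
  have hS : Summable h := by
    have h1 := EulerProduct.summable_absNorm_rpow K hs
    have h2 : Summable (fun 𝔞 : (Ideal (𝓞 K))⁰ => ((absNorm (𝔞 : Ideal (𝓞 K)) : ℝ)) ^ (-s)) :=
      h1.comp_injective Subtype.val_injective
    refine Summable.of_nonneg_of_le hnn (fun 𝔞 => ?_) h2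
    simp only [hh]
    split_ifs
    · exact le_rfl
    · exact Real.rpow_nonneg (Nat.cast_nonneg _) _
  have e1 : partialZeta K m a s = ∑' 𝔞, h 𝔞 := by
    unfold partialZeta
    have := tsum_subtype {𝔞 : (Ideal (𝓞 K))⁰ | normRes K m 𝔞 = a}
      (fun 𝔞 => ((absNorm (𝔞 : Ideal (𝓞 K)) : ℝ)) ^ (-s))
    refine this.trans (tsum_congr fun 𝔞 => ?_)
    simp only [hh, Set.indicator_apply, Set.mem_ofPred_eq]
  let e := Equiv.sigmaFiberEquiv (ClassGroup.mk0 (R := 𝓞 K))
  have hS' : Summable (h ∘ e) := e.summable_iff.mpr hS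
  have e2 : ∑' c, h (e c) = ∑' c, (h ∘ e) c := rfl
  rw [e1, ← e.tsum_eq h, e2, hS'.tsum_sigma, tsum_fintype]
  rfl

open scoped Classical in
/-- **Main theorem (for the assembly Z4).**  `w` times the partial zeta function of the norm
residue `a` is a finite sum, over the classes and the admissible pairs, of coset sums. -/
theorem torsionOrder_mul_partialZeta_eq (eta : mixedSpace K → ℝ) (h0 : ∀ x, 0 ≤ eta x)
    (hsum : ∀ x, mixedEmbedding.norm x ≠ 0 →
      HasSum (fun u : (𝓞 K)ˣ => eta (u • x)) (torsionOrder K : ℝ))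
    (a : (ZMod m)ˣ) {s : ℝ} (hs : 1 < s) :
    (∀ C : ClassGroup (𝓞 K), ∀ p ∈ adm m C a,
      Summable fun y : idealLattice K (FractionalIdeal.mk0 K (mb K m C)) =>
        cosetTerm eta (bOf K m C) p.2 s
          (mixedEmbedding K (rep K m C p.1 : K) + (y : mixedSpace K))) ∧
    (torsionOrder K : ℝ) * partialZeta K m (a : ZMod m) s
      = ∑ C : ClassGroup (𝓞 K), ∑ p ∈ adm m C a,
          ∑' y : idealLattice K (FractionalIdeal.mk0 K (mb K m C)),
            cosetTerm eta (bOf K m C) p.2 s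
              (mixedEmbedding K (rep K m C p.1 : K) + (y : mixedSpace K)) := by
  refine ⟨fun C => (torsionOrder_mul_classSum m eta h0 hsum C a hs).1, ?_⟩
  rw [partialZeta_eq_sum_classes m (a : ZMod m) hs, Finset.mul_sum]
  exact Finset.sum_congr rfl fun C _ => (torsionOrder_mul_classSum m eta h0 hsum C a hs).2

end Global


/-! ### Counting the admissible pairs -/

section Count

variable (m : ℕ) [NeZero m]

variable (K) in
/-- The number of pairs with a given value of `nu`. -/
noncomputable def fiberCard (t : ZMod m) : ℕ := Nat.card {p : Pair K m // nu m p = t}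

theorem card_adm (C : ClassGroup (𝓞 K)) (a : (ZMod m)ˣ) :
    (adm m C a).card =
      fiberCard K m ((a : ZMod m) * ((absNorm (bOf K m C : Ideal (𝓞 K)) : ℕ) : ZMod m)) := by
  unfold adm fiberCard
  rw [← Set.ncard_eq_toFinset_card, ← Nat.card_coe_set_eq]
  rfl

omit [NeZero m] in
theorem nu_mul_left (u : Rm K m) (p : Pair K m) :
    nu m (u * p.1, p.2) = resNorm m u * nu m p := by
  unfold nu
  rw [map_mul]
  ring

omit [NeZero m] in
/-- Invariance under multiplication by the norm of a unit of `𝓞 K / m`. -/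
theorem fiberCard_resNorm_mul (u : (Rm K m)ˣ) (t : ZMod m) :
    fiberCard K m (resNorm m (u : Rm K m) * t) = fiberCard K m t := by
  unfold fiberCard
  refine (Nat.card_congr ?_).symm
  let e : Pair K m ≃ Pair K m := Equiv.prodCongr (Units.mulLeft u) (Equiv.refl _)
  refine e.subtypeEquiv fun p => ?_
  have he : e p = ((u : Rm K m) * p.1, p.2) := rfl
  rw [he, nu_mul_left]
  have hu : IsUnit (resNorm m (u : Rm K m)) := (u.isUnit).map (resNorm m)
  exact (hu.mul_right_inj).symm

omit [NumberField K] in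
theorem sgn_symmDiff_singleton [Finite {w : InfinitePlace K // IsReal w}]
    (σ : Set {w : InfinitePlace K // IsReal w}) (w₀ : {w : InfinitePlace K // IsReal w}) :
    sgn (symmDiff σ {w₀}) = - sgn σ := by
  unfold sgn
  by_cases h : w₀ ∈ σ
  · have h1 : symmDiff σ {w₀} = σ \ {w₀} := by
      ext w
      simp only [Set.mem_symmDiff, Set.mem_singleton_iff, Set.mem_sdiff]
      constructor
      · rintro (⟨h1, h2⟩ | ⟨h1, h2⟩)
        · exact ⟨h1, h2⟩
        · exact absurd (h1 ▸ h) h2
      · rintro ⟨h1, h2⟩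
        exact Or.inl ⟨h1, h2⟩
    have h2 : (σ \ {w₀}).ncard + 1 = σ.ncard := Set.ncard_sdiff_singleton_add_one h (Set.toFinite σ)
    rw [h1, ← h2, pow_succ]
    ring
  · have h1 : symmDiff σ {w₀} = insert w₀ σ := by
      ext w
      simp only [Set.mem_symmDiff, Set.mem_singleton_iff, Set.mem_insert_iff]
      constructor
      · rintro (⟨h1, h2⟩ | ⟨h1, h2⟩)
        · exact Or.inr h1
        · exact Or.inl h1
      · rintro (h1 | h1)
        · exact Or.inr ⟨h1, h1 ▸ h⟩
        · exact Or.inl ⟨h1, fun h2 => h (h2 ▸ h1)⟩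
    rw [h1, Set.ncard_insert_of_notMem h (Set.toFinite σ), pow_succ]
    ring

omit [NeZero m] in
/-- Invariance under a sign change, when there is a real place. -/
theorem fiberCard_neg (w₀ : {w : InfinitePlace K // IsReal w}) (t : ZMod m) :
    fiberCard K m (-t) = fiberCard K m t := by
  unfold fiberCard
  refine (Nat.card_congr ?_).symm
  let f : Set {w : InfinitePlace K // IsReal w} ≃ Set {w : InfinitePlace K // IsReal w} :=
    ⟨fun σ => symmDiff σ {w₀}, fun σ => symmDiff σ {w₀},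
      fun σ => symmDiff_symmDiff_cancel_right _ _, fun σ => symmDiff_symmDiff_cancel_right _ _⟩
  let e : Pair K m ≃ Pair K m := Equiv.prodCongr (Equiv.refl _) f
  refine e.subtypeEquiv fun p => ?_
  have he : e p = (p.1, symmDiff p.2 {w₀}) := rfl
  rw [he]
  unfold nu
  rw [sgn_symmDiff_singleton]
  push_cast
  rw [neg_mul, neg_inj]

omit [NeZero m] in
theorem fiberCard_sgn_mul (σ : Set {w : InfinitePlace K // IsReal w}) (t : ZMod m) :
    fiberCard K m (((sgn σ : ℤ) : ZMod m) * t) = fiberCard K m t := by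
  rcases neg_one_pow_eq_or ℤ σ.ncard with h | h
  · unfold sgn
    rw [h]
    simp
  · have hne : σ.Nonempty := by
      by_contra hne
      rw [Set.not_nonempty_iff_eq_empty] at hne
      rw [hne] at h
      simp at h
    obtain ⟨w₀, _⟩ := hne
    unfold sgn
    rw [h]
    push_cast
    rw [neg_one_mul]
    exact fiberCard_neg m w₀ t

omit [NeZero m] in
/-- The value of `nu` at (the residue and the sign pattern of) a nonzero integer `x`:
it is the residue of the absolute norm of `(x)`. -/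
theorem nu_of_elem (x : 𝓞 K) :
    nu m (Ideal.Quotient.mk (mIdeal K m) x, signSet (mixedEmbedding K (x : K))) =
      ((absNorm (span {x} : Ideal (𝓞 K)) : ℕ) : ZMod m) := by
  unfold nu
  rw [resNorm_mk, normZ_apply, norm_int_eq]
  push_cast
  rw [← mul_assoc, ← Int.cast_mul, sgn_mul_self, Int.cast_one, one_mul]

/-- Two integral ideals prime to `m` in the same class have norm residues with the same
number of pairs above them. -/
theorem fiberCard_normRes_eq_of_mk0_eq {𝔵 𝔶 : (Ideal (𝓞 K))⁰}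
    (hx : IsCoprime (𝔵 : Ideal (𝓞 K)) (mIdeal K m)) (hy : IsCoprime (𝔶 : Ideal (𝓞 K)) (mIdeal K m))
    (h : ClassGroup.mk0 𝔵 = ClassGroup.mk0 𝔶) :
    fiberCard K m (normRes K m 𝔵) = fiberCard K m (normRes K m 𝔶) := by
  obtain ⟨𝔷, hz, hzc⟩ := exists_mk0_eq_and_isCoprime (mIdeal K m) (mIdeal_ne_bot m)
    (ClassGroup.mk0 𝔵)⁻¹
  -- the products are principal
  have hpx : ((𝔵 * 𝔷 : (Ideal (𝓞 K))⁰) : Ideal (𝓞 K)).IsPrincipal := by
    rw [← ClassGroup.mk0_eq_one_iff (SetLike.coe_mem _), map_mul, hz, mul_inv_cancel]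
  have hpy : ((𝔶 * 𝔷 : (Ideal (𝓞 K))⁰) : Ideal (𝓞 K)).IsPrincipal := by
    rw [← ClassGroup.mk0_eq_one_iff (SetLike.coe_mem _), map_mul, hz, ← h, mul_inv_cancel]
  obtain ⟨x, hxgen⟩ := hpx.principal
  obtain ⟨y, hygen⟩ := hpy.principal
  rw [Ideal.submodule_span_eq] at hxgen hygen
  -- residues
  have hnx : normRes K m 𝔵 * normRes K m 𝔷 =
      nu m (Ideal.Quotient.mk (mIdeal K m) x, signSet (mixedEmbedding K (x : K))) := by
    rw [nu_of_elem, ← hxgen, ← map_mul, normRes_apply]
  have hny : normRes K m 𝔶 * normRes K m 𝔷 =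
      nu m (Ideal.Quotient.mk (mIdeal K m) y, signSet (mixedEmbedding K (y : K))) := by
    rw [nu_of_elem, ← hygen, ← map_mul, normRes_apply]
  -- units
  have hux : IsUnit (Ideal.Quotient.mk (mIdeal K m) x) := by
    apply isUnit_mk_of_isCoprime
    rw [← hxgen, Submonoid.coe_mul]
    exact IsCoprime.mul_left hx hzc
  have huy : IsUnit (Ideal.Quotient.mk (mIdeal K m) y) := by
    apply isUnit_mk_of_isCoprime
    rw [← hygen, Submonoid.coe_mul]
    exact IsCoprime.mul_left hy hzc
  have hZ : IsUnit (normRes K m 𝔷) := by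
    rw [normRes_apply, ZMod.isUnit_iff_coprime]
    exact coprime_absNorm_of_isCoprime m (nonZeroDivisors.coe_ne_zero _) hzc
  obtain ⟨Z, hZ'⟩ := hZ
  obtain ⟨ux, hux'⟩ := hux
  obtain ⟨uy, huy'⟩ := huy
  -- solve for the residues
  have ex : normRes K m 𝔵 = ((sgn (signSet (mixedEmbedding K (x : K))) : ℤ) : ZMod m) *
      (resNorm m (ux : Rm K m) * ((Z⁻¹ : (ZMod m)ˣ) : ZMod m)) := by
    have : normRes K m 𝔵 = (normRes K m 𝔵 * normRes K m 𝔷) * ((Z⁻¹ : (ZMod m)ˣ) : ZMod m) := by
      rw [← hZ', mul_assoc, Units.mul_inv, mul_one]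
    rw [this, hnx, nu, hux']
    ring
  have ey : normRes K m 𝔶 = ((sgn (signSet (mixedEmbedding K (y : K))) : ℤ) : ZMod m) *
      (resNorm m (uy : Rm K m) * ((Z⁻¹ : (ZMod m)ˣ) : ZMod m)) := by
    have : normRes K m 𝔶 = (normRes K m 𝔶 * normRes K m 𝔷) * ((Z⁻¹ : (ZMod m)ˣ) : ZMod m) := by
      rw [← hZ', mul_assoc, Units.mul_inv, mul_one]
    rw [this, hny, nu, huy']
    ring
  rw [ex, ey, fiberCard_sgn_mul, fiberCard_sgn_mul, fiberCard_resNorm_mul, fiberCard_resNorm_mul]

omit [NeZero m] in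
theorem isCoprime_of_normRes_eq_unit {𝔞 : (Ideal (𝓞 K))⁰} {a : (ZMod m)ˣ}
    (h : normRes K m 𝔞 = (a : ZMod m)) : IsCoprime (𝔞 : Ideal (𝓞 K)) (mIdeal K m) := by
  apply isCoprime_of_coprime_absNorm
  rw [← ZMod.isUnit_iff_coprime, ← normRes_apply, h]
  exact a.isUnit

/-- **Counting.**  The total number of admissible pairs is the same for all norm residues. -/
theorem sum_card_adm_eq (a a' : (ZMod m)ˣ) (ha : a ∈ normResidues K m)
    (ha' : a' ∈ normResidues K m) :
    ∑ C : ClassGroup (𝓞 K), (adm m C a).card = ∑ C : ClassGroup (𝓞 K), (adm m C a').card := by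
  obtain ⟨𝔞, h𝔞⟩ := ha
  obtain ⟨𝔞', h𝔞'⟩ := ha'
  have hc := isCoprime_of_normRes_eq_unit m h𝔞
  have hc' := isCoprime_of_normRes_eq_unit m h𝔞'
  have h1 : ∀ C : ClassGroup (𝓞 K), (adm m C a).card =
      fiberCard K m (normRes K m (𝔞 * bOf K m C)) := by
    intro C
    rw [card_adm, map_mul, h𝔞, normRes_apply]
  have h1' : ∀ C : ClassGroup (𝓞 K), (adm m C a').card =
      fiberCard K m (normRes K m (𝔞' * bOf K m C)) := by
    intro C
    rw [card_adm, map_mul, h𝔞', normRes_apply]
  let σ : ClassGroup (𝓞 K) ≃ ClassGroup (𝓞 K) :=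
    Equiv.mulRight ((ClassGroup.mk0 𝔞)⁻¹ * ClassGroup.mk0 𝔞')
  have h2 : ∀ C : ClassGroup (𝓞 K), fiberCard K m (normRes K m (𝔞 * bOf K m C)) =
      fiberCard K m (normRes K m (𝔞' * bOf K m (σ C))) := by
    intro C
    apply fiberCard_normRes_eq_of_mk0_eq
    · rw [Submonoid.coe_mul]
      exact IsCoprime.mul_left hc (isCoprime_bOf K m C)
    · rw [Submonoid.coe_mul]
      exact IsCoprime.mul_left hc' (isCoprime_bOf K m (σ C))
    · rw [map_mul, map_mul, mk0_bOf, mk0_bOf]
      show _ = _ * (C * ((ClassGroup.mk0 𝔞)⁻¹ * ClassGroup.mk0 𝔞'))⁻¹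
      rw [mul_inv_rev, mul_inv_rev, inv_inv, ← mul_assoc, ← mul_assoc, mul_inv_cancel, one_mul]
  rw [Finset.sum_congr rfl (fun C _ => h1 C), Finset.sum_congr rfl (fun C _ => h1' C),
    Finset.sum_congr rfl (fun C _ => h2 C)]
  exact Equiv.sum_comp σ (fun C => fiberCard K m (normRes K m (𝔞' * bOf K m C)))

end Count

section Extras

variable (m : ℕ) [NeZero m]

omit [NeZero m] in
theorem one_mem_normResidues : (1 : (ZMod m)ˣ) ∈ normResidues K m :=
  ⟨1, by simp⟩

omit [NeZero m] in
theorem mul_mem_normResidues {a b : (ZMod m)ˣ} (ha : a ∈ normResidues K m)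
    (hb : b ∈ normResidues K m) : a * b ∈ normResidues K m := by
  obtain ⟨𝔞, h𝔞⟩ := ha
  obtain ⟨𝔟, h𝔟⟩ := hb
  exact ⟨𝔞 * 𝔟, by rw [map_mul, h𝔞, h𝔟, Units.val_mul]⟩

omit [NeZero m] in
theorem pow_mem_normResidues {a : (ZMod m)ˣ} (ha : a ∈ normResidues K m) (n : ℕ) :
    a ^ n ∈ normResidues K m := by
  induction n with
  | zero => rw [pow_zero]; exact one_mem_normResidues m
  | succ n ih => rw [pow_succ]; exact mul_mem_normResidues m ih ha

omit [NeZero m] in
theorem inv_mem_normResidues {a : (ZMod m)ˣ} (ha : a ∈ normResidues K m) :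
    a⁻¹ ∈ normResidues K m := by
  obtain ⟨n, hn, han⟩ := (isOfFinOrder_of_finite a).exists_pow_eq_one
  have h1 : a⁻¹ = a ^ (n - 1) := by
    apply inv_eq_of_mul_eq_one_right
    rw [← pow_succ', Nat.sub_add_cancel hn, han]
  rw [h1]
  exact pow_mem_normResidues m ha _

omit [NeZero m] in
theorem absNorm_mIdeal : absNorm (mIdeal K m) = m ^ Module.finrank ℚ K := by
  rw [absNorm_span_singleton]
  have h1 : ((Algebra.norm ℤ ((m : ℕ) : 𝓞 K) : ℤ) : ℚ) = ((m : ℚ)) ^ Module.finrank ℚ K := by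
    rw [Algebra.coe_norm_int]
    have : (((m : ℕ) : 𝓞 K) : K) = algebraMap ℚ K (m : ℚ) := by simp
    rw [this, Algebra.norm_algebraMap]
  have h2 : (Algebra.norm ℤ ((m : ℕ) : 𝓞 K) : ℤ) = ((m ^ Module.finrank ℚ K : ℕ) : ℤ) := by
    have : ((Algebra.norm ℤ ((m : ℕ) : 𝓞 K) : ℤ) : ℚ) = (((m ^ Module.finrank ℚ K : ℕ) : ℤ) : ℚ) := by
      rw [h1]; push_cast; rfl
    exact_mod_cast this
  rw [h2, Int.natAbs_natCast]

theorem absNorm_mb (C : ClassGroup (𝓞 K)) :
    absNorm (mb K m C : Ideal (𝓞 K)) =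
      m ^ Module.finrank ℚ K * absNorm (bOf K m C : Ideal (𝓞 K)) := by
  rw [coe_mb, map_mul, absNorm_mIdeal]

theorem mb_le_bOf (C : ClassGroup (𝓞 K)) :
    (mb K m C : Ideal (𝓞 K)) ≤ (bOf K m C : Ideal (𝓞 K)) := fun x hx =>
  ((mem_mb_iff K m C x).mp hx).1

/-- The points `rep + y` of the coset sums lie in the lattice of `bOf K m C`. -/
theorem rep_add_mem_idealLattice (C : ClassGroup (𝓞 K)) (r : Rm K m)
    (y : idealLattice K (FractionalIdeal.mk0 K (mb K m C))) :
    mixedEmbedding K (rep K m C r : K) + (y : mixedSpace K) ∈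
      idealLattice K (FractionalIdeal.mk0 K (bOf K m C)) := by
  obtain ⟨y0, hy0, hy⟩ := (mem_idealLattice_mk0 _ _).mp y.2
  rw [mem_idealLattice_mk0]
  refine ⟨rep K m C r + y0, Ideal.add_mem _ (rep_mem K m C r) (mb_le_bOf m C hy0), ?_⟩
  rw [← hy, ← map_add]
  congr 1

end Extras


end Fermat.Agent.Lib.CFT.Cheb.IdealParam
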