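/-
helper89 (CHEBOTAREV, interface between WP-Z2 and WP-Z4).  The sign-restricted kernel `kS` and the
bundle `KernelFacts K` of the facts about it which the assembly (`Cheb/PartialZeta.lean`) consumes:
oscillation bounds (`ScaledKernel.OscData`), integrability, independence of the integral of the
sign pattern.  WP-Z2 proves `KernelFacts K` for every number field `K`.
-/
import Mathlib
import Fermat.Agent.Lib.CFT.Cheb.ScaledKernel
import Fermat.Agent.Lib.CFT.Unram.PartialZetaOsc

set_option autoImplicit false

namespace Fermat.Agent.Lib.CFT.Cheb.PartialZeta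

open NumberField NumberField.mixedEmbedding NumberField.InfinitePlace Module MeasureTheory
open scoped Classical
open Fermat.Agent.Lib.CFT.Unram Fermat.Agent.Lib.CFT.Cheb.ScaledKernel

section Kernel

variable {K : Type*} [Field K] [NumberField K]

/-- The kernel `zetaKernel` restricted to the points with a given sign pattern at the real
places (`signSet x = {w real | x_w ≤ 0}`, as in Mathlib). -/
noncomputable def kS (sig : Set {w : InfinitePlace K // IsReal w}) (s : ℝ) (x : mixedSpace K) : ℝ :=
  if signSet x = sig then zetaKernel K s x else 0

omit [NumberField K] in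
theorem signSet_smul (x : mixedSpace K) {c : ℝ} (hc : 0 < c) : signSet (c • x) = signSet x := by
  ext w
  show (c • x).1 w ≤ 0 ↔ x.1 w ≤ 0
  rw [Prod.smul_fst, Pi.smul_apply, smul_eq_mul]
  constructor
  · intro h
    by_contra h'
    rw [not_le] at h'
    exact absurd h (not_le.mpr (mul_pos hc h'))
  · intro h
    exact mul_nonpos_of_nonneg_of_nonpos hc.le h

end Kernel

/-- What the assembly needs from WP-Z2, for a number field `K`. -/
structure KernelFacts (K : Type*) [Field K] [NumberField K] : Prop where
  osc : ∀ sig : Set {w : InfinitePlace K // IsReal w}, OscData (finrank ℚ K) (kS sig)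
  integrable : ∀ (sig : Set {w : InfinitePlace K // IsReal w}) (s : ℝ), 1 < s →
    Integrable (kS sig s) (volume : Measure (mixedSpace K))
  integral_eq : ∀ (sig sig' : Set {w : InfinitePlace K // IsReal w}) (s : ℝ), 1 < s →
    ∫ x : mixedSpace K, kS sig s x = ∫ x : mixedSpace K, kS sig' s x

end Fermat.Agent.Lib.CFT.Cheb.PartialZeta
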