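/-
helper16 (CHEBOTAREV, WP-Z2).  The tent weight on the mixed space with a restriction on the signs
at the real places: the kernel `kern T s x = [signSet x ∈ T] * eta x * N(x)^(-s)` (cut off at
`N(x) ≥ 1`), its oscillation bounds (for `kern T s` and for `kern T s - kern T t`, with a factor
`|s - t|`), integrability, and the independence of the integral of the sign pattern.
Built on the U2 files of the S14 fast track (`Unram.eta`, `Unram.zetaKernel`).
-/
import Mathlib
import Fermat.Agent.Lib.CFT.Unram.PartialZetaInt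
import Fermat.Agent.Lib.CFT.Cheb.ScaledKernel

set_option autoImplicit false

namespace Fermat.Agent.Lib.CFT.Cheb.TentWeight

open NumberField NumberField.mixedEmbedding NumberField.InfinitePlace NumberField.Units
  NumberField.Units.dirichletUnitTheorem Module MeasureTheory
open Fermat.Agent.Lib.CFT.Unram
open scoped Classical

variable (F : Type*) [Field F] [NumberField F]

/-- A sign pattern: the set of real places where a point is negative. -/
abbrev SignPat : Type _ := Set {w : InfinitePlace F // IsReal w}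

/-- The kernel `eta x * N(x)^(-s)` (cut off at `N x ≥ 1`) restricted to the points whose
sign pattern `signSet x` belongs to `T`. -/
noncomputable def kern (T : Set (SignPat F)) (s : ℝ) (x : mixedSpace F) : ℝ :=
  if signSet x ∈ T then zetaKernel F s x else 0

variable {F}

theorem kern_of_mem {T : Set (SignPat F)} {s : ℝ} {x : mixedSpace F} (hx : signSet x ∈ T) :
    kern F T s x = zetaKernel F s x := if_pos hx

theorem kern_of_notMem {T : Set (SignPat F)} {s : ℝ} {x : mixedSpace F} (hx : signSet x ∉ T) :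
    kern F T s x = 0 := if_neg hx

theorem kern_nonneg (T : Set (SignPat F)) (s : ℝ) (x : mixedSpace F) : 0 ≤ kern F T s x := by
  unfold kern
  split_ifs
  · exact zetaKernel_nonneg x
  · exact le_rfl

theorem kern_le_zetaKernel (T : Set (SignPat F)) (s : ℝ) (x : mixedSpace F) :
    kern F T s x ≤ zetaKernel F s x := by
  unfold kern
  split_ifs
  · exact le_rfl
  · exact zetaKernel_nonneg x

theorem kern_le_one (T : Set (SignPat F)) {s : ℝ} (hs : 0 ≤ s) (x : mixedSpace F) :
    kern F T s x ≤ 1 :=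
  (kern_le_zetaKernel T s x).trans (zetaKernel_le_one hs x)

theorem kern_univ (s : ℝ) (x : mixedSpace F) : kern F Set.univ s x = zetaKernel F s x :=
  kern_of_mem (Set.mem_univ _)

theorem kern_eq_zero_of_eta_eq_zero {T : Set (SignPat F)} {s : ℝ} {x : mixedSpace F}
    (hx : eta F x = 0) : kern F T s x = 0 := by
  unfold kern
  split_ifs
  · exact zetaKernel_eq_zero_of_eta_eq_zero hx
  · rfl

/-! ### Sign patterns -/

theorem measurableSet_signSet_mem (w : {w : InfinitePlace F // IsReal w}) :
    MeasurableSet {x : mixedSpace F | w ∈ signSet x} := by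
  have : {x : mixedSpace F | w ∈ signSet x} = {x | x.1 w ≤ 0} := rfl
  rw [this]
  exact measurableSet_le (by fun_prop) measurable_const

theorem measurableSet_signSet_eq (S : SignPat F) :
    MeasurableSet {x : mixedSpace F | signSet x = S} := by
  have : {x : mixedSpace F | signSet x = S} =
      ⋂ w : {w : InfinitePlace F // IsReal w},
        (if w ∈ S then {x : mixedSpace F | w ∈ signSet x} else {x | w ∈ signSet x}ᶜ) := by
    ext x
    simp only [Set.mem_setOf_eq, Set.mem_iInter]
    constructor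
    · rintro rfl w
      split_ifs with h
      · exact h
      · exact h
    · intro h
      ext w
      have := h w
      split_ifs at this with hw
      · exact ⟨fun _ => hw, fun _ => this⟩
      · exact ⟨fun h' => (this h').elim, fun h' => (hw h').elim⟩
  rw [this]
  refine MeasurableSet.iInter fun w => ?_
  split_ifs
  · exact measurableSet_signSet_mem w
  · exact (measurableSet_signSet_mem w).compl

theorem measurableSet_signSet_mem_set (T : Set (SignPat F)) :
    MeasurableSet {x : mixedSpace F | signSet x ∈ T} := by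
  have : {x : mixedSpace F | signSet x ∈ T} = ⋃ S ∈ T, {x | signSet x = S} := by
    ext x
    simp
  rw [this]
  exact MeasurableSet.biUnion (Set.to_countable T) fun S _ => measurableSet_signSet_eq S

theorem measurable_kern (T : Set (SignPat F)) (s : ℝ) : Measurable (kern F T s) := by
  unfold kern
  exact Measurable.ite (measurableSet_signSet_mem_set T) (measurable_zetaKernel s) measurable_const

/-- If `z` is closer to `y` than the size of every real coordinate of `y`, then `y` and `z`
have the same sign pattern. -/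
theorem signSet_eq_of_close {y z : mixedSpace F}
    (h : ∀ w : InfinitePlace F, ‖y - z‖ < normAtPlace w y) : signSet y = signSet z := by
  ext w
  have hw := h w.1
  rw [normAtPlace_apply_of_isReal w.2] at hw
  have h1 : |y.1 w - z.1 w| ≤ ‖y - z‖ := by
    have h2 : ‖(y - z).1‖ ≤ ‖y - z‖ := by
      rw [Prod.norm_def]
      exact le_max_left _ _
    have h3 : ‖(y - z).1 w‖ ≤ ‖(y - z).1‖ := norm_le_pi_norm _ w
    simpa using h3.trans h2
  rw [Real.norm_eq_abs] at hw
  have hlt : |y.1 w - z.1 w| < |y.1 w| := lt_of_le_of_lt h1 hw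
  simp only [signSet, Set.mem_setOf_eq]
  rw [abs_lt] at hlt
  constructor
  · intro hy
    rw [abs_of_nonpos hy] at hlt
    linarith [hlt.1, hlt.2]
  · intro hz
    by_contra hy
    push Not at hy
    rw [abs_of_pos hy] at hlt
    linarith [hlt.1, hlt.2]

/-! ### The far region -/

/-- The radius beyond which the oscillation estimates use the cone structure. -/
noncomputable def farRadius (F : Type*) [Field F] [NumberField F] (δ : ℝ) : ℝ :=
  max (4 * δ / coneConst F) (2 / coneConst F)

theorem farRadius_nonneg {δ : ℝ} (hδ : 0 < δ) : 0 ≤ farRadius F δ :=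
  le_max_of_le_left (div_nonneg (by linarith) coneConst_pos.le)

/-- **The far region.** If `‖y - z‖ ≤ δ`, `‖y‖` is large and one of `y`, `z` is in the support
of `eta`, then all coordinates of `y` and `z` are at least `m = c ‖y‖ / 2 ≥ 1`, and all the
logarithmic quantities of `y` and `z` are close to each other. -/
theorem far_region {δ : ℝ} (hδ : 0 < δ) {y z : mixedSpace F} (hyz : ‖y - z‖ ≤ δ)
    (hy : farRadius F δ < ‖y‖) (h0 : ¬ (eta F y = 0 ∧ eta F z = 0)) :
    1 ≤ coneConst F * ‖y‖ / 2 ∧
    (∀ w : InfinitePlace F, coneConst F * ‖y‖ / 2 ≤ normAtPlace w y ∧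
      coneConst F * ‖y‖ / 2 ≤ normAtPlace w z) ∧
    (coneConst F * ‖y‖ / 2) ^ finrank ℚ F ≤ mixedEmbedding.norm y ∧
    (coneConst F * ‖y‖ / 2) ^ finrank ℚ F ≤ mixedEmbedding.norm z ∧
    |eta F y - eta F z| ≤ lipConst F * (δ / (coneConst F * ‖y‖ / 2)) ∧
    |Real.log (mixedEmbedding.norm y) - Real.log (mixedEmbedding.norm z)| ≤
      (finrank ℚ F : ℝ) * (δ / (coneConst F * ‖y‖ / 2)) ∧
    signSet y = signSet z := by
  set c := coneConst F with hc
  have hc0 : 0 < c := coneConst_pos
  have hc1 : c ≤ 1 := coneConst_le_one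
  set n := finrank ℚ F with hn
  have hR1 : 4 * δ / c ≤ farRadius F δ := le_max_left _ _
  have hR2 : 2 / c ≤ farRadius F δ := le_max_right _ _
  have hδy : 4 * δ < c * ‖y‖ := by
    have : 4 * δ / c < ‖y‖ := lt_of_le_of_lt hR1 hy
    rw [div_lt_iff₀ hc0] at this
    linarith
  have hy2 : 2 < c * ‖y‖ := by
    have : 2 / c < ‖y‖ := lt_of_le_of_lt hR2 hy
    rw [div_lt_iff₀ hc0] at this
    linarith
  set m := c * ‖y‖ / 2 with hm
  have hm1 : 1 ≤ m := by linarith
  have hm0 : 0 < m := by linarith
  have hmδ : δ < m := by linarith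
  -- all coordinates of `y` and `z` are at least `m`
  have hcoord : ∀ w : InfinitePlace F, m ≤ normAtPlace w y ∧ m ≤ normAtPlace w z := by
    intro w
    have hdiff := abs_normAtPlace_sub_le w y z
    rw [abs_le] at hdiff
    by_cases hey : eta F y = 0
    · have hez : eta F z ≠ 0 := fun h => h0 ⟨hey, h⟩
      have h1 := coneConst_mul_norm_le_normAtPlace hez w
      have h2 : ‖y‖ - δ ≤ ‖z‖ := by
        have := norm_sub_norm_le y z
        linarith
      have h3 : c * ‖y‖ - δ ≤ normAtPlace w z := by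
        have h4 : c * (‖y‖ - δ) ≤ c * ‖z‖ := mul_le_mul_of_nonneg_left h2 hc0.le
        have h5 : c * δ ≤ δ := by nlinarith
        linarith
      constructor <;> linarith
    · have h1 := coneConst_mul_norm_le_normAtPlace hey w
      constructor <;> linarith
  have hNy : m ^ n ≤ mixedEmbedding.norm y := pow_le_norm hm0.le fun w => (hcoord w).1
  have hNz : m ^ n ≤ mixedEmbedding.norm z := pow_le_norm hm0.le fun w => (hcoord w).2
  have hT1 : 1 ≤ m ^ n := one_le_pow₀ hm1
  have hNy0 : mixedEmbedding.norm y ≠ 0 := by linarith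
  have hNz0 : mixedEmbedding.norm z ≠ 0 := by linarith
  have hlogc : ∀ w : InfinitePlace F,
      |Real.log (normAtPlace w y) - Real.log (normAtPlace w z)| ≤ δ / m := by
    intro w
    refine (abs_log_sub_log_le hm0 (hcoord w).1 (hcoord w).2).trans ?_
    exact div_le_div_of_nonneg_right ((abs_normAtPlace_sub_le w y z).trans hyz) hm0.le
  refine ⟨hm1, hcoord, hNy, hNz, abs_eta_sub_eta_le hNy0 hNz0 hlogc,
    abs_log_norm_sub_le hNy0 hNz0 hlogc, ?_⟩
  apply signSet_eq_of_close
  intro w
  exact lt_of_le_of_lt hyz (lt_of_lt_of_le hmδ (hcoord w).1)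

/-! ### Oscillation of `kern T s` -/

/-- **Oscillation bound** for the kernel with sign restriction, uniform in `T` and in
`s ∈ [1, 2]`. -/
theorem exists_osc_bound_kern (δ : ℝ) (hδ : 0 < δ) :
    ∃ M : ℝ, 0 ≤ M ∧ ∀ (T : Set (SignPat F)) (s : ℝ), 1 ≤ s → s ≤ 2 →
      ∀ y z : mixedSpace F, ‖y - z‖ ≤ δ →
      |kern F T s y - kern F T s z| ≤ M * ((1 + ‖y‖) ^ (finrank ℚ F + 1))⁻¹ := by
  obtain ⟨M₀, hM₀0, hM₀⟩ := exists_osc_bound (K := F) δ hδ
  set n := finrank ℚ F with hn
  set R := farRadius F δ with hR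
  have hR0 : 0 ≤ R := farRadius_nonneg hδ
  refine ⟨max M₀ ((1 + R) ^ (n + 1)), le_max_of_le_left hM₀0, ?_⟩
  intro T s hs1 hs2 y z hyz
  have hs0 : 0 ≤ s := by linarith
  have hpos : 0 < (1 + ‖y‖) ^ (n + 1) := by positivity
  have hw0 : 0 ≤ ((1 + ‖y‖) ^ (n + 1))⁻¹ := (inv_pos.mpr hpos).le
  by_cases hy : ‖y‖ ≤ R
  · -- bounded region: crude bound
    have h1 : |kern F T s y - kern F T s z| ≤ 1 := by
      rw [abs_le]
      constructor <;>
      linarith [kern_nonneg T s y, kern_nonneg T s z, kern_le_one T hs0 y, kern_le_one T hs0 z]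
    calc |kern F T s y - kern F T s z| ≤ 1 := h1
      _ ≤ (1 + R) ^ (n + 1) * ((1 + ‖y‖) ^ (n + 1))⁻¹ := by
          rw [← div_eq_mul_inv, le_div_iff₀ hpos, one_mul]
          exact pow_le_pow_left₀ (by positivity) (by linarith) _
      _ ≤ max M₀ ((1 + R) ^ (n + 1)) * ((1 + ‖y‖) ^ (n + 1))⁻¹ :=
          mul_le_mul_of_nonneg_right (le_max_right _ _) hw0
  · push Not at hy
    by_cases h0 : eta F y = 0 ∧ eta F z = 0
    · rw [kern_eq_zero_of_eta_eq_zero h0.1, kern_eq_zero_of_eta_eq_zero h0.2, sub_self, abs_zero]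
      positivity
    · obtain ⟨-, -, -, -, -, -, hsign⟩ := far_region hδ hyz hy h0
      by_cases hT : signSet y ∈ T
      · rw [kern_of_mem hT, kern_of_mem (hsign ▸ hT)]
        exact (hM₀ s hs1 hs2 y z hyz).trans
          (mul_le_mul_of_nonneg_right (le_max_left _ _) hw0)
      · rw [kern_of_notMem hT, kern_of_notMem (hsign ▸ hT), sub_self, abs_zero]
        positivity

/-! ### Elementary inequalities for `A ^ (-s) - A ^ (-t)` -/

theorem abs_exp_neg_sub_le (a b : ℝ) :
    |Real.exp (-a) - Real.exp (-b)| ≤ |a - b| * Real.exp (-(min a b)) := by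
  have key : ∀ {a b : ℝ}, a ≤ b →
      |Real.exp (-a) - Real.exp (-b)| ≤ |a - b| * Real.exp (-(min a b)) := by
    intro a b hab
    rw [min_eq_left hab, abs_of_nonpos (by linarith : a - b ≤ 0)]
    have h1 : Real.exp (-b) ≤ Real.exp (-a) := Real.exp_le_exp.mpr (by linarith)
    rw [abs_of_nonneg (by linarith)]
    have h2 : Real.exp (-b) = Real.exp (-a) * Real.exp (-(b - a)) := by
      rw [← Real.exp_add]
      congr 1
      ring
    have h3 : 1 - (b - a) ≤ Real.exp (-(b - a)) := by
      have := Real.add_one_le_exp (-(b - a))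
      linarith
    have h4 : 0 ≤ Real.exp (-a) := (Real.exp_pos _).le
    rw [h2]
    nlinarith
  rcases le_total a b with h | h
  · exact key h
  · have := key h
    rwa [abs_sub_comm, abs_sub_comm b a, min_comm] at this

/-- `u * exp (-κ u) ≤ 1 / κ` -/
theorem mul_exp_neg_le {κ : ℝ} (hκ : 0 < κ) (u : ℝ) : u * Real.exp (-(κ * u)) ≤ 1 / κ := by
  have h1 : κ * u + 1 ≤ Real.exp (κ * u) := Real.add_one_le_exp _
  have h2 : 0 < Real.exp (κ * u) := Real.exp_pos _
  rw [Real.exp_neg, ← div_eq_mul_inv, div_le_div_iff₀ h2 hκ]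
  nlinarith

/-- For `s, t ∈ [1, 2]` and `0 ≤ u`: `|exp(-su) - exp(-tu)| ≤ |s - t| / κ * exp(-(1-κ)u)`. -/
theorem abs_exp_sub_exp_le {s t u κ : ℝ} (hs : 1 ≤ s) (ht : 1 ≤ t) (hu : 0 ≤ u) (hκ : 0 < κ) :
    |Real.exp (-(s * u)) - Real.exp (-(t * u))| ≤
      |s - t| * (1 / κ) * Real.exp (-((1 - κ) * u)) := by
  have h1 := abs_exp_neg_sub_le (s * u) (t * u)
  have h2 : |s * u - t * u| = |s - t| * u := by
    rw [← sub_mul, abs_mul, abs_of_nonneg hu]
  have h3 : Real.exp (-(min (s * u) (t * u))) ≤ Real.exp (-u) := by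
    apply Real.exp_le_exp.mpr
    have : u ≤ min (s * u) (t * u) := le_min (by nlinarith) (by nlinarith)
    linarith
  have h4 : u * Real.exp (-u) ≤ (1 / κ) * Real.exp (-((1 - κ) * u)) := by
    have h5 := mul_exp_neg_le hκ u
    have h6 : Real.exp (-u) = Real.exp (-(κ * u)) * Real.exp (-((1 - κ) * u)) := by
      rw [← Real.exp_add]
      congr 1
      ring
    rw [h6, ← mul_assoc]
    exact mul_le_mul_of_nonneg_right h5 (Real.exp_pos _).le
  calc |Real.exp (-(s * u)) - Real.exp (-(t * u))|
      ≤ |s * u - t * u| * Real.exp (-(min (s * u) (t * u))) := h1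
    _ ≤ (|s - t| * u) * Real.exp (-u) := by
        rw [h2]
        exact mul_le_mul_of_nonneg_left h3 (mul_nonneg (abs_nonneg _) hu)
    _ = |s - t| * (u * Real.exp (-u)) := by ring
    _ ≤ |s - t| * ((1 / κ) * Real.exp (-((1 - κ) * u))) :=
        mul_le_mul_of_nonneg_left h4 (abs_nonneg _)
    _ = |s - t| * (1 / κ) * Real.exp (-((1 - κ) * u)) := by ring

/-- The mixed difference of `exp(-σ u)` in `σ ∈ {s, t}` and `u ∈ {u, v}`. -/
theorem abs_mixed_exp_le {s t u v κ : ℝ} (hs : 1 ≤ s) (hs2 : s ≤ 2) (ht : 1 ≤ t)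
    (hu : 0 ≤ u) (huv : u ≤ v) (hκ : 0 < κ) :
    |(Real.exp (-(s * u)) - Real.exp (-(t * u))) - (Real.exp (-(s * v)) - Real.exp (-(t * v)))| ≤
      |s - t| * (v - u) * (1 + 2 / κ) * Real.exp (-((1 - κ) * u)) := by
  set h := v - u with hh
  have hh0 : 0 ≤ h := by linarith
  have e1 : Real.exp (-(s * v)) = Real.exp (-(s * u)) * Real.exp (-(s * h)) := by
    rw [← Real.exp_add]
    congr 1
    rw [hh]
    ring
  have e2 : Real.exp (-(t * v)) = Real.exp (-(t * u)) * Real.exp (-(t * h)) := by
    rw [← Real.exp_add]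
    congr 1
    rw [hh]
    ring
  have hsplit : (Real.exp (-(s * u)) - Real.exp (-(t * u))) -
      (Real.exp (-(s * v)) - Real.exp (-(t * v))) =
      (Real.exp (-(s * u)) - Real.exp (-(t * u))) * (1 - Real.exp (-(s * h))) +
      Real.exp (-(t * u)) * (Real.exp (-(t * h)) - Real.exp (-(s * h))) := by
    rw [e1, e2]
    ring
  -- first term
  have hA := abs_exp_sub_exp_le hs ht hu hκ
  have hB : |1 - Real.exp (-(s * h))| ≤ 2 * h := by
    have h1 : 1 - s * h ≤ Real.exp (-(s * h)) := by
      have := Real.add_one_le_exp (-(s * h))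
      linarith
    have h2 : Real.exp (-(s * h)) ≤ 1 := by
      rw [Real.exp_le_one_iff]
      nlinarith
    rw [abs_of_nonneg (by linarith)]
    nlinarith
  -- second term
  have hC : Real.exp (-(t * u)) ≤ Real.exp (-u) := Real.exp_le_exp.mpr (by nlinarith)
  have hD : |Real.exp (-(t * h)) - Real.exp (-(s * h))| ≤ |s - t| * h := by
    have h1 := abs_exp_neg_sub_le (t * h) (s * h)
    have h2 : |t * h - s * h| = |s - t| * h := by
      rw [← sub_mul, abs_mul, abs_of_nonneg hh0, abs_sub_comm]
    have h3 : Real.exp (-(min (t * h) (s * h))) ≤ 1 := by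
      rw [Real.exp_le_one_iff]
      have : 0 ≤ min (t * h) (s * h) := le_min (by nlinarith) (by nlinarith)
      linarith
    calc |Real.exp (-(t * h)) - Real.exp (-(s * h))|
        ≤ |t * h - s * h| * Real.exp (-(min (t * h) (s * h))) := h1
      _ ≤ (|s - t| * h) * 1 := by
          rw [h2]
          exact mul_le_mul_of_nonneg_left h3 (mul_nonneg (abs_nonneg _) hh0)
      _ = |s - t| * h := mul_one _
  have hE : Real.exp (-u) ≤ Real.exp (-((1 - κ) * u)) := by
    apply Real.exp_le_exp.mpr
    nlinarith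
  have hexp0 : 0 ≤ Real.exp (-((1 - κ) * u)) := (Real.exp_pos _).le
  rw [hsplit]
  calc |(Real.exp (-(s * u)) - Real.exp (-(t * u))) * (1 - Real.exp (-(s * h))) +
        Real.exp (-(t * u)) * (Real.exp (-(t * h)) - Real.exp (-(s * h)))|
      ≤ |(Real.exp (-(s * u)) - Real.exp (-(t * u))) * (1 - Real.exp (-(s * h)))| +
        |Real.exp (-(t * u)) * (Real.exp (-(t * h)) - Real.exp (-(s * h)))| := abs_add_le _ _
    _ = |Real.exp (-(s * u)) - Real.exp (-(t * u))| * |1 - Real.exp (-(s * h))| +
        Real.exp (-(t * u)) * |Real.exp (-(t * h)) - Real.exp (-(s * h))| := by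
        rw [abs_mul, abs_mul, abs_of_nonneg (Real.exp_pos _).le]
    _ ≤ (|s - t| * (1 / κ) * Real.exp (-((1 - κ) * u))) * (2 * h) +
        Real.exp (-((1 - κ) * u)) * (|s - t| * h) := by
        apply add_le_add
        · exact mul_le_mul hA hB (abs_nonneg _) (by positivity)
        · exact mul_le_mul (hC.trans hE) hD (abs_nonneg _) hexp0
    _ = |s - t| * h * (1 + 2 / κ) * Real.exp (-((1 - κ) * u)) := by ring

theorem rpow_neg_eq_exp {A : ℝ} (hA : 0 < A) (s : ℝ) :
    A ^ (-s) = Real.exp (-(s * Real.log A)) := by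
  rw [Real.rpow_def_of_pos hA]
  congr 1
  ring

/-- `|A^(-s) - A^(-t)| ≤ |s - t| / κ * T^(-(1-κ))` for `1 ≤ T ≤ A`, `s, t ≥ 1`, `0 < κ ≤ 1`. -/
theorem abs_rpow_sub_rpow_le {s t A T κ : ℝ} (hs : 1 ≤ s) (ht : 1 ≤ t) (hT : 1 ≤ T) (hA : T ≤ A)
    (hκ : 0 < κ) (hκ1 : κ ≤ 1) :
    |A ^ (-s) - A ^ (-t)| ≤ |s - t| * (1 / κ) * T ^ (-(1 - κ)) := by
  have hT0 : 0 < T := by linarith
  have hA0 : 0 < A := by linarith
  have hu : 0 ≤ Real.log A := Real.log_nonneg (by linarith)
  have hlog : Real.log T ≤ Real.log A := Real.log_le_log hT0 hA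
  rw [rpow_neg_eq_exp hA0, rpow_neg_eq_exp hA0, rpow_neg_eq_exp hT0]
  refine (abs_exp_sub_exp_le hs ht hu hκ).trans ?_
  apply mul_le_mul_of_nonneg_left _ (by positivity)
  apply Real.exp_le_exp.mpr
  have : (1 - κ) * Real.log T ≤ (1 - κ) * Real.log A :=
    mul_le_mul_of_nonneg_left hlog (by linarith)
  linarith

/-- The mixed difference of `A ^ (-σ)` in `σ ∈ {s, t}` and `A ∈ {A, B}`. -/
theorem abs_mixed_rpow_le {s t A B T κ : ℝ} (hs : 1 ≤ s) (hs2 : s ≤ 2) (ht : 1 ≤ t)
    (hT : 1 ≤ T) (hA : T ≤ A) (hB : T ≤ B) (hκ : 0 < κ) (hκ1 : κ ≤ 1) :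
    |(A ^ (-s) - A ^ (-t)) - (B ^ (-s) - B ^ (-t))| ≤
      |s - t| * |Real.log A - Real.log B| * (1 + 2 / κ) * T ^ (-(1 - κ)) := by
  have hT0 : 0 < T := by linarith
  have key : ∀ {A B : ℝ}, T ≤ A → A ≤ B →
      |(A ^ (-s) - A ^ (-t)) - (B ^ (-s) - B ^ (-t))| ≤
        |s - t| * |Real.log A - Real.log B| * (1 + 2 / κ) * T ^ (-(1 - κ)) := by
    intro A B hA hAB
    have hA0 : 0 < A := by linarith
    have hB0 : 0 < B := by linarith
    have hu : 0 ≤ Real.log A := Real.log_nonneg (by linarith)
    have huv : Real.log A ≤ Real.log B := Real.log_le_log hA0 hAB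
    have hlog : Real.log T ≤ Real.log A := Real.log_le_log hT0 hA
    rw [rpow_neg_eq_exp hA0, rpow_neg_eq_exp hA0, rpow_neg_eq_exp hB0, rpow_neg_eq_exp hB0,
      rpow_neg_eq_exp hT0, abs_of_nonpos (by linarith : Real.log A - Real.log B ≤ 0), neg_sub]
    refine (abs_mixed_exp_le hs hs2 ht hu huv hκ).trans ?_
    apply mul_le_mul_of_nonneg_left _
      (mul_nonneg (mul_nonneg (abs_nonneg _) (by linarith)) (by positivity))
    apply Real.exp_le_exp.mpr
    have : (1 - κ) * Real.log T ≤ (1 - κ) * Real.log A :=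
      mul_le_mul_of_nonneg_left hlog (by linarith)
    linarith
  rcases le_total A B with h | h
  · exact key hA h
  · have := key hB h
    rw [abs_sub_comm (Real.log B), abs_sub_comm] at this
    exact this

/-! ### Oscillation of `kern T s - kern T t` -/

theorem abs_zetaKernel_sub_le {s t : ℝ} (hs : 1 ≤ s) (ht : 1 ≤ t) (x : mixedSpace F) :
    |zetaKernel F s x - zetaKernel F t x| ≤ |s - t| := by
  by_cases hx : 1 ≤ mixedEmbedding.norm x
  · rw [zetaKernel_of_one_le hx, zetaKernel_of_one_le hx, ← mul_sub, abs_mul,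
      abs_of_nonneg (eta_nonneg x)]
    have h1 := abs_rpow_sub_rpow_le hs ht le_rfl hx one_pos le_rfl
    simp only [sub_self, neg_zero, Real.rpow_zero, div_one, mul_one] at h1
    calc eta F x * |mixedEmbedding.norm x ^ (-s) - mixedEmbedding.norm x ^ (-t)|
        ≤ 1 * |s - t| := mul_le_mul (eta_le_one x) h1 (abs_nonneg _) zero_le_one
      _ = |s - t| := one_mul _
  · push Not at hx
    rw [zetaKernel_of_lt_one hx, zetaKernel_of_lt_one hx, sub_self, abs_zero]
    exact abs_nonneg _

theorem abs_kern_sub_le (T : Set (SignPat F)) {s t : ℝ} (hs : 1 ≤ s) (ht : 1 ≤ t)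
    (x : mixedSpace F) : |kern F T s x - kern F T t x| ≤ |s - t| := by
  by_cases hT : signSet x ∈ T
  · rw [kern_of_mem hT, kern_of_mem hT]
    exact abs_zetaKernel_sub_le hs ht x
  · rw [kern_of_notMem hT, kern_of_notMem hT, sub_self, abs_zero]
    exact abs_nonneg _

/-- The exponent of the weight in the oscillation bound of `kern T s - kern T t`. -/
noncomputable def wExp (F : Type*) [Field F] [NumberField F] : ℝ := (finrank ℚ F : ℝ) + 1 / 2

theorem finrank_lt_wExp : (finrank ℝ (mixedSpace F) : ℝ) < wExp F := by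
  rw [mixedEmbedding.finrank, wExp]
  linarith

theorem wExp_pos : 0 < wExp F := by
  have : (0 : ℝ) ≤ (finrank ℚ F : ℝ) := Nat.cast_nonneg _
  rw [wExp]
  linarith

/-- **Oscillation bound for the difference** `kern T s - kern T t`, with a factor `|s - t|`,
uniform in `T` and in `s, t ∈ [1, 2]`. -/
theorem exists_osc_bound_kern_sub (δ : ℝ) (hδ : 0 < δ) :
    ∃ M : ℝ, 0 ≤ M ∧ ∀ (T : Set (SignPat F)) (s t : ℝ), 1 ≤ s → s ≤ 2 → 1 ≤ t → t ≤ 2 →
      ∀ y z : mixedSpace F, ‖y - z‖ ≤ δ →
      |(kern F T s y - kern F T t y) - (kern F T s z - kern F T t z)| ≤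
        M * |s - t| * (1 + ‖y‖) ^ (-(wExp F)) := by
  set c := coneConst F with hc
  have hc0 : 0 < c := coneConst_pos
  have hc1 : c ≤ 1 := coneConst_le_one
  set n := finrank ℚ F with hn
  have hn0 : (0 : ℝ) < (n : ℝ) := finrank_pos_real
  have hn1 : (1 : ℝ) ≤ (n : ℝ) := by
    have : 1 ≤ n := finrank_pos
    exact_mod_cast this
  set r := wExp F with hr
  have hr0 : 0 < r := wExp_pos
  set R := farRadius F δ with hR
  have hR0 : 0 ≤ R := farRadius_nonneg hδ
  have hlip := lipConst_nonneg (K := F)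
  set κ : ℝ := 1 / (2 * (n : ℝ)) with hκdef
  have hκ0 : 0 < κ := by positivity
  have hκ1 : κ ≤ 1 := by
    rw [hκdef, div_le_one (by positivity)]
    linarith
  have hκn : κ * (n : ℝ) = 1 / 2 := by
    rw [hκdef]
    field_simp
  set K₁ := δ * (lipConst F * (1 / κ) + (n : ℝ) * (1 + 2 / κ)) with hK₁
  have hK₁0 : 0 ≤ K₁ := by positivity
  set M₁ := K₁ * (c / 4) ^ (-r) with hM₁
  have hM₁0 : 0 ≤ M₁ := by positivity
  set M₂ := 2 * (1 + R) ^ r with hM₂
  have hM₂0 : 0 ≤ M₂ := by positivity
  refine ⟨max M₂ M₁, le_max_of_le_left hM₂0, ?_⟩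
  intro T s t hs1 hs2 ht1 ht2 y z hyz
  have hw0 : 0 ≤ (1 + ‖y‖) ^ (-r) := by positivity
  have hst0 : 0 ≤ |s - t| := abs_nonneg _
  by_cases hy : ‖y‖ ≤ R
  · -- bounded region: crude bound
    have h1 : |(kern F T s y - kern F T t y) - (kern F T s z - kern F T t z)| ≤ 2 * |s - t| := by
      calc |(kern F T s y - kern F T t y) - (kern F T s z - kern F T t z)|
          ≤ |kern F T s y - kern F T t y| + |kern F T s z - kern F T t z| := abs_sub _ _
        _ ≤ |s - t| + |s - t| :=
          add_le_add (abs_kern_sub_le T hs1 ht1 y) (abs_kern_sub_le T hs1 ht1 z)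
        _ = 2 * |s - t| := by ring
    have h2 : 1 ≤ (1 + R) ^ r * (1 + ‖y‖) ^ (-r) := by
      rw [Real.rpow_neg (by positivity), ← div_eq_mul_inv, le_div_iff₀ (by positivity), one_mul]
      exact Real.rpow_le_rpow (by positivity) (by linarith) hr0.le
    calc |(kern F T s y - kern F T t y) - (kern F T s z - kern F T t z)| ≤ 2 * |s - t| := h1
      _ = 2 * |s - t| * 1 := (mul_one _).symm
      _ ≤ 2 * |s - t| * ((1 + R) ^ r * (1 + ‖y‖) ^ (-r)) :=
          mul_le_mul_of_nonneg_left h2 (by positivity)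
      _ = M₂ * |s - t| * (1 + ‖y‖) ^ (-r) := by rw [hM₂]; ring
      _ ≤ max M₂ M₁ * |s - t| * (1 + ‖y‖) ^ (-r) :=
          mul_le_mul_of_nonneg_right (mul_le_mul_of_nonneg_right (le_max_left _ _) hst0) hw0
  · push Not at hy
    by_cases h0 : eta F y = 0 ∧ eta F z = 0
    · rw [kern_eq_zero_of_eta_eq_zero h0.1, kern_eq_zero_of_eta_eq_zero h0.1,
        kern_eq_zero_of_eta_eq_zero h0.2, kern_eq_zero_of_eta_eq_zero h0.2]
      simp only [sub_self, abs_zero]
      positivity
    · obtain ⟨hm1, hcoord, hNy, hNz, heta, hlogN, hsign⟩ := far_region hδ hyz hy h0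
      by_cases hT : signSet y ∈ T
      swap
      · rw [kern_of_notMem hT, kern_of_notMem hT, kern_of_notMem (hsign ▸ hT),
          kern_of_notMem (hsign ▸ hT)]
        simp only [sub_self, abs_zero]
        positivity
      rw [kern_of_mem hT, kern_of_mem hT, kern_of_mem (hsign ▸ hT), kern_of_mem (hsign ▸ hT)]
      set m := c * ‖y‖ / 2 with hm
      have hm0 : 0 < m := by linarith
      set Tn := m ^ n with hTn
      have hT1 : 1 ≤ Tn := one_le_pow₀ hm1
      have hNy1 : 1 ≤ mixedEmbedding.norm y := hT1.trans hNy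
      have hNz1 : 1 ≤ mixedEmbedding.norm z := hT1.trans hNz
      rw [zetaKernel_of_one_le hNy1, zetaKernel_of_one_le hNy1, zetaKernel_of_one_le hNz1,
        zetaKernel_of_one_le hNz1]
      set Gy := mixedEmbedding.norm y ^ (-s) - mixedEmbedding.norm y ^ (-t) with hGy
      set Gz := mixedEmbedding.norm z ^ (-s) - mixedEmbedding.norm z ^ (-t) with hGz
      have hsplit : (eta F y * mixedEmbedding.norm y ^ (-s) - eta F y * mixedEmbedding.norm y ^ (-t))
          - (eta F z * mixedEmbedding.norm z ^ (-s) - eta F z * mixedEmbedding.norm z ^ (-t)) =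
          (eta F y - eta F z) * Gy + eta F z * (Gy - Gz) := by
        rw [hGy, hGz]
        ring
      -- the decay factor
      have hdecay : Tn ^ (-(1 - κ)) = m ^ (-((n : ℝ) - 1 / 2)) := by
        rw [hTn, ← Real.rpow_natCast, ← Real.rpow_mul hm0.le]
        congr 1
        have : (n : ℝ) * (-(1 - κ)) = -((n : ℝ) - κ * (n : ℝ)) := by ring
        rw [this, hκn]
      have hG1 : |Gy| ≤ |s - t| * (1 / κ) * m ^ (-((n : ℝ) - 1 / 2)) := by
        rw [← hdecay]
        exact abs_rpow_sub_rpow_le hs1 ht1 hT1 hNy hκ0 hκ1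
      have hG2 : |Gy - Gz| ≤
          |s - t| * ((n : ℝ) * (δ / m)) * (1 + 2 / κ) * m ^ (-((n : ℝ) - 1 / 2)) := by
        rw [← hdecay]
        refine (abs_mixed_rpow_le hs1 hs2 ht1 hT1 hNy hNz hκ0 hκ1).trans ?_
        apply mul_le_mul_of_nonneg_right _ (by positivity)
        apply mul_le_mul_of_nonneg_right _ (by positivity)
        exact mul_le_mul_of_nonneg_left hlogN hst0
      have hmr : m⁻¹ * m ^ (-((n : ℝ) - 1 / 2)) = m ^ (-r) := by
        rw [← Real.rpow_neg_one, ← Real.rpow_add hm0]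
        congr 1
        rw [hr, wExp]
        ring
      have hmain : |(eta F y - eta F z) * Gy + eta F z * (Gy - Gz)| ≤ K₁ * |s - t| * m ^ (-r) := by
        calc |(eta F y - eta F z) * Gy + eta F z * (Gy - Gz)|
            ≤ |(eta F y - eta F z) * Gy| + |eta F z * (Gy - Gz)| := abs_add_le _ _
          _ = |eta F y - eta F z| * |Gy| + eta F z * |Gy - Gz| := by
              rw [abs_mul, abs_mul, abs_of_nonneg (eta_nonneg z)]
          _ ≤ (lipConst F * (δ / m)) * (|s - t| * (1 / κ) * m ^ (-((n : ℝ) - 1 / 2))) +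
              1 * (|s - t| * ((n : ℝ) * (δ / m)) * (1 + 2 / κ) * m ^ (-((n : ℝ) - 1 / 2))) := by
              apply add_le_add
              · exact mul_le_mul heta hG1 (abs_nonneg _) (by positivity)
              · exact mul_le_mul (eta_le_one z) hG2 (abs_nonneg _) zero_le_one
          _ = K₁ * |s - t| * (m⁻¹ * m ^ (-((n : ℝ) - 1 / 2))) := by
              rw [hK₁, div_eq_mul_inv]
              ring
          _ = K₁ * |s - t| * m ^ (-r) := by rw [hmr]
      -- compare `m` with `1 + ‖y‖`
      have hy1 : 1 ≤ ‖y‖ := by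
        have : 2 / c ≤ R := le_max_right _ _
        have h2 : 2 ≤ 2 / c := by
          rw [le_div_iff₀ hc0]
          linarith
        linarith
      have hmy : c / 4 * (1 + ‖y‖) ≤ m := by
        have h3 : c * 1 ≤ c * ‖y‖ := mul_le_mul_of_nonneg_left hy1 hc0.le
        rw [hm]
        linarith
      have hmr2 : m ^ (-r) ≤ (c / 4) ^ (-r) * (1 + ‖y‖) ^ (-r) := by
        rw [← Real.mul_rpow (by positivity) (by positivity)]
        exact Real.rpow_le_rpow_of_nonpos (by positivity) hmy (by linarith)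
      refine (le_of_eq (congrArg abs hsplit)).trans ?_
      calc |(eta F y - eta F z) * Gy + eta F z * (Gy - Gz)| ≤ K₁ * |s - t| * m ^ (-r) := hmain
        _ ≤ K₁ * |s - t| * ((c / 4) ^ (-r) * (1 + ‖y‖) ^ (-r)) :=
            mul_le_mul_of_nonneg_left hmr2 (by positivity)
        _ = M₁ * |s - t| * (1 + ‖y‖) ^ (-r) := by rw [hM₁]; ring
        _ ≤ max M₂ M₁ * |s - t| * (1 + ‖y‖) ^ (-r) :=
            mul_le_mul_of_nonneg_right (mul_le_mul_of_nonneg_right (le_max_right _ _) hst0) hw0

/-- The oscillation data of the kernel `kern F T`, in the shape consumed by WP-Z4. -/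
theorem oscData_kern (T : Set (SignPat F)) :
    ScaledKernel.OscData (finrank ℚ F) (kern F T) where
  osc δ hδ := by
    obtain ⟨M, hM0, hM⟩ := exists_osc_bound_kern (F := F) δ hδ
    exact ⟨M, hM0, fun s hs1 hs2 y z hyz => hM T s hs1 hs2 y z hyz⟩
  osc_sub δ hδ := by
    obtain ⟨M, hM0, hM⟩ := exists_osc_bound_kern_sub (F := F) δ hδ
    exact ⟨M, hM0, fun s hs1 hs2 t ht1 ht2 y z hyz => hM T s t hs1 hs2 ht1 ht2 y z hyz⟩

/-! ### Integrability -/

theorem integrable_kern (T : Set (SignPat F)) {s : ℝ} (hs : 1 < s) :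
    Integrable (kern F T s) (volume : Measure (mixedSpace F)) := by
  refine (integrable_zetaKernel hs).mono' (measurable_kern T s).aestronglyMeasurable ?_
  refine Filter.Eventually.of_forall fun x => ?_
  rw [Real.norm_eq_abs, abs_of_nonneg (kern_nonneg T s x)]
  exact kern_le_zetaKernel T s x

/-! ### Sign flips -/

theorem logMap_negAt (S : SignPat F) (x : mixedSpace F) : logMap (negAt S x) = logMap x := by
  ext w
  simp only [logMap_apply, normAtPlace_negAt, norm_negAt]

theorem eta_negAt (S : SignPat F) (x : mixedSpace F) : eta F (negAt S x) = eta F x := by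
  unfold eta logCoord
  rw [norm_negAt, logMap_negAt]

theorem zetaKernel_negAt (S : SignPat F) (s : ℝ) (x : mixedSpace F) :
    zetaKernel F s (negAt S x) = zetaKernel F s x := by
  unfold zetaKernel
  rw [norm_negAt, eta_negAt]

theorem real_ne_zero_of_norm_ne_zero {x : mixedSpace F} (hx : mixedEmbedding.norm x ≠ 0)
    (w : {w : InfinitePlace F // IsReal w}) : x.1 w ≠ 0 := by
  have h := mixedEmbedding.norm_ne_zero_iff.mp hx w.1
  rw [normAtPlace_apply_of_isReal w.2] at h
  exact norm_ne_zero_iff.mp h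

theorem signSet_negAt (S : SignPat F) {x : mixedSpace F} (hx : mixedEmbedding.norm x ≠ 0) :
    signSet (negAt S x) = symmDiff S (signSet x) := by
  ext w
  have hw := real_ne_zero_of_norm_ne_zero hx w
  simp only [signSet, Set.mem_symmDiff, Set.mem_setOf_eq]
  by_cases hS : w ∈ S
  · rw [negAt_apply_isReal_and_mem _ hS]
    constructor
    · intro h
      left
      refine ⟨hS, ?_⟩
      intro h'
      exact hw (le_antisymm h' (by linarith))
    · rintro (⟨-, h⟩ | ⟨-, h⟩)
      · push Not at h
        linarith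
      · exact (h hS).elim
  · rw [negAt_apply_isReal_and_notMem _ hS]
    constructor
    · intro h
      right
      exact ⟨h, hS⟩
    · rintro (⟨h, -⟩ | ⟨h, -⟩)
      · exact (hS h).elim
      · exact h

theorem zetaKernel_eq_zero_of_norm_eq_zero {s : ℝ} {x : mixedSpace F}
    (hx : mixedEmbedding.norm x = 0) : zetaKernel F s x = 0 :=
  zetaKernel_of_lt_one (by rw [hx]; exact zero_lt_one)

/-- The effect of a sign flip on the kernels attached to a single sign pattern. -/
theorem kern_singleton_negAt (S S' : SignPat F) (s : ℝ) (x : mixedSpace F) :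
    kern F {S'} s (negAt S x) = kern F {symmDiff S S'} s x := by
  by_cases hx : mixedEmbedding.norm x = 0
  · have h1 : kern F {S'} s (negAt S x) = 0 := by
      unfold kern
      split_ifs
      · exact zetaKernel_eq_zero_of_norm_eq_zero (by rw [norm_negAt]; exact hx)
      · rfl
    have h2 : kern F {symmDiff S S'} s x = 0 := by
      unfold kern
      split_ifs
      · exact zetaKernel_eq_zero_of_norm_eq_zero hx
      · rfl
    rw [h1, h2]
  · unfold kern
    rw [zetaKernel_negAt, signSet_negAt S hx]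
    have hiff : symmDiff S (signSet x) ∈ ({S'} : Set (SignPat F)) ↔
        signSet x ∈ ({symmDiff S S'} : Set (SignPat F)) := by
      simp only [Set.mem_singleton_iff]
      constructor
      · intro h
        rw [← h, symmDiff_symmDiff_cancel_left]
      · intro h
        rw [h, symmDiff_symmDiff_cancel_left]
    by_cases h : signSet x ∈ ({symmDiff S S'} : Set (SignPat F))
    · rw [if_pos h, if_pos (hiff.mpr h)]
    · rw [if_neg h, if_neg (fun h' => h (hiff.mp h'))]

/-- The integral of the kernel attached to a single sign pattern does not depend on the sign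
pattern. -/
theorem integral_kern_singleton_eq (S S' : SignPat F) (s : ℝ) :
    ∫ x, kern F {S} s x = ∫ x, kern F {S'} s x := by
  have h1 : ∀ x, kern F {S} s (negAt (symmDiff S S') x) = kern F {S'} s x := by
    intro x
    rw [kern_singleton_negAt, symmDiff_comm S S', symmDiff_symmDiff_cancel_right]
  have h2 := (volume_preserving_negAt (K := F) (s := symmDiff S S')).integral_comp'
    (f := (negAt (symmDiff S S')).toHomeomorph.toMeasurableEquiv) (kern F {S} s)
  simp only [Homeomorph.toMeasurableEquiv_coe, ContinuousLinearEquiv.coe_toHomeomorph] at h2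
  rw [← h2]
  exact integral_congr_ae (Filter.Eventually.of_forall h1)

/-- Decomposition of `kern T s` as the sum of the kernels of the sign patterns in `T`. -/
theorem kern_eq_sum (T : Set (SignPat F)) (s : ℝ) (x : mixedSpace F) :
    kern F T s x = ∑ S ∈ Finset.univ.filter (· ∈ T), kern F {S} s x := by
  have h : ∀ S : SignPat F, kern F {S} s x = if S = signSet x then zetaKernel F s x else 0 := by
    intro S
    unfold kern
    simp only [Set.mem_singleton_iff, eq_comm]
  simp_rw [h]
  rw [Finset.sum_ite_eq' (Finset.univ.filter (· ∈ T)) (signSet x)]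
  simp only [Finset.mem_filter, Finset.mem_univ, true_and]
  rfl

/-- The integral of `kern T s` in terms of the integral for a single sign pattern. -/
theorem integral_kern (T : Set (SignPat F)) (S₀ : SignPat F) {s : ℝ} (hs : 1 < s) :
    ∫ x, kern F T s x = (T.ncard : ℝ) * ∫ x, kern F {S₀} s x := by
  have h1 : (fun x => kern F T s x) =
      fun x => ∑ S ∈ Finset.univ.filter (· ∈ T), kern F {S} s x := by
    funext x
    exact kern_eq_sum T s x
  rw [h1, integral_finset_sum _ (fun S _ => integrable_kern {S} hs)]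
  rw [Finset.sum_congr rfl (fun S _ => integral_kern_singleton_eq S S₀ s), Finset.sum_const,
    nsmul_eq_mul]
  congr 2
  rw [← Set.ncard_coe_finset]
  congr 1
  ext S
  simp

/-- The integral of the full kernel is `2 ^ r₁` times the integral for a single sign
pattern. -/
theorem integral_zetaKernel_eq (S₀ : SignPat F) {s : ℝ} (hs : 1 < s) :
    ∫ x, zetaKernel F s x = (2 : ℝ) ^ nrRealPlaces F * ∫ x, kern F {S₀} s x := by
  have h := integral_kern (F := F) Set.univ S₀ hs
  simp only [kern_univ] at h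
  rw [h, Set.ncard_univ, Nat.card_eq_fintype_card, Fintype.card_set, nrRealPlaces]
  push_cast
  rfl

/-! ### Scaling and torsion units -/

theorem signSet_smul {c : ℝ} (hc : 0 < c) (x : mixedSpace F) : signSet (c • x) = signSet x := by
  ext w
  simp only [signSet, Set.mem_setOf_eq, Prod.smul_fst, Pi.smul_apply, smul_eq_mul]
  constructor
  · intro h
    by_contra h'
    push Not at h'
    have := mul_pos hc h'
    linarith
  · intro h
    exact mul_nonpos_of_nonneg_of_nonpos hc.le h

theorem kern_smul (T : Set (SignPat F)) (s : ℝ) {c : ℝ} (hc : 0 < c) (x : mixedSpace F) :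
    kern F T s (c • x) = if signSet x ∈ T then zetaKernel F s (c • x) else 0 := by
  unfold kern
  rw [signSet_smul hc]

/-- `eta` is invariant under the torsion units. -/
theorem eta_torsion_smul (ζ : torsion F) (x : mixedSpace F) :
    eta F ((ζ : (𝓞 F)ˣ) • x) = eta F x := by
  by_cases hx : mixedEmbedding.norm x = 0
  · rw [eta_of_norm_eq_zero hx, eta_of_norm_eq_zero (by rw [norm_unit_smul]; exact hx)]
  · rw [eta_of_norm_ne_zero hx, eta_of_norm_ne_zero (norm_unit_smul_ne_zero hx _)]
    unfold logCoord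
    rw [logMap_unit_smul _ hx, logEmbedding_eq_zero_iff.mpr ζ.2, zero_add]

end Fermat.Agent.Lib.CFT.Cheb.TentWeight
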