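/-
helper16 (CHEBOTAREV, WP-Z2, final export).  `KernelFacts K` for every number field `K`:
the bundle of facts about the sign-restricted kernel `kS` consumed by the assembly
`Cheb/PartialZeta.lean`, deduced from `Cheb/TentWeight.lean`.
-/
import Mathlib
import Fermat.Agent.Lib.CFT.Cheb.KernelDefs
import Fermat.Agent.Lib.CFT.Cheb.TentWeight

set_option autoImplicit false

namespace Fermat.Agent.Lib.CFT.Cheb.TentWeight

open NumberField NumberField.mixedEmbedding NumberField.InfinitePlace Module MeasureTheory
open Fermat.Agent.Lib.CFT.Unram
open scoped Classical

variable {K : Type*} [Field K] [NumberField K]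

/-- The kernel `kS sig` of the interface is the kernel `kern K {sig}`. -/
theorem kS_eq_kern (sig : Set {w : InfinitePlace K // IsReal w}) :
    PartialZeta.kS sig = kern K {sig} := by
  funext s x
  unfold PartialZeta.kS kern
  simp only [Set.mem_singleton_iff]

variable (K)

/-- **WP-Z2, final export.** -/
theorem kernelFacts : PartialZeta.KernelFacts K where
  osc sig := by
    rw [kS_eq_kern]
    exact oscData_kern {sig}
  integrable sig s hs := by
    rw [kS_eq_kern]
    exact integrable_kern {sig} hs
  integral_eq sig sig' s _ := by
    rw [kS_eq_kern, kS_eq_kern]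
    exact integral_kern_singleton_eq sig sig' s

end Fermat.Agent.Lib.CFT.Cheb.TentWeight
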