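import Mathlib
import Fermat.Agent.Lib.CFT.Unram.PartialZetaOscLip
import Fermat.Agent.Lib.CFT.Unram.PartialZetaInt
import Fermat.Agent.Lib.CFT.Cheb.ScaledKernel

set_option autoImplicit false

/-!
Oscillation data (`ScaledKernel.OscData`) for the kernels `x ↦ ind x * zetaKernel K s x`, where
`ind` is a weight bounded by one which is constant near the points all of whose coordinates are
large compared with the distance (for instance any function of the signs at the real places).
(CHEBOTAREV, work package Z2, helper98.)
-/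

namespace Fermat.Agent.Lib.CFT.Cheb.KernelOsc

open NumberField NumberField.mixedEmbedding NumberField.InfinitePlace Module MeasureTheory
open Fermat.Agent.Lib.CFT.Unram
open scoped Classical

variable {K : Type*} [Field K] [NumberField K]

/-- A weight on the mixed space, bounded by one, that takes the same value at `y` and `z`
whenever the distance of `y` and `z` is smaller than every coordinate of `y`. -/
structure SignLocal (ind : mixedSpace K → ℝ) : Prop where
  abs_le_one : ∀ x, |ind x| ≤ 1
  loc : ∀ y z : mixedSpace K, (∀ w : InfinitePlace K, ‖y - z‖ < normAtPlace w y) → ind y = ind z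

/-- The kernel `ind x * eta x * N(x)^(-s)` (cut off at `N(x) ≥ 1`). -/
noncomputable def indKernel (ind : mixedSpace K → ℝ) (s : ℝ) (x : mixedSpace K) : ℝ :=
  ind x * zetaKernel K s x

theorem signLocal_one : SignLocal (fun _ : mixedSpace K => (1 : ℝ)) :=
  ⟨fun _ => by simp, fun _ _ _ => rfl⟩

/-- The basic mechanism: an oscillation bound for `D` gives one for `ind * D`. -/
theorem abs_ind_mul_sub_le {ind : mixedSpace K → ℝ} (hind : SignLocal ind) {δ : ℝ} (hδ : 0 < δ)
    (D : mixedSpace K → ℝ) (hD0 : ∀ x, eta K x = 0 → D x = 0) {A B : ℝ} (hA : ∀ x, |D x| ≤ A)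
    (ω : ℝ → ℝ) (hωpos : 0 < ω (farRadius K δ))
    (hωanti : ∀ r, 0 ≤ r → r ≤ farRadius K δ → ω (farRadius K δ) ≤ ω r)
    (hω0 : ∀ r, 0 ≤ r → 0 ≤ ω r)
    (hB : ∀ y z : mixedSpace K, ‖y - z‖ ≤ δ → |D y - D z| ≤ B * ω ‖y‖)
    {y z : mixedSpace K} (hyz : ‖y - z‖ ≤ δ) :
    |ind y * D y - ind z * D z| ≤ max (2 * A * (ω (farRadius K δ))⁻¹) B * ω ‖y‖ := by
  have hA0 : 0 ≤ A := (abs_nonneg _).trans (hA 0)
  have hωy : 0 ≤ ω ‖y‖ := hω0 _ (norm_nonneg y)
  have hmax0 : 0 ≤ max (2 * A * (ω (farRadius K δ))⁻¹) B :=
    le_max_of_le_left (by positivity)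
  have hterm : ∀ x, |ind x * D x| ≤ A := by
    intro x
    rw [abs_mul]
    calc |ind x| * |D x| ≤ 1 * A := mul_le_mul (hind.abs_le_one x) (hA x) (abs_nonneg _) zero_le_one
      _ = A := one_mul _
  by_cases hy : ‖y‖ ≤ farRadius K δ
  · have h1 : |ind y * D y - ind z * D z| ≤ 2 * A := by
      have hy' := abs_le.mp (hterm y)
      have hz' := abs_le.mp (hterm z)
      rw [abs_le]
      constructor <;> linarith [hy'.1, hy'.2, hz'.1, hz'.2]
    have h2 := hωanti ‖y‖ (norm_nonneg y) hy
    calc |ind y * D y - ind z * D z| ≤ 2 * A := h1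
      _ = 2 * A * (ω (farRadius K δ))⁻¹ * ω (farRadius K δ) := by
          rw [mul_assoc, inv_mul_cancel₀ hωpos.ne', mul_one]
      _ ≤ 2 * A * (ω (farRadius K δ))⁻¹ * ω ‖y‖ :=
          mul_le_mul_of_nonneg_left h2 (by positivity)
      _ ≤ max (2 * A * (ω (farRadius K δ))⁻¹) B * ω ‖y‖ :=
          mul_le_mul_of_nonneg_right (le_max_left _ _) hωy
  · push Not at hy
    by_cases h0 : eta K y = 0 ∧ eta K z = 0
    · rw [hD0 y h0.1, hD0 z h0.2, mul_zero, mul_zero, sub_self, abs_zero]
      exact mul_nonneg hmax0 hωy
    · obtain ⟨hm1, hmδ, hynorm, hcoord⟩ := far_region hδ hyz hy h0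
      have hloc : ind y = ind z := by
        apply hind.loc
        intro w
        have := (hcoord w).1
        linarith
      rw [← hloc, ← mul_sub, abs_mul]
      calc |ind y| * |D y - D z| ≤ 1 * (B * ω ‖y‖) :=
            mul_le_mul (hind.abs_le_one y) (hB y z hyz) (abs_nonneg _) zero_le_one
        _ = B * ω ‖y‖ := one_mul _
        _ ≤ max (2 * A * (ω (farRadius K δ))⁻¹) B * ω ‖y‖ :=
            mul_le_mul_of_nonneg_right (le_max_right _ _) hωy

theorem abs_zetaKernel_le_one {s : ℝ} (hs : 0 ≤ s) (x : mixedSpace K) :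
    |zetaKernel K s x| ≤ 1 := by
  rw [abs_of_nonneg (zetaKernel_nonneg x)]
  exact zetaKernel_le_one hs x

/-- The oscillation data for the kernels `ind x * zetaKernel K s x`. -/
theorem oscData_indKernel {ind : mixedSpace K → ℝ} (hind : SignLocal ind) :
    ScaledKernel.OscData (finrank ℝ (mixedSpace K)) (indKernel ind) := by
  rw [mixedEmbedding.finrank]
  set n := finrank ℚ K with hn
  constructor
  · intro δ hδ
    obtain ⟨M, hM0, hM⟩ := exists_osc_bound (K := K) δ hδ
    have hR0 := farRadius_nonneg (K := K) hδ
    set ω : ℝ → ℝ := fun r => ((1 + r) ^ (n + 1))⁻¹ with hω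
    have hωpos : 0 < ω (farRadius K δ) := by
      rw [hω]
      positivity
    refine ⟨max (2 * 1 * (ω (farRadius K δ))⁻¹) M, le_max_of_le_right hM0, ?_⟩
    intro s hs1 hs2 y z hyz
    have hs0 : 0 ≤ s := by linarith
    exact abs_ind_mul_sub_le hind hδ (zetaKernel K s)
      (fun x hx => zetaKernel_eq_zero_of_eta_eq_zero hx) (abs_zetaKernel_le_one hs0) ω hωpos
      (fun r hr0 hr => by
        rw [hω]
        exact inv_anti₀ (by positivity) (pow_le_pow_left₀ (by positivity) (by linarith) _))
      (fun r hr0 => by
        rw [hω]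
        positivity)
      (fun y z hyz => hM s hs1 hs2 y z hyz) hyz
  · intro δ hδ
    obtain ⟨M, hM0, hM⟩ := exists_osc_bound_sub (K := K) δ hδ
    have hR0 := farRadius_nonneg (K := K) hδ
    set b : ℝ := (n : ℝ) + 1 / 2 with hb
    set ω : ℝ → ℝ := fun r => (1 + r) ^ (-b) with hω
    have hωpos : 0 < ω (farRadius K δ) := by
      rw [hω]
      positivity
    refine ⟨max (2 * (ω (farRadius K δ))⁻¹) M, le_max_of_le_right hM0, ?_⟩
    intro s hs1 hs2 t ht1 ht2 y z hyz
    have hst0 : 0 ≤ |s - t| := abs_nonneg _
    have h := abs_ind_mul_sub_le hind hδ (fun x => zetaKernel K s x - zetaKernel K t x)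
      (fun x hx => by
        rw [zetaKernel_eq_zero_of_eta_eq_zero hx, zetaKernel_eq_zero_of_eta_eq_zero hx, sub_self])
      (A := |s - t|) (B := M * |s - t|) (fun x => abs_zetaKernel_sub_le hs1 ht1 x) ω hωpos
      (fun r hr0 hr => by
        rw [hω]
        exact Real.rpow_le_rpow_of_nonpos (by positivity) (by linarith)
          (by rw [hb]; have : (0 : ℝ) ≤ n := Nat.cast_nonneg _; linarith))
      (fun r hr0 => by
        rw [hω]
        positivity)
      (fun y z hyz => hM s hs1 hs2 t ht1 ht2 y z hyz) hyz
    have hmax : max (2 * |s - t| * (ω (farRadius K δ))⁻¹) (M * |s - t|) =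
        max (2 * (ω (farRadius K δ))⁻¹) M * |s - t| := by
      rw [max_mul_of_nonneg _ _ hst0]
      congr 1
      ring
    rw [hmax] at h
    simp only [indKernel]
    have hrew : (ind y * zetaKernel K s y - ind y * zetaKernel K t y) -
        (ind z * zetaKernel K s z - ind z * zetaKernel K t z) =
        ind y * (zetaKernel K s y - zetaKernel K t y) -
          ind z * (zetaKernel K s z - zetaKernel K t z) := by ring
    rw [hrew]
    exact h

/-- Integrability of the kernels `ind x * zetaKernel K s x` for `s > 1`. -/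
theorem integrable_indKernel {ind : mixedSpace K → ℝ} (hind : SignLocal ind)
    (hmeas : Measurable ind) {s : ℝ} (hs : 1 < s) :
    Integrable (indKernel ind s) (volume : Measure (mixedSpace K)) := by
  have h := integrable_zetaKernel (K := K) hs
  refine h.mono' (hmeas.mul (measurable_zetaKernel s)).aestronglyMeasurable
    (Filter.Eventually.of_forall fun x => ?_)
  rw [indKernel, Real.norm_eq_abs, abs_mul, abs_of_nonneg (zetaKernel_nonneg x)]
  calc |ind x| * zetaKernel K s x ≤ 1 * zetaKernel K s x :=
        mul_le_mul_of_nonneg_right (hind.abs_le_one x) (zetaKernel_nonneg x)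
    _ = zetaKernel K s x := one_mul _

section SignSet

/-- The indicator of a sign pattern (in the sense of Mathlib's `mixedEmbedding.signSet`). -/
noncomputable def signInd (sig : Set {w : InfinitePlace K // IsReal w}) (x : mixedSpace K) : ℝ :=
  if signSet x = sig then 1 else 0

theorem signSet_eq_of_lt {y z : mixedSpace K}
    (h : ∀ w : InfinitePlace K, ‖y - z‖ < normAtPlace w y) : signSet y = signSet z := by
  ext w
  simp only [signSet, Set.mem_ofPred_eq]
  have h1 := h w.1
  rw [normAtPlace_apply_of_isReal w.2] at h1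
  have h2 : ‖(y - z).1 w‖ ≤ ‖y - z‖ := by
    have := normAtPlace_le_norm w.1 (y - z)
    rwa [normAtPlace_apply_of_isReal w.2] at this
  have h3 : |y.1 w - z.1 w| < |y.1 w| := by
    have h4 : (y - z).1 w = y.1 w - z.1 w := rfl
    rw [h4, Real.norm_eq_abs] at h2
    rw [Real.norm_eq_abs] at h1
    exact lt_of_le_of_lt h2 h1
  constructor
  · intro hy
    rw [abs_of_nonpos hy] at h3
    have := (abs_lt.mp h3).1
    linarith
  · intro hz
    by_contra hy
    push Not at hy
    rw [abs_of_pos hy] at h3
    have := (abs_lt.mp h3).2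
    linarith

theorem signLocal_signInd (sig : Set {w : InfinitePlace K // IsReal w}) :
    SignLocal (signInd (K := K) sig) := by
  constructor
  · intro x
    unfold signInd
    split_ifs <;> simp
  · intro y z h
    unfold signInd
    rw [signSet_eq_of_lt h]

theorem measurableSet_signSet_eq (sig : Set {w : InfinitePlace K // IsReal w}) :
    MeasurableSet {x : mixedSpace K | signSet x = sig} := by
  have h : {x : mixedSpace K | signSet x = sig} =
      ⋂ w : {w : InfinitePlace K // IsReal w}, {x : mixedSpace K | x.1 w ≤ 0 ↔ w ∈ sig} := by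
    ext x
    simp [signSet, Set.ext_iff]
  rw [h]
  refine MeasurableSet.iInter fun w => ?_
  have hcoord : Measurable fun x : mixedSpace K => x.1 w :=
    (measurable_pi_apply w).comp measurable_fst
  by_cases hw : w ∈ sig
  · simp only [hw, iff_true]
    exact measurableSet_le hcoord measurable_const
  · simp only [hw, iff_false, not_le]
    exact measurableSet_lt measurable_const hcoord

theorem measurable_signInd (sig : Set {w : InfinitePlace K // IsReal w}) :
    Measurable (signInd (K := K) sig) :=
  Measurable.ite (measurableSet_signSet_eq sig) measurable_const measurable_const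

/-- The oscillation data for the kernel restricted to a sign pattern. -/
theorem oscData_signInd (sig : Set {w : InfinitePlace K // IsReal w}) :
    ScaledKernel.OscData (finrank ℝ (mixedSpace K)) (indKernel (signInd (K := K) sig)) :=
  oscData_indKernel (signLocal_signInd sig)

theorem integrable_signInd (sig : Set {w : InfinitePlace K // IsReal w}) {s : ℝ} (hs : 1 < s) :
    Integrable (indKernel (signInd (K := K) sig) s) (volume : Measure (mixedSpace K)) :=
  integrable_indKernel (signLocal_signInd sig) (measurable_signInd sig) hs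

theorem indKernel_signInd_apply (sig : Set {w : InfinitePlace K // IsReal w}) (s : ℝ)
    (x : mixedSpace K) :
    indKernel (signInd sig) s x = if signSet x = sig then zetaKernel K s x else 0 := by
  unfold indKernel signInd
  split_ifs <;> simp

end SignSet

end Fermat.Agent.Lib.CFT.Cheb.KernelOsc
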