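import Mathlib
import Fermat.Agent.Lib.CFT.Cheb.KernelOsc

set_option autoImplicit false

/-!
The integral of the kernel `zetaKernel K s` restricted to a sign pattern does not depend on the
sign pattern: it is `2^(-r₁)` times the full integral.  (CHEBOTAREV, work package Z2, helper98.)
-/

namespace Fermat.Agent.Lib.CFT.Cheb.KernelOsc

open NumberField NumberField.mixedEmbedding NumberField.InfinitePlace Module MeasureTheory
open Fermat.Agent.Lib.CFT.Unram
open scoped Classical

variable {K : Type*} [Field K] [NumberField K]

theorem eta_negAt (S : Set {w : InfinitePlace K // IsReal w}) (x : mixedSpace K) :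
    eta K (negAt S x) = eta K x := by
  have h : ∀ i, logCoord K (negAt S x) i = logCoord K x i := fun i => by
    unfold logCoord
    rw [logMap_eq_of_normAtPlace_eq (fun w => normAtPlace_negAt S x w)]
  unfold eta
  rw [norm_negAt]
  simp only [h]

theorem zetaKernel_negAt (S : Set {w : InfinitePlace K // IsReal w}) (s : ℝ) (x : mixedSpace K) :
    zetaKernel K s (negAt S x) = zetaKernel K s x := by
  unfold zetaKernel
  rw [norm_negAt, eta_negAt]

omit [NumberField K] in
theorem signSet_negAt_eq_iff {S : Set {w : InfinitePlace K // IsReal w}} {x : mixedSpace K}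
    (hx : ∀ w, x.1 w ≠ 0) : signSet (negAt S x) = S ↔ signSet x = ∅ := by
  simp only [Set.ext_iff, signSet, Set.mem_ofPred_eq, Set.mem_empty_iff_false, iff_false, not_le]
  constructor
  · intro h w
    by_cases hw : w ∈ S
    · have h1 := (h w).mpr hw
      rw [negAt_apply_isReal_and_mem x hw] at h1
      exact lt_of_le_of_ne (by linarith) (hx w).symm
    · have h1 : ¬ (negAt S x).1 w ≤ 0 := fun h2 => hw ((h w).mp h2)
      rw [negAt_apply_isReal_and_notMem x hw] at h1
      exact not_le.mp h1
  · intro h w
    by_cases hw : w ∈ S
    · rw [negAt_apply_isReal_and_mem x hw]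
      have := h w
      exact ⟨fun _ => hw, fun _ => by linarith⟩
    · rw [negAt_apply_isReal_and_notMem x hw]
      have := h w
      exact ⟨fun h2 => absurd h2 (not_le.mpr this), fun h2 => absurd h2 hw⟩

theorem indKernel_signInd_negAt (S : Set {w : InfinitePlace K // IsReal w}) (s : ℝ)
    (x : mixedSpace K) :
    indKernel (signInd S) s (negAt S x) = indKernel (signInd ∅) s x := by
  by_cases hN : mixedEmbedding.norm x = 0
  · have h1 : zetaKernel K s x = 0 := zetaKernel_of_lt_one (by rw [hN]; exact zero_lt_one)
    unfold indKernel
    rw [zetaKernel_negAt, h1, mul_zero, mul_zero]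
  · have hx : ∀ w : {w : InfinitePlace K // IsReal w}, x.1 w ≠ 0 := by
      intro w h0
      have h1 := (mixedEmbedding.norm_ne_zero_iff.mp hN) w.1
      rw [normAtPlace_apply_of_isReal w.2] at h1
      exact h1 (by rw [h0, norm_zero])
    unfold indKernel signInd
    rw [zetaKernel_negAt]
    simp only [signSet_negAt_eq_iff hx]

/-- The integral over a sign pattern does not depend on the sign pattern. -/
theorem integral_indKernel_signInd (S : Set {w : InfinitePlace K // IsReal w}) (s : ℝ) :
    ∫ x : mixedSpace K, indKernel (signInd S) s x = ∫ x : mixedSpace K, indKernel (signInd ∅) s x := by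
  have h := (volume_preserving_negAt (K := K) (s := S)).integral_comp
    (negAt S).toHomeomorph.measurableEmbedding (indKernel (signInd S) s)
  rw [← h]
  exact integral_congr_ae (Filter.Eventually.of_forall fun x => indKernel_signInd_negAt S s x)

theorem sum_signInd (x : mixedSpace K) :
    ∑ S : Set {w : InfinitePlace K // IsReal w}, signInd S x = 1 := by
  unfold signInd
  rw [Finset.sum_ite_eq Finset.univ (signSet x) (fun _ => (1 : ℝ))]
  simp

/-- The integral over a sign pattern is `2^(-r₁)` times the full integral. -/
theorem integral_indKernel_signInd_eq (S : Set {w : InfinitePlace K // IsReal w}) {s : ℝ}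
    (hs : 1 < s) :
    ∫ x : mixedSpace K, indKernel (signInd S) s x =
      ((2 : ℝ) ^ nrRealPlaces K)⁻¹ * ∫ x : mixedSpace K, zetaKernel K s x := by
  have h1 : ∫ x : mixedSpace K, zetaKernel K s x =
      ∑ S' : Set {w : InfinitePlace K // IsReal w},
        ∫ x : mixedSpace K, indKernel (signInd S') s x := by
    rw [← integral_finsetSum _ (fun S' _ => integrable_signInd S' hs)]
    congr 1
    funext x
    simp only [indKernel]
    rw [← Finset.sum_mul, sum_signInd, one_mul]
  have h2 : ∑ S' : Set {w : InfinitePlace K // IsReal w},
      ∫ x : mixedSpace K, indKernel (signInd S') s x =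
      (2 : ℝ) ^ nrRealPlaces K * ∫ x : mixedSpace K, indKernel (signInd ∅) s x := by
    rw [Finset.sum_congr rfl (fun S' _ => integral_indKernel_signInd S' s), Finset.sum_const,
      Finset.card_univ, Fintype.card_set, nsmul_eq_mul]
    push_cast
    rfl
  rw [integral_indKernel_signInd S s, h1, h2, ← mul_assoc, inv_mul_cancel₀ (by positivity), one_mul]

end Fermat.Agent.Lib.CFT.Cheb.KernelOsc
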