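/-
helper89 (CHEBOTAREV, WP-Z4).  Assembly of the analytic core: differences of norm-residue partial
zeta functions are Lipschitz on `(1, 2]`.

Inputs: WP-Z3 (`IdealParam`: parametrisation of the ideals with `N𝔞 ≡ a (mod m)` by finitely many
cosets of the lattices `m b_C` and sign patterns, and equality of the number of cosets for any two
norm residues), WP-Z1/Z4 (`IdealCoset`: coset sums versus integrals) and WP-Z2 (kernel facts,
packaged as `KernelFacts`).
-/
import Mathlib
import Fermat.Agent.Lib.CFT.Cheb.IdealCoset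
import Fermat.Agent.Lib.CFT.Cheb.KernelDefs
import Fermat.Agent.Lib.CFT.Cheb.IdealParam

set_option autoImplicit false

namespace Fermat.Agent.Lib.CFT.Cheb.PartialZeta

open NumberField NumberField.mixedEmbedding NumberField.InfinitePlace NumberField.Units Module
  MeasureTheory Ideal
open scoped Classical nonZeroDivisors
open Fermat.Agent.Lib.CFT.Unram Fermat.Agent.Lib.CFT.Cheb.CosetCell
  Fermat.Agent.Lib.CFT.Cheb.ScaledKernel Fermat.Agent.Lib.CFT.Cheb.IdealCoset
  Fermat.Agent.Lib.CFT.Cheb.IdealParam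

universe u

section Kernel

variable {K : Type*} [Field K] [NumberField K]

/-- The terms of WP-Z3 are the values of the rescaled sign-restricted kernel. -/
theorem cosetTerm_eq_kS (b : (Ideal (𝓞 K))⁰) (sig : Set {w : InfinitePlace K // IsReal w}) (s : ℝ)
    (x : idealLattice K (FractionalIdeal.mk0 K b)) :
    cosetTerm (eta K) b sig s (x : mixedSpace K) = kS sig s (scaleC b • (x : mixedSpace K)) := by
  unfold cosetTerm kS
  rw [signSet_smul _ (scaleC_pos b), zetaKernel_scaleC_smul]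

end Kernel

section Assembly

variable {K : Type*} [Field K] [NumberField K] (m : ℕ) [NeZero m]

/-- The main term, common to all cosets and sign patterns. -/
noncomputable def mainTerm (K : Type*) [Field K] [NumberField K] (m : ℕ) (s : ℝ) : ℝ :=
  (((m : ℝ) ^ finrank ℚ K))⁻¹ * ((covO K)⁻¹ * ∫ x : mixedSpace K, kS (K := K) ∅ s x)

/-- The error term attached to a class and an admissible pair. -/
noncomputable def errTerm (C : ClassGroup (𝓞 K)) (p : Pair K m) (s : ℝ) : ℝ :=
  idealCosetError (kS p.2) (bOf K m C) (mb K m C) (mixedEmbedding K (rep K m C p.1 : K)) s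

theorem mem_idealLattice_of_mem (b : (Ideal (𝓞 K))⁰) {x : 𝓞 K} (hx : x ∈ (b : Ideal (𝓞 K))) :
    mixedEmbedding K (x : K) ∈ idealLattice K (FractionalIdeal.mk0 K b) := by
  rw [mem_idealLattice]
  refine ⟨(x : K), ?_, rfl⟩
  rw [FractionalIdeal.coe_mk0]
  exact (FractionalIdeal.mem_coeIdeal _).mpr ⟨x, hx, rfl⟩

theorem mb_le (C : ClassGroup (𝓞 K)) :
    (mb K m C : Ideal (𝓞 K)) ≤ (bOf K m C : Ideal (𝓞 K)) := by
  rw [coe_mb]
  exact Ideal.mul_le_right

theorem absNorm_mb (C : ClassGroup (𝓞 K)) :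
    absNorm (mb K m C : Ideal (𝓞 K)) = m ^ finrank ℚ K * absNorm (bOf K m C : Ideal (𝓞 K)) := by
  rw [coe_mb, map_mul]
  congr 1
  rw [mIdeal, Ideal.absNorm_span_singleton]
  have h1 : (m : 𝓞 K) = algebraMap ℤ (𝓞 K) (m : ℤ) := by simp
  rw [h1, Algebra.norm_algebraMap, RingOfIntegers.rank]
  simp [Int.natAbs_pow]

theorem idealLattice_mono {b b' : (Ideal (𝓞 K))⁰} (hle : (b' : Ideal (𝓞 K)) ≤ (b : Ideal (𝓞 K))) :
    idealLattice K (FractionalIdeal.mk0 K b') ≤ idealLattice K (FractionalIdeal.mk0 K b) := by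
  intro x hx
  rw [mem_idealLattice] at hx ⊢
  obtain ⟨y, hy, rfl⟩ := hx
  refine ⟨y, ?_, rfl⟩
  rw [FractionalIdeal.coe_mk0] at hy ⊢
  obtain ⟨z, hz, rfl⟩ := (FractionalIdeal.mem_coeIdeal _).mp hy
  exact (FractionalIdeal.mem_coeIdeal _).mpr ⟨z, hle hz, rfl⟩

theorem idealLattice_mb_le (C : ClassGroup (𝓞 K)) :
    idealLattice K (FractionalIdeal.mk0 K (mb K m C)) ≤
      idealLattice K (FractionalIdeal.mk0 K (bOf K m C)) :=
  idealLattice_mono (mb_le m C)

/-- One coset sum: main term plus error term. -/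
theorem tsum_cosetTerm_eq (h : KernelFacts K) (C : ClassGroup (𝓞 K)) (p : Pair K m)
    {s : ℝ} (hs : 1 < s) :
    ∑' y : idealLattice K (FractionalIdeal.mk0 K (mb K m C)),
        cosetTerm (eta K) (bOf K m C) p.2 s (mixedEmbedding K (rep K m C p.1 : K) + (y : mixedSpace K)) =
      errTerm m C p s + mainTerm K m s := by
  have hterm : ∀ y : idealLattice K (FractionalIdeal.mk0 K (mb K m C)),
      cosetTerm (eta K) (bOf K m C) p.2 s (mixedEmbedding K (rep K m C p.1 : K) + (y : mixedSpace K)) =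
        kS p.2 s (scaleC (bOf K m C) • (mixedEmbedding K (rep K m C p.1 : K) + (y : mixedSpace K))) := by
    intro y
    have hmem : mixedEmbedding K (rep K m C p.1 : K) + (y : mixedSpace K) ∈
        idealLattice K (FractionalIdeal.mk0 K (bOf K m C)) :=
      Submodule.add_mem _ (mem_idealLattice_of_mem _ (rep_mem K m C p.1))
        (idealLattice_mb_le m C y.2)
    exact cosetTerm_eq_kS (bOf K m C) p.2 s ⟨_, hmem⟩
  rw [tsum_congr hterm]
  unfold errTerm idealCosetError mainTerm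
  have hN : ((absNorm (bOf K m C : Ideal (𝓞 K)) : ℝ)) / (absNorm (mb K m C : Ideal (𝓞 K)) : ℝ) =
      (((m : ℝ) ^ finrank ℚ K))⁻¹ := by
    rw [absNorm_mb]
    have h1 : (absNorm (bOf K m C : Ideal (𝓞 K)) : ℝ) ≠ 0 := (absNorm_pos_real _).ne'
    have h2 : ((m : ℝ) ^ finrank ℚ K) ≠ 0 := pow_ne_zero _ (by exact_mod_cast NeZero.ne m)
    push_cast
    field_simp
  rw [hN, h.integral_eq p.2 ∅ s hs]
  ring

/-- `w * Z_a(s)` is the sum of the error terms plus the number of cosets times the main term. -/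
theorem torsionOrder_mul_partialZeta (h : KernelFacts K) (a : (ZMod m)ˣ) {s : ℝ} (hs : 1 < s) :
    (torsionOrder K : ℝ) * partialZeta K m (a : ZMod m) s =
      ∑ C : ClassGroup (𝓞 K), ∑ p ∈ adm m C a, errTerm m C p s +
        ((∑ C : ClassGroup (𝓞 K), (adm m C a).card : ℕ) : ℝ) * mainTerm K m s := by
  obtain ⟨-, heq⟩ := torsionOrder_mul_partialZeta_eq m (eta K) eta_nonneg
    (fun x hx => hasSum_eta_unit_smul hx) a hs
  rw [heq]
  simp_rw [tsum_cosetTerm_eq m h _ _ hs, Finset.sum_add_distrib, Finset.sum_const, nsmul_eq_mul]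
  rw [← Finset.sum_mul]
  push_cast
  rfl

/-- The error terms are Lipschitz. -/
theorem exists_lipschitz_errTerm (h : KernelFacts K) (C : ClassGroup (𝓞 K)) (p : Pair K m) :
    ∃ B : ℝ, 0 ≤ B ∧ ∀ s ∈ Set.Ioc (1 : ℝ) 2, ∀ t ∈ Set.Ioc (1 : ℝ) 2,
      |errTerm m C p s - errTerm m C p t| ≤ B * |s - t| := by
  obtain ⟨-, B, hB0, -, hB⟩ := idealCosetError_lipschitz (h.osc p.2) (h.integrable p.2)
    (bOf K m C) (mb K m C) (mixedEmbedding K (rep K m C p.1 : K))
  exact ⟨B, hB0, hB⟩

end Assembly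

/-- **WP-Z** modulo the kernel facts of WP-Z2. -/
theorem partialZetaLipschitz_of
    (hcount : ∀ (F : Type u) [Field F] [NumberField F] (m : ℕ) [NeZero m] (a a' : (ZMod m)ˣ),
      a ∈ normResidues F m → a' ∈ normResidues F m →
      ∑ C : ClassGroup (𝓞 F), (adm m C a).card = ∑ C : ClassGroup (𝓞 F), (adm m C a').card)
    (h : ∀ (F : Type u) [Field F] [NumberField F], KernelFacts F) : PartialZetaLipschitz.{u} := by
  intro F _ _ m _ a a' ha ha'
  have hF := h F
  choose B hB0 hB using fun (C : ClassGroup (𝓞 F)) (p : Pair F m) =>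
    exists_lipschitz_errTerm m hF C p
  have hw : (0 : ℝ) < (torsionOrder F : ℝ) := torsionOrder_pos_real
  set E : (ZMod m)ˣ → ℝ → ℝ := fun c s => ∑ C : ClassGroup (𝓞 F), ∑ p ∈ adm m C c, errTerm m C p s
    with hE
  set BB : (ZMod m)ˣ → ℝ := fun c => ∑ C : ClassGroup (𝓞 F), ∑ p ∈ adm m C c, B C p with hBB
  have hELip : ∀ c : (ZMod m)ˣ, ∀ s ∈ Set.Ioc (1 : ℝ) 2, ∀ t ∈ Set.Ioc (1 : ℝ) 2,
      |E c s - E c t| ≤ BB c * |s - t| := by
    intro c s hs t ht
    simp only [hE, hBB]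
    rw [← Finset.sum_sub_distrib, Finset.sum_mul]
    refine (Finset.abs_sum_le_sum_abs _ _).trans (Finset.sum_le_sum fun C _ => ?_)
    rw [← Finset.sum_sub_distrib, Finset.sum_mul]
    refine (Finset.abs_sum_le_sum_abs _ _).trans (Finset.sum_le_sum fun p _ => ?_)
    exact hB C p s hs t ht
  have hcard := hcount F m a a' ha ha'
  have hdiff : ∀ s ∈ Set.Ioc (1 : ℝ) 2,
      partialZeta F m (a : ZMod m) s - partialZeta F m (a' : ZMod m) s =
        ((torsionOrder F : ℝ))⁻¹ * (E a s - E a' s) := by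
    intro s hs
    have h1 := torsionOrder_mul_partialZeta m hF a hs.1
    have h2 := torsionOrder_mul_partialZeta m hF a' hs.1
    rw [hcard] at h1
    rw [eq_inv_mul_iff_mul_eq₀ hw.ne', mul_sub, h1, h2]
    simp only [hE]
    ring
  refine ⟨((torsionOrder F : ℝ))⁻¹ * (BB a + BB a'), fun s hs t ht => ?_⟩
  rw [hdiff s hs, hdiff t ht, ← mul_sub, abs_mul, abs_of_pos (inv_pos.mpr hw), mul_assoc]
  refine mul_le_mul_of_nonneg_left ?_ (inv_pos.mpr hw).le
  have e1 := hELip a s hs t ht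
  have e2 := hELip a' s hs t ht
  calc |E a s - E a' s - (E a t - E a' t)| = |(E a s - E a t) - (E a' s - E a' t)| := by ring_nf
    _ ≤ |E a s - E a t| + |E a' s - E a' t| := abs_sub _ _
    _ ≤ BB a * |s - t| + BB a' * |s - t| := add_le_add e1 e2
    _ = (BB a + BB a') * |s - t| := by ring

end Fermat.Agent.Lib.CFT.Cheb.PartialZeta
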