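/-
helper89 (CHEBOTAREV block, final assembly).  The unconditional theorems:

* `partialZetaLipschitz` : differences of norm-residue partial zeta functions are Lipschitz;
* `cyclotomicDirichlet` : the generalized Dirichlet theorem for `F(ζ_m)/F`;
* `chebotarev` : Chebotarev's theorem (existence form, with primes of degree one below);
* `exists_frobenius_lift` : every automorphism of `ℚbar` agrees on a given finite Galois
  subextension with a Frobenius element at a prime outside a given finite set.

Work packages: Z1/Z4 (helper89), Z2 (helper16, helper98), Z3 (helper95), L1/L4 (helper73),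
L2 (helper38), L3 (helper57), L5 (helper56), X (helper79), B (helper58).
-/
import Mathlib
import Fermat.Agent.Lib.CFT.Cheb.PartialZeta
import Fermat.Agent.Lib.CFT.Cheb.TentWeight
import Fermat.Agent.Lib.CFT.Cheb.DirichletGlue
import Fermat.Agent.Lib.CFT.Cheb.Crossing
import Fermat.Agent.Lib.CFT.Cheb.Bridge

set_option autoImplicit false

namespace Fermat.Agent.Lib.CFT.Cheb

open NumberField NumberField.mixedEmbedding NumberField.InfinitePlace MeasureTheory

universe u

/-- The kernel facts of WP-Z2 in the shape consumed by the assembly. -/
theorem kernelFacts (K : Type*) [Field K] [NumberField K] : PartialZeta.KernelFacts K := by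
  have hk : ∀ sig : Set {w : InfinitePlace K // IsReal w},
      PartialZeta.kS sig = TentWeight.kern K {sig} := by
    intro sig
    funext s x
    unfold PartialZeta.kS TentWeight.kern
    simp only [Set.mem_singleton_iff]
  refine ⟨fun sig => ?_, fun sig s hs => ?_, fun sig sig' s _ => ?_⟩
  · rw [hk]
    exact TentWeight.oscData_kern _
  · rw [hk]
    exact TentWeight.integrable_kern _ hs
  · rw [hk, hk]
    exact TentWeight.integral_kern_singleton_eq sig sig' s

/-- **WP-Z**: differences of norm-residue partial zeta functions are Lipschitz on `(1, 2]`. -/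
theorem partialZetaLipschitz : PartialZetaLipschitz.{u} :=
  PartialZeta.partialZetaLipschitz_of
    (fun _ _ _ m _ a a' ha ha' => IdealParam.sum_card_adm_eq m a a' ha ha')
    (fun F _ _ => kernelFacts F)

/-- **Generalized Dirichlet theorem** for `F(ζ_m)/F`. -/
theorem cyclotomicDirichlet : CyclotomicDirichlet.{u} :=
  DirichletGlue.cyclotomicDirichlet_of partialZetaLipschitz

/-- **Chebotarev's theorem** (existence form). -/
theorem chebotarev : Chebotarev.{u} :=
  Crossing.chebotarev_of cyclotomicDirichlet

open Fermat.Agent.Lib.CFT.S14 in
/-- **Frobenius lifts.**  Every automorphism `σ` of `ℚbar` agrees, on any finite Galois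
subextension `E`, with a Frobenius element (in the sense of the prelude) at a rational prime
outside any given finite set `S`. -/
theorem exists_frobenius_lift (E : IntermediateField ℚ Qbar) [FiniteDimensional ℚ E]
    [IsGalois ℚ E] (σ : Qbar ≃ₐ[ℚ] Qbar) (S : Finset ℕ) :
    ∃ l, l.Prime ∧ l ∉ S ∧ ∃ A : ValuationSubring Qbar, A.LiesOverPrime l ∧
      ∃ φ : Qbar ≃ₐ[ℚ] Qbar, A.IsFrobeniusAt φ l ∧ ∀ x ∈ E, φ x = σ x :=
  exists_frobenius_lift_of chebotarev.{0} E σ S

end Fermat.Agent.Lib.CFT.Cheb
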