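import Mathlib
import Fermat.Agent.Lib.CFT.Cheb.Defs
import Fermat.Agent.Lib.CFT.Cheb.CharGroup

/-!
# CHEBOTAREV, WP-L4: the pole order argument (abstract form)

Let `L χ` (`χ` in a finite index type) be functions of a real variable `s ∈ (1, 2]` such that

* `k ≥ 1` of them (those in `triv`) are equal to one function `L₀` with `(s - 1) L₀ s → c ≠ 0`,
* the others satisfy `‖L χ s - L1 χ‖ ≤ B (s - 1)`,
* `(s - 1) ∏ χ, L χ s → c' ≠ 0` (the product has a simple pole),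
* every function `L χ₀` with `χ₀ ∉ triv` occurs at least `k` times among the `L χ`, `χ ∉ triv`
  (there is a set `R` of `k` indices outside `triv` carrying the same function).

Then `k = 1` and `L1 χ ≠ 0` for all `χ ∉ triv`.
-/

set_option autoImplicit false

namespace Fermat.Agent.Lib.CFT.Cheb.NonVanishing

open Filter Topology Finset

theorem Ioc_mem_nhdsGT_one : Set.Ioc (1 : ℝ) 2 ∈ 𝓝[>] (1 : ℝ) :=
  Ioc_mem_nhdsGT (by norm_num)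

theorem tendsto_sub_one : Tendsto (fun s : ℝ => ((s : ℂ) - 1)) (𝓝[>] (1 : ℝ)) (𝓝 0) := by
  have h : Tendsto (fun s : ℝ => ((s : ℂ) - 1)) (𝓝 (1 : ℝ)) (𝓝 (((1 : ℝ) : ℂ) - 1)) :=
    (Complex.continuous_ofReal.tendsto 1).sub_const 1
  rw [Complex.ofReal_one, sub_self] at h
  exact h.mono_left nhdsWithin_le_nhds

variable {ι : Type*} [Fintype ι] [DecidableEq ι]

section
variable (L : ι → ℝ → ℂ) (L₀ : ℝ → ℂ) (L1 : ι → ℂ) (triv : Finset ι)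

/-- a function with a Lipschitz-type bound towards its limit is bounded on `(1, 2]` -/
theorem norm_le_of_lip {f : ℝ → ℂ} {ℓ : ℂ} {B : ℝ}
    (h : ∀ s ∈ Set.Ioc (1 : ℝ) 2, ‖f s - ℓ‖ ≤ B * (s - 1)) {s : ℝ} (hs : s ∈ Set.Ioc (1 : ℝ) 2) :
    ‖f s‖ ≤ ‖ℓ‖ + |B| := by
  have h1 := h s hs
  have h2 : B * (s - 1) ≤ |B| := by
    have h3 : 0 ≤ s - 1 := by linarith [hs.1]
    have h4 : s - 1 ≤ 1 := by linarith [hs.2]
    calc B * (s - 1) ≤ |B| * (s - 1) := mul_le_mul_of_nonneg_right (le_abs_self B) h3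
      _ ≤ |B| * 1 := mul_le_mul_of_nonneg_left h4 (abs_nonneg B)
      _ = |B| := mul_one _
  calc ‖f s‖ = ‖ℓ + (f s - ℓ)‖ := by ring_nf
    _ ≤ ‖ℓ‖ + ‖f s - ℓ‖ := norm_add_le _ _
    _ ≤ ‖ℓ‖ + |B| := by linarith

theorem tendsto_of_lip {f : ℝ → ℂ} {ℓ : ℂ} {B : ℝ}
    (h : ∀ s ∈ Set.Ioc (1 : ℝ) 2, ‖f s - ℓ‖ ≤ B * (s - 1)) :
    Tendsto f (𝓝[>] (1 : ℝ)) (𝓝 ℓ) := by
  rw [tendsto_iff_norm_sub_tendsto_zero]
  have h0 : Tendsto (fun s : ℝ => B * (s - 1)) (𝓝[>] (1 : ℝ)) (𝓝 0) := by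
    have : Tendsto (fun s : ℝ => B * (s - 1)) (𝓝 (1 : ℝ)) (𝓝 (B * (1 - 1))) :=
      ((continuous_id.sub continuous_const).const_mul B |>.tendsto 1)
    rw [sub_self, mul_zero] at this
    exact this.mono_left nhdsWithin_le_nhds
  refine squeeze_zero' (Eventually.of_forall fun s => norm_nonneg _) ?_ h0
  filter_upwards [Ioc_mem_nhdsGT_one] with s hs using h s hs

end

/-- **Step A**: no `L1 χ₀` vanishes. -/
theorem L1_ne_zero (L : ι → ℝ → ℂ) (L₀ : ℝ → ℂ) (L1 : ι → ℂ) (triv : Finset ι)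
    (h0 : ∀ χ ∈ triv, ∀ s ∈ Set.Ioc (1 : ℝ) 2, L χ s = L₀ s)
    {c : ℂ} (hc : Tendsto (fun s : ℝ => ((s : ℂ) - 1) * L₀ s) (𝓝[>] (1 : ℝ)) (𝓝 c))
    (hLip : ∀ χ ∉ triv, ∃ B : ℝ, ∀ s ∈ Set.Ioc (1 : ℝ) 2, ‖L χ s - L1 χ‖ ≤ B * (s - 1))
    {c' : ℂ} (hc' : c' ≠ 0)
    (hprod : Tendsto (fun s : ℝ => ((s : ℂ) - 1) * ∏ χ, L χ s) (𝓝[>] (1 : ℝ)) (𝓝 c'))
    (hrep : ∀ χ₀ ∉ triv, ∃ R : Finset ι, R.card = triv.card ∧
      ∀ χ ∈ R, χ ∉ triv ∧ ∀ s ∈ Set.Ioc (1 : ℝ) 2, L χ s = L χ₀ s)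
    {χ₀ : ι} (hχ₀ : χ₀ ∉ triv) : L1 χ₀ ≠ 0 := by
  classical
  intro hzero
  -- a set `R` of `k` indices outside `triv` carrying the same function as `χ₀`
  obtain ⟨R, hRcard, hR⟩ := hrep χ₀ hχ₀
  have hdisj : Disjoint triv R := by
    rw [Finset.disjoint_left]
    intro χ h1 h2
    exact (hR χ h2).1 h1
  set rest : Finset ι := univ \ (triv ∪ R) with hrest
  -- bounds
  obtain ⟨B₀, hB₀⟩ := hLip χ₀ hχ₀
  have hbd : ∀ χ ∈ rest, ∃ C : ℝ, ∀ s ∈ Set.Ioc (1 : ℝ) 2, ‖L χ s‖ ≤ C := by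
    intro χ hχ
    have hχt : χ ∉ triv := by
      intro h
      rw [hrest, Finset.mem_sdiff] at hχ
      exact hχ.2 (Finset.mem_union_left _ h)
    obtain ⟨B, hB⟩ := hLip χ hχt
    exact ⟨‖L1 χ‖ + |B|, fun s hs => norm_le_of_lip hB hs⟩
  choose! C hC using hbd
  -- the factorisation of the product
  have hfac : ∀ s ∈ Set.Ioc (1 : ℝ) 2, ∏ χ, L χ s =
      (L₀ s * L χ₀ s) ^ triv.card * ∏ χ ∈ rest, L χ s := by
    intro s hs
    have h1 : (univ : Finset ι) = (triv ∪ R) ∪ rest := by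
      rw [hrest, Finset.union_sdiff_of_subset (Finset.subset_univ _)]
    have h2 : Disjoint (triv ∪ R) rest := by
      rw [hrest]
      exact Finset.disjoint_sdiff
    rw [h1, Finset.prod_union h2, Finset.prod_union hdisj,
      Finset.prod_congr rfl (fun χ hχ => h0 χ hχ s hs),
      Finset.prod_congr rfl (fun χ hχ => (hR χ hχ).2 s hs), Finset.prod_const, Finset.prod_const,
      hRcard, mul_pow]
  -- the product tends to zero
  have hlim : Tendsto (fun s : ℝ => ((s : ℂ) - 1) * ∏ χ, L χ s) (𝓝[>] (1 : ℝ)) (𝓝 0) := by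
    rw [tendsto_zero_iff_norm_tendsto_zero]
    have hn : Tendsto (fun s : ℝ => ‖(s : ℂ) - 1‖) (𝓝[>] (1 : ℝ)) (𝓝 0) := by
      simpa using tendsto_sub_one.norm
    have hmaj : Tendsto (fun s : ℝ => ‖(s : ℂ) - 1‖ *
        ((‖((s : ℂ) - 1) * L₀ s‖ * |B₀|) ^ triv.card * ∏ χ ∈ rest, |C χ|))
        (𝓝[>] (1 : ℝ)) (𝓝 (0 * ((‖c‖ * |B₀|) ^ triv.card * ∏ χ ∈ rest, |C χ|))) :=
      hn.mul ((((hc.norm).mul_const _).pow _).mul_const _)
    rw [zero_mul] at hmaj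
    refine squeeze_zero' (Eventually.of_forall fun s => norm_nonneg _) ?_ hmaj
    filter_upwards [Ioc_mem_nhdsGT_one] with s hs
    rw [hfac s hs, norm_mul, norm_mul, norm_pow]
    refine mul_le_mul_of_nonneg_left ?_ (norm_nonneg _)
    have hs1 : (0 : ℝ) < s - 1 := by linarith [hs.1]
    have hnorm1 : ‖(s : ℂ) - 1‖ = s - 1 := by
      rw [← Complex.ofReal_one, ← Complex.ofReal_sub, Complex.norm_real, Real.norm_eq_abs,
        abs_of_pos hs1]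
    have h3 : ‖L₀ s * L χ₀ s‖ ≤ ‖((s : ℂ) - 1) * L₀ s‖ * |B₀| := by
      have h4 : ‖L χ₀ s‖ ≤ B₀ * (s - 1) := by
        have := hB₀ s hs
        rwa [hzero, sub_zero] at this
      have h5 : ‖L χ₀ s‖ ≤ |B₀| * (s - 1) :=
        h4.trans (mul_le_mul_of_nonneg_right (le_abs_self _) hs1.le)
      rw [norm_mul, norm_mul, hnorm1]
      calc ‖L₀ s‖ * ‖L χ₀ s‖ ≤ ‖L₀ s‖ * (|B₀| * (s - 1)) :=
            mul_le_mul_of_nonneg_left h5 (norm_nonneg _)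
        _ = (s - 1) * ‖L₀ s‖ * |B₀| := by ring
    have h6 : ‖∏ χ ∈ rest, L χ s‖ ≤ ∏ χ ∈ rest, |C χ| := by
      rw [norm_prod]
      exact Finset.prod_le_prod (fun χ _ => norm_nonneg _)
        fun χ hχ => (hC χ hχ s hs).trans (le_abs_self _)
    exact mul_le_mul (pow_le_pow_left₀ (norm_nonneg _) h3 _) h6 (norm_nonneg _)
      (pow_nonneg (mul_nonneg (norm_nonneg _) (abs_nonneg _)) _)
  exact hc' (tendsto_nhds_unique hprod hlim)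

/-- **The pole order argument.** -/
theorem card_triv_eq_one (L : ι → ℝ → ℂ) (L₀ : ℝ → ℂ) (L1 : ι → ℂ) (triv : Finset ι)
    (hk : 0 < triv.card)
    (h0 : ∀ χ ∈ triv, ∀ s ∈ Set.Ioc (1 : ℝ) 2, L χ s = L₀ s)
    {c : ℂ} (hc0 : c ≠ 0)
    (hc : Tendsto (fun s : ℝ => ((s : ℂ) - 1) * L₀ s) (𝓝[>] (1 : ℝ)) (𝓝 c))
    (hLip : ∀ χ ∉ triv, ∃ B : ℝ, ∀ s ∈ Set.Ioc (1 : ℝ) 2, ‖L χ s - L1 χ‖ ≤ B * (s - 1))
    {c' : ℂ} (hc' : c' ≠ 0)
    (hprod : Tendsto (fun s : ℝ => ((s : ℂ) - 1) * ∏ χ, L χ s) (𝓝[>] (1 : ℝ)) (𝓝 c'))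
    (hrep : ∀ χ₀ ∉ triv, ∃ R : Finset ι, R.card = triv.card ∧
      ∀ χ ∈ R, χ ∉ triv ∧ ∀ s ∈ Set.Ioc (1 : ℝ) 2, L χ s = L χ₀ s) :
    triv.card = 1 := by
  classical
  have hne : ∀ χ ∉ triv, L1 χ ≠ 0 := fun χ hχ =>
    L1_ne_zero L L₀ L1 triv h0 hc hLip hc' hprod hrep hχ
  by_contra hk1
  have hk2 : 2 ≤ triv.card := by omega
  -- the product over the complement of `triv` has a nonzero limit
  have hPi : Tendsto (fun s : ℝ => ∏ χ ∈ univ \ triv, L χ s) (𝓝[>] (1 : ℝ))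
      (𝓝 (∏ χ ∈ univ \ triv, L1 χ)) := by
    refine tendsto_finsetProd _ fun χ hχ => ?_
    have hχt : χ ∉ triv := (Finset.mem_sdiff.mp hχ).2
    obtain ⟨B, hB⟩ := hLip χ hχt
    exact tendsto_of_lip hB
  have hPi0 : ∏ χ ∈ univ \ triv, L1 χ ≠ 0 :=
    Finset.prod_ne_zero_iff.mpr fun χ hχ => hne χ (Finset.mem_sdiff.mp hχ).2
  have hfac : ∀ s ∈ Set.Ioc (1 : ℝ) 2, ∏ χ, L χ s =
      L₀ s ^ triv.card * ∏ χ ∈ univ \ triv, L χ s := by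
    intro s hs
    have h1 : (univ : Finset ι) = triv ∪ (univ \ triv) := by
      rw [Finset.union_sdiff_of_subset (Finset.subset_univ _)]
    have h2 : Disjoint triv (univ \ triv) := Finset.disjoint_sdiff
    conv_lhs => rw [h1]
    rw [Finset.prod_union h2, Finset.prod_congr rfl (fun χ hχ => h0 χ hχ s hs),
      Finset.prod_const]
  -- `(s - 1) L₀ ^ k` has a finite limit
  have h3 : Tendsto (fun s : ℝ => ((s : ℂ) - 1) * L₀ s ^ triv.card) (𝓝[>] (1 : ℝ))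
      (𝓝 (c' / ∏ χ ∈ univ \ triv, L1 χ)) := by
    have h4 := hprod.div hPi hPi0
    refine h4.congr' ?_
    have hev : ∀ᶠ s : ℝ in 𝓝[>] (1 : ℝ), ∏ χ ∈ univ \ triv, L χ s ≠ 0 :=
      hPi.eventually_ne hPi0
    filter_upwards [Ioc_mem_nhdsGT_one, hev] with s hs hs0
    rw [Pi.div_apply, hfac s hs]
    field_simp
  -- multiply by `(s - 1) ^ (k - 1)`
  obtain ⟨j, hj⟩ : ∃ j, triv.card = j + 2 := ⟨triv.card - 2, by omega⟩
  have h5 : Tendsto (fun s : ℝ => ((s : ℂ) - 1) ^ (j + 1) *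
      (((s : ℂ) - 1) * L₀ s ^ triv.card)) (𝓝[>] (1 : ℝ))
      (𝓝 (0 ^ (j + 1) * (c' / ∏ χ ∈ univ \ triv, L1 χ))) :=
    (tendsto_sub_one.pow (j + 1)).mul h3
  rw [zero_pow (Nat.succ_ne_zero j), zero_mul] at h5
  have h6 : Tendsto (fun s : ℝ => (((s : ℂ) - 1) * L₀ s) ^ triv.card) (𝓝[>] (1 : ℝ))
      (𝓝 (c ^ triv.card)) := hc.pow _
  have h7 : (fun s : ℝ => ((s : ℂ) - 1) ^ (j + 1) * (((s : ℂ) - 1) * L₀ s ^ triv.card)) =
      fun s : ℝ => (((s : ℂ) - 1) * L₀ s) ^ triv.card := by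
    funext s
    rw [hj]
    generalize ((s : ℂ) - 1) = u
    ring
  rw [h7] at h5
  exact pow_ne_zero _ hc0 (tendsto_nhds_unique h6 h5)

/-- If `Z = E * P` on `(1, 2]`, `Z` has a simple pole at `1` and `E` has a nonzero limit, then
`P` has a simple pole at `1`. -/
theorem tendsto_of_factor {Z E P : ℝ → ℂ} (hfac : ∀ s ∈ Set.Ioc (1 : ℝ) 2, Z s = E s * P s)
    {cZ e : ℂ} (he : e ≠ 0)
    (hZ : Tendsto (fun s : ℝ => ((s : ℂ) - 1) * Z s) (𝓝[>] (1 : ℝ)) (𝓝 cZ))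
    (hE : Tendsto E (𝓝[>] (1 : ℝ)) (𝓝 e)) :
    Tendsto (fun s : ℝ => ((s : ℂ) - 1) * P s) (𝓝[>] (1 : ℝ)) (𝓝 (cZ / e)) := by
  have h1 := hZ.div hE he
  refine h1.congr' ?_
  have hev : ∀ᶠ s : ℝ in 𝓝[>] (1 : ℝ), E s ≠ 0 := hE.eventually_ne he
  filter_upwards [Ioc_mem_nhdsGT_one, hev] with s hs hs0
  rw [Pi.div_apply, hfac s hs]
  field_simp

section Concrete

open CharGroup

variable (F : Type*) [Field F] [NumberField F] (m : ℕ) [NeZero m]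

/-- **WP-L4** (hypothesis style): if the norm residues form the subgroup `H`, the `L`-series
`LSer F m χ` only depends on `χ` restricted to `H`, `LSer F m 1` has a simple pole at `1`, the
`L`-series of the characters which are not trivial on `H` are Lipschitz near `1` with limits
`L1 χ`, and the product of all `L`-series has a simple pole at `1` (because it is the Dedekind zeta
function of `F(ζ_m)` up to finitely many Euler factors), then every unit residue is a norm residue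
and `L1 χ ≠ 0` for every nontrivial `χ`. -/
theorem eq_top_and_L1_ne_zero (H : Subgroup (ZMod m)ˣ) (L1 : DirichletCharacter ℂ m → ℂ)
    (hdep : ∀ χ ψ : DirichletCharacter ℂ m,
      (∀ a ∈ H, χ ((a : (ZMod m)ˣ) : ZMod m) = ψ ((a : (ZMod m)ˣ) : ZMod m)) →
      ∀ s ∈ Set.Ioc (1 : ℝ) 2, LSer F m χ (s : ℂ) = LSer F m ψ (s : ℂ))
    {c : ℂ} (hc0 : c ≠ 0)
    (hc : Tendsto (fun s : ℝ => ((s : ℂ) - 1) * LSer F m 1 (s : ℂ)) (𝓝[>] (1 : ℝ)) (𝓝 c))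
    (hLip : ∀ χ : DirichletCharacter ℂ m, χ ∉ trivOn H →
      ∃ B : ℝ, ∀ s ∈ Set.Ioc (1 : ℝ) 2, ‖LSer F m χ (s : ℂ) - L1 χ‖ ≤ B * (s - 1))
    {c' : ℂ} (hc' : c' ≠ 0)
    (hprod : Tendsto (fun s : ℝ => ((s : ℂ) - 1) * ∏ χ : DirichletCharacter ℂ m,
      LSer F m χ (s : ℂ)) (𝓝[>] (1 : ℝ)) (𝓝 c')) :
    H = ⊤ ∧ ∀ χ : DirichletCharacter ℂ m, χ ≠ 1 → L1 χ ≠ 0 := by
  classical
  set triv : Finset (DirichletCharacter ℂ m) := univ.filter fun χ => χ ∈ trivOn H with htriv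
  have hmem : ∀ χ, χ ∈ triv ↔ χ ∈ trivOn H := fun χ => by
    rw [htriv, Finset.mem_filter]
    exact ⟨fun h => h.2, fun h => ⟨Finset.mem_univ _, h⟩⟩
  have hcard : triv.card = Nat.card (trivOn H) := by
    rw [Nat.card_eq_fintype_card, htriv, Fintype.card_subtype]
  have hk : 0 < triv.card := by
    rw [hcard]
    exact card_trivOn_pos H
  have h0 : ∀ χ ∈ triv, ∀ s ∈ Set.Ioc (1 : ℝ) 2, LSer F m χ (s : ℂ) = LSer F m 1 (s : ℂ) :=
    fun χ hχ s hs => hdep χ 1 (fun a ha => by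
      rw [(hmem χ).mp hχ a ha, MulChar.one_apply_coe]) s hs
  have hLip' : ∀ χ ∉ triv, ∃ B : ℝ, ∀ s ∈ Set.Ioc (1 : ℝ) 2,
      ‖LSer F m χ (s : ℂ) - L1 χ‖ ≤ B * (s - 1) := fun χ hχ =>
    hLip χ (fun h => hχ ((hmem χ).mpr h))
  have hrep : ∀ χ₀ ∉ triv, ∃ R : Finset (DirichletCharacter ℂ m), R.card = triv.card ∧
      ∀ χ ∈ R, χ ∉ triv ∧ ∀ s ∈ Set.Ioc (1 : ℝ) 2,
        LSer F m χ (s : ℂ) = LSer F m χ₀ (s : ℂ) := by
    intro χ₀ hχ₀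
    refine ⟨triv.image fun χ₁ => χ₀ * χ₁,
      Finset.card_image_of_injective _ (mul_left_injective' χ₀), ?_⟩
    intro χ hχ
    obtain ⟨χ₁, hχ₁, rfl⟩ := Finset.mem_image.mp hχ
    have h₁ : χ₁ ∈ trivOn H := (hmem χ₁).mp hχ₁
    refine ⟨fun h => hχ₀ ((hmem χ₀).mpr ((mul_mem_trivOn_iff χ₀ h₁).mp ((hmem _).mp h))), ?_⟩
    exact fun s hs => hdep _ _ (fun a ha => mul_apply_of_mem_trivOn χ₀ h₁ ha) s hs
  have hone := card_triv_eq_one (fun χ (s : ℝ) => LSer F m χ (s : ℂ))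
    (fun s : ℝ => LSer F m 1 (s : ℂ)) L1 triv hk h0 hc0 hc hLip' hc' hprod hrep
  have htop : H = ⊤ := eq_top_of_card_trivOn_eq_one (hcard ▸ hone)
  refine ⟨htop, fun χ hχ => ?_⟩
  have hχt : χ ∉ triv := by
    intro h
    apply hχ
    have h2 := (hmem χ).mp h
    rw [htop] at h2
    ext a
    rw [MulChar.one_apply_coe]
    exact h2 a (Subgroup.mem_top a)
  exact L1_ne_zero (fun χ (s : ℝ) => LSer F m χ (s : ℂ))
    (fun s : ℝ => LSer F m 1 (s : ℂ)) L1 triv h0 hc hLip' hc' hprod hrep hχt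

end Concrete

end Fermat.Agent.Lib.CFT.Cheb.NonVanishing
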