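/-
helper56 (P-CFT by-product CHEBOTAREV, WP-L5, glue).  The generalized Dirichlet theorem from
`PartialZetaLipschitz` (WP-Z) and the factorisation of the Dedekind zeta function of `F(ζ_m)`
(WP-L3), through WP-L2 (`LSeries.lean`) and WP-L4 (`NonVanishingGlue.lean`).
-/
import Fermat.Agent.Lib.CFT.Cheb.PrimeSum
import Fermat.Agent.Lib.CFT.Cheb.NonVanishingGlue

set_option autoImplicit false

namespace Fermat.Agent.Lib.CFT.Cheb.PrimeSum

open NumberField Filter Topology
open Fermat.Agent.Lib.CFT.Unram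

universe u

section

variable (F : Type u) [Field F] [NumberField F] (m : ℕ) [NeZero m]

/-- The `L`-series of the trivial character tends to infinity at `1⁺`. -/
theorem tendsto_norm_LSer_one_atTop :
    Tendsto (fun s : ℝ => ‖LSer F m (1 : DirichletCharacter ℂ m) (s : ℂ)‖)
      (𝓝[>] (1 : ℝ)) atTop := by
  have h1 := (LSeries.tendsto_sub_one_mul_LSer_one F m).norm
  have hpos : 0 < ‖((LSeries.poleConst F m : ℝ) : ℂ)‖ := by
    rw [Complex.norm_real, Real.norm_eq_abs, abs_of_pos (LSeries.poleConst_pos F m)]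
    exact LSeries.poleConst_pos F m
  have h2 : Tendsto (fun s : ℝ => (s - 1)⁻¹) (𝓝[>] (1 : ℝ)) atTop := by
    have h3 : Tendsto (fun s : ℝ => s - 1) (𝓝[>] (1 : ℝ)) (𝓝[>] (0 : ℝ)) := by
      refine tendsto_nhdsWithin_of_tendsto_nhds_of_eventually_within _ ?_ ?_
      · have : Tendsto (fun s : ℝ => s - 1) (𝓝 (1 : ℝ)) (𝓝 (1 - 1)) :=
          (continuous_id.sub continuous_const).tendsto 1
        rw [sub_self] at this
        exact this.mono_left nhdsWithin_le_nhds
      · filter_upwards [self_mem_nhdsWithin] with s hs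
        exact Set.mem_Ioi.mpr (sub_pos.mpr (Set.mem_Ioi.mp hs))
    exact tendsto_inv_nhdsGT_zero.comp h3
  have h4 := h1.pos_mul_atTop hpos h2
  refine h4.congr' ?_
  filter_upwards [self_mem_nhdsWithin] with s hs
  have hs1 : (0 : ℝ) < s - 1 := sub_pos.mpr (Set.mem_Ioi.mp hs)
  have h5 : ‖((s : ℂ) - 1)‖ = s - 1 := by
    rw [← Complex.ofReal_one, ← Complex.ofReal_sub, Complex.norm_real, Real.norm_eq_abs,
      abs_of_pos hs1]
  rw [norm_mul, h5]
  field_simp

/-- The input of `degOnePrimes_infinite` from WP-Z, WP-L2, WP-L4 and a factorisation of the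
Dedekind zeta function of a number field `M` (WP-L3, `M = F(ζ_m)`). -/
theorem lserLimits_of_factor (hZ : PartialZetaLipschitz.{u})
    (M : Type*) [Field M] [NumberField M]
    (E : ℝ → ℂ) {e : ℂ} (he : e ≠ 0) (hE : Tendsto E (𝓝[>] (1 : ℝ)) (𝓝 e))
    (hfac : ∀ s ∈ Set.Ioc (1 : ℝ) 2, ((EulerProduct.zetaReal M s : ℝ) : ℂ) =
      E s * ∏ χ : DirichletCharacter ℂ m, LSer F m χ (s : ℂ)) :
    LSerLimits F m where
  limit_ne_zero χ hχ := by
    obtain ⟨L1, hL1, -, -, -, hlim⟩ :=
      (NonVanishing.normResidues_eq_univ_and_limit_ne_zero_of_factor F m hZ M E he hE hfac).2 χ hχ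
    exact ⟨L1, hL1, hlim⟩
  pole := tendsto_norm_LSer_one_atTop F m

end

/-- The shape of the output of WP-L3 which is consumed here: for `Φ_m` irreducible over `F`
there is a number field `M` (namely `F(ζ_m)`) whose Dedekind zeta function is, up to a factor
with a nonzero limit at `1⁺`, the product of the `L`-series of the norm-residue characters. -/
def ZetaFactorization : Prop :=
  ∀ (F : Type u) [Field F] [NumberField F] (m : ℕ) [NeZero m],
    Irreducible (Polynomial.cyclotomic m F) →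
    ∃ (M : Type u) (_ : Field M) (_ : NumberField M) (E : ℝ → ℂ) (e : ℂ), e ≠ 0 ∧
      Tendsto E (𝓝[>] (1 : ℝ)) (𝓝 e) ∧
      ∀ s ∈ Set.Ioc (1 : ℝ) 2, ((EulerProduct.zetaReal M s : ℝ) : ℂ) =
        E s * ∏ χ : DirichletCharacter ℂ m, LSer F m χ (s : ℂ)

/-- **WP-L5, final form**: the generalized Dirichlet theorem from WP-Z and WP-L3. -/
theorem cyclotomicDirichlet_of_factor (hZ : PartialZetaLipschitz.{u})
    (hL3 : ZetaFactorization.{u}) : CyclotomicDirichlet.{u} := by
  refine cyclotomicDirichlet_of_lserLimits fun F _ _ m _ hirr => ?_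
  obtain ⟨M, _, _, E, e, he, hE, hfac⟩ := hL3 F m hirr
  exact lserLimits_of_factor F m hZ M E he hE hfac

end Fermat.Agent.Lib.CFT.Cheb.PrimeSum
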